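import Mathlib
import Fermat.Agent.S23.DataForms

/-!
# S20 via trace duality: basic definitions

`A k`   : level-one modular forms of weight `k`, as a `ℂ`-subspace of functions `ℍ → ℂ`.
`A0 k`  : level-one cusp forms.
`R N k` : modular forms on `Γ₀(N)` of weight `k`;  `S N k` : cusp forms on `Γ₀(N)`.
`conj N k F q` : the conjugate `F ∣[k] h⁻¹` of `F` by the coset `q = ⟦h⟧ ∈ Q N = SL₂(ℤ)/Γ₀(N)`.
`tr N k F`     : the trace `∑_q conj N k F q` (a level-one form when `F ∈ R N k`).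
`Basis N`      : a finite homogeneous basis of `R N = ⊕_k R N k` as a module over `A = ⊕_k A k`.
-/

set_option autoImplicit false

open UpperHalfPlane ModularFormClass CongruenceSubgroup
open scoped MatrixGroups ModularForm Manifold

namespace Fermat.Agent.S20T

open Fermat.Agent.S23L.Data (Q G0 perm cj toSL fintypeQ)

attribute [local instance] fintypeQ

/-- Level-one modular forms of weight `k`, as functions. -/
def A (k : ℤ) : Submodule ℂ (ℍ → ℂ) where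
  carrier := {F | ∃ f : ModularForm 𝒮ℒ k, ⇑f = F}
  zero_mem' := ⟨0, rfl⟩
  add_mem' := by
    rintro _ _ ⟨f, rfl⟩ ⟨g, rfl⟩
    exact ⟨f + g, rfl⟩
  smul_mem' := by
    rintro c _ ⟨f, rfl⟩
    exact ⟨c • f, rfl⟩

/-- Level-one cusp forms of weight `k`, as functions. -/
def A0 (k : ℤ) : Submodule ℂ (ℍ → ℂ) where
  carrier := {F | ∃ f : CuspForm 𝒮ℒ k, ⇑f = F}
  zero_mem' := ⟨0, rfl⟩
  add_mem' := by
    rintro _ _ ⟨f, rfl⟩ ⟨g, rfl⟩
    exact ⟨f + g, rfl⟩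
  smul_mem' := by
    rintro c _ ⟨f, rfl⟩
    exact ⟨c • f, rfl⟩

/-- Modular forms of weight `k` on `Γ₀(N)`, as functions. -/
def R (N : ℕ) (k : ℤ) : Submodule ℂ (ℍ → ℂ) where
  carrier := {F | ∃ f : ModularForm (Gamma0 N) k, ⇑f = F}
  zero_mem' := ⟨0, rfl⟩
  add_mem' := by
    rintro _ _ ⟨f, rfl⟩ ⟨g, rfl⟩
    exact ⟨f + g, rfl⟩
  smul_mem' := by
    rintro c _ ⟨f, rfl⟩
    exact ⟨c • f, rfl⟩

/-- Cusp forms of weight `k` on `Γ₀(N)`, as functions. -/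
def S (N : ℕ) (k : ℤ) : Submodule ℂ (ℍ → ℂ) where
  carrier := {F | ∃ f : CuspForm (Gamma0 N) k, ⇑f = F}
  zero_mem' := ⟨0, rfl⟩
  add_mem' := by
    rintro _ _ ⟨f, rfl⟩ ⟨g, rfl⟩
    exact ⟨f + g, rfl⟩
  smul_mem' := by
    rintro c _ ⟨f, rfl⟩
    exact ⟨c • f, rfl⟩

theorem mem_A {k : ℤ} {F : ℍ → ℂ} : F ∈ A k ↔ ∃ f : ModularForm 𝒮ℒ k, ⇑f = F := Iff.rfl

theorem mem_A0 {k : ℤ} {F : ℍ → ℂ} : F ∈ A0 k ↔ ∃ f : CuspForm 𝒮ℒ k, ⇑f = F := Iff.rfl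

theorem mem_R {N : ℕ} {k : ℤ} {F : ℍ → ℂ} :
    F ∈ R N k ↔ ∃ f : ModularForm (Gamma0 N) k, ⇑f = F := Iff.rfl

theorem mem_S {N : ℕ} {k : ℤ} {F : ℍ → ℂ} :
    F ∈ S N k ↔ ∃ f : CuspForm (Gamma0 N) k, ⇑f = F := Iff.rfl

/-- The discriminant, as a function. -/
noncomputable abbrev Dl : ℍ → ℂ := ModularForm.discriminant

/-- `E₄`, as a function. -/
noncomputable abbrev E4 : ℍ → ℂ := ⇑ModularForm.E₄

/-- `E₆`, as a function. -/
noncomputable abbrev E6 : ℍ → ℂ := ⇑ModularForm.E₆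

/-- The conjugate of `F` by the coset `q` (meaningful for `F ∈ R N k`). -/
noncomputable def conj (N : ℕ) (k : ℤ) (F : ℍ → ℂ) (q : Q N) : ℍ → ℂ :=
  F ∣[k] ((Quotient.out q : 𝒮ℒ) : GL (Fin 2) ℝ)⁻¹

/-- The trace to level one. -/
noncomputable def tr (N : ℕ) [NeZero N] (k : ℤ) (F : ℍ → ℂ) : ℍ → ℂ :=
  ∑ q : Q N, conj N k F q

/-- A finite homogeneous basis of `⊕_k R N k` over `⊕_k A k`. -/
structure Basis (N : ℕ) where
  /-- index type -/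
  ι : Type
  /-- finiteness -/
  fin : Fintype ι
  /-- degrees of the generators -/
  d : ι → ℤ
  /-- the generators -/
  r : ι → ℍ → ℂ
  mem : ∀ i, r i ∈ R N (d i)
  span : ∀ (k : ℤ) (F : ℍ → ℂ), F ∈ R N k →
    ∃ a : ι → ℍ → ℂ, (∀ i, a i ∈ A (k - d i)) ∧ F = ∑ i, a i * r i
  indep : ∀ (k : ℤ) (a : ι → ℍ → ℂ), (∀ i, a i ∈ A (k - d i)) → ∑ i, a i * r i = 0 →
    ∀ i, a i = 0

attribute [instance] Basis.fin

/-- "prime-like" level-one forms: nonvanishing at `i∞` and with only simple zeros. -/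
def IsPrimeLike (c : ℍ → ℂ) : Prop :=
  (∃ ε : ℝ, 0 < ε ∧ ∀ᶠ z in atImInfty, ε ≤ ‖c z‖) ∧
    ∀ z : ℍ, c z = 0 → deriv (c ∘ ofComplex) z ≠ 0

end Fermat.Agent.S20T
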