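import Mathlib
import Fermat.Agent.S20T.Defs

/-!
# S20T: closure properties and vanishing results for `A`, `A0`, `R`, `S`
-/

set_option autoImplicit false

open UpperHalfPlane ModularFormClass CongruenceSubgroup
open scoped MatrixGroups ModularForm Manifold

namespace Fermat.Agent.S20T

open Fermat.Agent.S23L.Data (Q G0 perm cj toSL fintypeQ)

variable {N : ℕ} {k l : ℤ} {F G a : ℍ → ℂ}

/-- the image of `Γ₀(N)` in `GL₂(ℝ)` is contained in the image of `SL₂(ℤ)` -/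
theorem bs_G0_le (N : ℕ) : G0 N ≤ 𝒮ℒ := Subgroup.map_le_range _ _

/-- membership of the image of an element of `Γ₀(N)` -/
theorem bs_mem_G0 {γ : SL(2, ℤ)} (hγ : γ ∈ Gamma0 N) :
    (Matrix.SpecialLinearGroup.mapGL ℝ γ : GL (Fin 2) ℝ) ∈ G0 N :=
  Subgroup.mem_map_of_mem _ hγ

theorem one_mem_A : (1 : ℍ → ℂ) ∈ A 0 := ⟨1, rfl⟩

theorem E4_mem_A : E4 ∈ A 4 := ⟨ModularForm.E₄, rfl⟩

theorem E6_mem_A : E6 ∈ A 6 := ⟨ModularForm.E₆, rfl⟩

theorem Dl_mem_A0 : Dl ∈ A0 12 := ⟨CuspForm.discriminant, rfl⟩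

theorem Dl_ne_zero (z : ℍ) : Dl z ≠ 0 := ModularForm.discriminant_ne_zero z

theorem A0_le_A (k : ℤ) : A0 k ≤ A k := by
  rintro _ ⟨f, rfl⟩
  exact ⟨ModularFormClass.modularForm f, rfl⟩

theorem A_le_R (N : ℕ) (k : ℤ) : A k ≤ R N k := by
  rintro _ ⟨f, rfl⟩
  exact ⟨{ toFun := f
           slash_action_eq' := fun γ hγ => f.slash_action_eq' γ (bs_G0_le N hγ)
           holo' := f.holo'
           bdd_at_cusps' := fun hc => f.bdd_at_cusps' (hc.mono (bs_G0_le N)) }, rfl⟩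

theorem S_le_R (N : ℕ) (k : ℤ) : S N k ≤ R N k := by
  rintro _ ⟨f, rfl⟩
  exact ⟨ModularFormClass.modularForm f, rfl⟩

theorem A0_le_S (N : ℕ) (k : ℤ) : A0 k ≤ S N k := by
  rintro _ ⟨f, rfl⟩
  exact ⟨{ toFun := f
           slash_action_eq' := fun γ hγ => f.slash_action_eq' γ (bs_G0_le N hγ)
           holo' := f.holo'
           zero_at_cusps' := fun hc => f.zero_at_cusps' (hc.mono (bs_G0_le N)) }, rfl⟩

theorem A_mul (hF : F ∈ A k) (hG : G ∈ A l) : F * G ∈ A (k + l) := by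
  obtain ⟨f, rfl⟩ := hF
  obtain ⟨g, rfl⟩ := hG
  exact ⟨f.mul g, rfl⟩

theorem A_mul_A0 (hF : F ∈ A k) (hG : G ∈ A0 l) : F * G ∈ A0 (k + l) := by
  obtain ⟨f, rfl⟩ := hF
  obtain ⟨g, rfl⟩ := hG
  exact ⟨CuspForm.mcast (add_comm l k) (g.mulModularForm f), mul_comm _ _⟩

theorem R_mul (hF : F ∈ R N k) (hG : G ∈ R N l) : F * G ∈ R N (k + l) := by
  obtain ⟨f, rfl⟩ := hF
  obtain ⟨g, rfl⟩ := hG
  exact ⟨f.mul g, rfl⟩

theorem R_mul_S (hF : F ∈ R N k) (hG : G ∈ S N l) : F * G ∈ S N (k + l) := by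
  obtain ⟨f, rfl⟩ := hF
  obtain ⟨g, rfl⟩ := hG
  exact ⟨CuspForm.mcast (add_comm l k) (g.mulModularForm f), mul_comm _ _⟩

theorem A_pow (hF : F ∈ A k) (m : ℕ) : F ^ m ∈ A (m * k) := by
  obtain ⟨f, rfl⟩ := hF
  exact ⟨f.pow m, ModularForm.coe_pow f m⟩

theorem R_pow (hF : F ∈ R N k) (m : ℕ) : F ^ m ∈ R N (m * k) := by
  obtain ⟨f, rfl⟩ := hF
  exact ⟨f.pow m, ModularForm.coe_pow f m⟩

/-- weights may be rewritten along equalities -/
theorem A_cast (h : k = l) (hF : F ∈ A k) : F ∈ A l := h ▸ hF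

theorem R_cast (h : k = l) (hF : F ∈ R N k) : F ∈ R N l := h ▸ hF

theorem S_cast (h : k = l) (hF : F ∈ S N k) : F ∈ S N l := h ▸ hF

theorem mdiff_of_mem_R (hF : F ∈ R N k) : MDiff F := by
  obtain ⟨f, rfl⟩ := hF
  exact f.holo'

theorem mdiff_of_mem_A (hF : F ∈ A k) : MDiff F := by
  obtain ⟨f, rfl⟩ := hF
  exact f.holo'

/-- the ring of holomorphic functions on `ℍ` has no zero divisors -/
theorem eq_zero_or_eq_zero_of_mul (hF : MDiff F) (hG : MDiff G) (h : F * G = 0) :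
    F = 0 ∨ G = 0 :=
  (UpperHalfPlane.mul_eq_zero_iff hF hG).mp h

theorem slash_of_mem_A (hF : F ∈ A k) (γ : SL(2, ℤ)) : F ∣[k] γ = F := by
  obtain ⟨f, rfl⟩ := hF
  exact f.slash_action_eq' _ ⟨γ, rfl⟩

theorem slash_of_mem_R (hF : F ∈ R N k) (γ : SL(2, ℤ)) (hγ : γ ∈ Gamma0 N) : F ∣[k] γ = F := by
  obtain ⟨f, rfl⟩ := hF
  exact f.slash_action_eq' _ (bs_mem_G0 hγ)

/-- a holomorphic `SL₂(ℤ)`-invariant function, bounded at `i∞`, is in `A k`. -/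
theorem mem_A_of_invariant (hF : MDiff F) (hb : IsBoundedAtImInfty F)
    (hinv : ∀ γ : SL(2, ℤ), F ∣[k] γ = F) : F ∈ A k :=
  Fermat.Agent.S23L.Data.exists_modularForm_of_invariant k F hF hb (by
    rintro _ ⟨γ, rfl⟩
    exact hinv γ)

theorem mem_A0_iff : F ∈ A0 k ↔ F ∈ A k ∧ IsZeroAtImInfty F := by
  constructor
  · intro hF
    refine ⟨A0_le_A k hF, ?_⟩
    obtain ⟨f, rfl⟩ := hF
    exact CuspFormClass.zero_at_infty f
  · rintro ⟨hF, hz⟩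
    exact Fermat.Agent.S23L.Data.exists_cuspForm_of_invariant k F (mdiff_of_mem_A hF) hz (by
      rintro _ ⟨γ, rfl⟩
      exact slash_of_mem_A hF γ)

/-- a holomorphic `Γ₀(N)`-invariant function all of whose `SL₂(ℤ)`-translates are bounded
at `i∞` is in `R N k`. -/
theorem mem_R_of_invariant [NeZero N] (hF : MDiff F)
    (hinv : ∀ γ : SL(2, ℤ), γ ∈ Gamma0 N → F ∣[k] γ = F)
    (hb : ∀ γ : SL(2, ℤ), IsBoundedAtImInfty (F ∣[k] γ)) : F ∈ R N k :=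
  ⟨{ toFun := F
     slash_action_eq' := by
       rintro _ ⟨γ, hγ, rfl⟩
       exact hinv γ hγ
     holo' := hF
     bdd_at_cusps' := fun {c} hc => by
       rw [OnePoint.isBoundedAt_iff_forall_SL2Z (hc.mono (bs_G0_le N))]
       intro γ _
       exact hb γ }, rfl⟩

theorem bdd_slash_of_mem_R [NeZero N] (hF : F ∈ R N k) (γ : SL(2, ℤ)) :
    IsBoundedAtImInfty (F ∣[k] γ) := by
  obtain ⟨f, rfl⟩ := hF
  exact ModularFormClass.bdd_at_infty_slash f γ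

theorem mem_S_iff [NeZero N] :
    F ∈ S N k ↔ F ∈ R N k ∧ ∀ γ : SL(2, ℤ), IsZeroAtImInfty (F ∣[k] γ) := by
  constructor
  · intro hF
    refine ⟨S_le_R N k hF, ?_⟩
    obtain ⟨f, rfl⟩ := hF
    intro γ
    exact CuspFormClass.zero_at_infty_slash f γ
  · rintro ⟨⟨f, rfl⟩, hz⟩
    exact ⟨{ toFun := f
             slash_action_eq' := f.slash_action_eq'
             holo' := f.holo'
             zero_at_cusps' := fun {c} hc => by
               rw [OnePoint.isZeroAt_iff_forall_SL2Z (hc.mono (bs_G0_le N))]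
               intro γ _
               exact hz γ }, rfl⟩

/-! ### vanishing -/

theorem A_eq_bot_of_neg (hk : k < 0) : A k = ⊥ := by
  rw [eq_bot_iff]
  rintro _ ⟨f, rfl⟩
  exact ModularFormClass.levelOne_neg_weight_eq_zero hk f

theorem A_eq_bot_of_odd (hk : Odd k) : A k = ⊥ := by
  rw [eq_bot_iff]
  rintro _ ⟨f, rfl⟩
  rw [ModularForm.levelOne_odd_weight_eq_zero hk f]
  rfl

theorem R_eq_bot_of_neg [NeZero N] (hk : k < 0) : R N k = ⊥ := by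
  rw [eq_bot_iff]
  rintro _ ⟨f, rfl⟩
  rw [ModularForm.isZero_of_neg_weight hk f]
  rfl

theorem R_eq_bot_of_odd [NeZero N] (hk : Odd k) : R N k = ⊥ := by
  rw [eq_bot_iff]
  rintro _ ⟨f, rfl⟩
  have h1 : (-1 : GL (Fin 2) ℝ) ∈ G0 N :=
    ⟨-1, by simp [Gamma0_mem], by ext; simp⟩
  rw [ModularForm.eq_zero_of_neg_one_mem h1 hk f]
  rfl

theorem mem_R_zero [NeZero N] (hF : F ∈ R N 0) : ∃ c : ℂ, F = Function.const ℍ c := by
  obtain ⟨f, rfl⟩ := hF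
  exact ModularForm.eq_const_of_weight_zero f

theorem const_mem_A (c : ℂ) : Function.const ℍ c ∈ A 0 := ⟨ModularForm.const c, rfl⟩

theorem S_eq_bot_of_nonpos [NeZero N] (hk : k ≤ 0) : S N k = ⊥ := by
  rcases hk.lt_or_eq with hk | rfl
  · exact eq_bot_iff.mpr ((S_le_R N k).trans (R_eq_bot_of_neg hk).le)
  · rw [eq_bot_iff]
    intro F hF
    obtain ⟨c, rfl⟩ := mem_R_zero (S_le_R N 0 hF)
    obtain ⟨f, hf⟩ := hF
    have hz : IsZeroAtImInfty (Function.const ℍ c) := hf ▸ CuspFormClass.zero_at_infty f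
    have hc : c = 0 := tendsto_const_nhds_iff.mp hz
    subst hc
    rfl

/-! ### division by `Δ` at level one -/

theorem mem_A0_iff_exists : F ∈ A0 k ↔ ∃ F' ∈ A (k - 12), F = Dl * F' := by
  constructor
  · rintro ⟨f, rfl⟩
    exact ⟨_, ⟨CuspForm.discriminantEquiv f, rfl⟩,
      (ModularForm.discriminant_mul_discriminantEquiv f).symm⟩
  · rintro ⟨_, ⟨f, rfl⟩, rfl⟩
    exact ⟨CuspForm.ofMulDiscriminant f, rfl⟩

/-! ### auxiliary variants (convenience lemmas, not part of the frozen interface) -/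

theorem bs_Dl_mem_A : Dl ∈ A 12 := A0_le_A 12 Dl_mem_A0

theorem bs_neg_one_mem_G0 (N : ℕ) : (-1 : GL (Fin 2) ℝ) ∈ G0 N :=
  ⟨-1, by simp [Gamma0_mem], by ext; simp⟩

theorem bs_one_mem_R (N : ℕ) : (1 : ℍ → ℂ) ∈ R N 0 := A_le_R N 0 one_mem_A

theorem bs_const_mem_R (N : ℕ) (c : ℂ) : Function.const ℍ c ∈ R N 0 :=
  A_le_R N 0 (const_mem_A c)

theorem bs_mdiff_of_mem_A0 (hF : F ∈ A0 k) : MDiff F := mdiff_of_mem_A (A0_le_A k hF)

theorem bs_mdiff_of_mem_S (hF : F ∈ S N k) : MDiff F := mdiff_of_mem_R (S_le_R N k hF)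

/-- invariance under the image of `SL₂(ℤ)` in `GL₂(ℝ)` -/
theorem bs_slash_GL_of_mem_A (hF : F ∈ A k) {g : GL (Fin 2) ℝ} (hg : g ∈ 𝒮ℒ) :
    F ∣[k] g = F := by
  obtain ⟨f, rfl⟩ := hF
  exact f.slash_action_eq' g hg

/-- invariance under the image of `Γ₀(N)` in `GL₂(ℝ)` -/
theorem bs_slash_GL_of_mem_R (hF : F ∈ R N k) {g : GL (Fin 2) ℝ} (hg : g ∈ G0 N) :
    F ∣[k] g = F := by
  obtain ⟨f, rfl⟩ := hF
  exact f.slash_action_eq' g hg

theorem bs_bdd_of_mem_A (hF : F ∈ A k) : IsBoundedAtImInfty F := by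
  obtain ⟨f, rfl⟩ := hF
  exact ModularFormClass.bdd_at_infty f

theorem bs_zero_of_mem_A0 (hF : F ∈ A0 k) : IsZeroAtImInfty F := (mem_A0_iff.mp hF).2

theorem bs_bdd_of_mem_R [NeZero N] (hF : F ∈ R N k) : IsBoundedAtImInfty F := by
  obtain ⟨f, rfl⟩ := hF
  exact ModularFormClass.bdd_at_infty f

theorem bs_zero_slash_of_mem_S [NeZero N] (hF : F ∈ S N k) (γ : SL(2, ℤ)) :
    IsZeroAtImInfty (F ∣[k] γ) := (mem_S_iff.mp hF).2 γ

theorem bs_zero_of_mem_S [NeZero N] (hF : F ∈ S N k) : IsZeroAtImInfty F := by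
  obtain ⟨f, rfl⟩ := hF
  exact CuspFormClass.zero_at_infty f

/-- a holomorphic `SL₂(ℤ)`-invariant function vanishing at `i∞` is in `A0 k`. -/
theorem bs_mem_A0_of_invariant (hF : MDiff F) (hz : IsZeroAtImInfty F)
    (hinv : ∀ γ : SL(2, ℤ), F ∣[k] γ = F) : F ∈ A0 k :=
  mem_A0_iff.mpr ⟨mem_A_of_invariant hF hz.boundedAtFilter hinv, hz⟩

/-- a holomorphic `Γ₀(N)`-invariant function all of whose `SL₂(ℤ)`-translates vanish at `i∞`
is in `S N k`. -/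
theorem bs_mem_S_of_invariant [NeZero N] (hF : MDiff F)
    (hinv : ∀ γ : SL(2, ℤ), γ ∈ Gamma0 N → F ∣[k] γ = F)
    (hz : ∀ γ : SL(2, ℤ), IsZeroAtImInfty (F ∣[k] γ)) : F ∈ S N k :=
  mem_S_iff.mpr ⟨mem_R_of_invariant hF hinv fun γ => (hz γ).boundedAtFilter, hz⟩

theorem bs_A0_mul_A (hF : F ∈ A0 k) (hG : G ∈ A l) : F * G ∈ A0 (k + l) := by
  obtain ⟨f, rfl⟩ := hF
  obtain ⟨g, rfl⟩ := hG
  exact ⟨f.mulModularForm g, rfl⟩

theorem bs_S_mul_R (hF : F ∈ S N k) (hG : G ∈ R N l) : F * G ∈ S N (k + l) := by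
  obtain ⟨f, rfl⟩ := hF
  obtain ⟨g, rfl⟩ := hG
  exact ⟨f.mulModularForm g, rfl⟩

theorem bs_A_mul_R (hF : F ∈ A k) (hG : G ∈ R N l) : F * G ∈ R N (k + l) :=
  R_mul (A_le_R N k hF) hG

theorem bs_A_mul_S (hF : F ∈ A k) (hG : G ∈ S N l) : F * G ∈ S N (k + l) :=
  R_mul_S (A_le_R N k hF) hG

theorem bs_A0_mul_R (hF : F ∈ A0 k) (hG : G ∈ R N l) : F * G ∈ S N (k + l) :=
  bs_S_mul_R (A0_le_S N k hF) hG

theorem bs_Dl_mul_mem_A0 (hF : F ∈ A k) : Dl * F ∈ A0 (12 + k) := bs_A0_mul_A Dl_mem_A0 hF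

theorem bs_Dl_mul_mem_S (hF : F ∈ R N k) : Dl * F ∈ S N (12 + k) := bs_A0_mul_R Dl_mem_A0 hF

theorem bs_Dl_pow_mem_A (m : ℕ) : Dl ^ m ∈ A (m * 12) := A_pow bs_Dl_mem_A m

theorem bs_prod_mem_A {ι : Type*} (s : Finset ι) (d : ι → ℤ) (f : ι → ℍ → ℂ)
    (h : ∀ i ∈ s, f i ∈ A (d i)) : ∏ i ∈ s, f i ∈ A (∑ i ∈ s, d i) := by
  classical
  induction s using Finset.induction_on with
  | empty => simpa using one_mem_A
  | insert i t hi ih =>
    rw [Finset.prod_insert hi, Finset.sum_insert hi]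
    exact A_mul (h i (Finset.mem_insert_self i t))
      (ih fun j hj => h j (Finset.mem_insert_of_mem hj))

theorem bs_prod_mem_R {ι : Type*} (s : Finset ι) (d : ι → ℤ) (f : ι → ℍ → ℂ)
    (h : ∀ i ∈ s, f i ∈ R N (d i)) : ∏ i ∈ s, f i ∈ R N (∑ i ∈ s, d i) := by
  classical
  induction s using Finset.induction_on with
  | empty => simpa using bs_one_mem_R N
  | insert i t hi ih =>
    rw [Finset.prod_insert hi, Finset.sum_insert hi]
    exact R_mul (h i (Finset.mem_insert_self i t))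
      (ih fun j hj => h j (Finset.mem_insert_of_mem hj))

theorem bs_mem_A_zero (hF : F ∈ A 0) : ∃ c : ℂ, F = Function.const ℍ c := by
  obtain ⟨f, rfl⟩ := hF
  exact ModularFormClass.levelOne_weight_zero_const f

theorem bs_eq_zero_of_mem_A_neg (hk : k < 0) (hF : F ∈ A k) : F = 0 :=
  (Submodule.mem_bot ℂ).mp (A_eq_bot_of_neg hk ▸ hF)

theorem bs_eq_zero_of_mem_A_odd (hk : Odd k) (hF : F ∈ A k) : F = 0 :=
  (Submodule.mem_bot ℂ).mp (A_eq_bot_of_odd hk ▸ hF)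

theorem bs_eq_zero_of_mem_R_neg [NeZero N] (hk : k < 0) (hF : F ∈ R N k) : F = 0 :=
  (Submodule.mem_bot ℂ).mp (R_eq_bot_of_neg (N := N) hk ▸ hF)

theorem bs_eq_zero_of_mem_R_odd [NeZero N] (hk : Odd k) (hF : F ∈ R N k) : F = 0 :=
  (Submodule.mem_bot ℂ).mp (R_eq_bot_of_odd (N := N) hk ▸ hF)

theorem bs_eq_zero_of_mem_S_nonpos [NeZero N] (hk : k ≤ 0) (hF : F ∈ S N k) : F = 0 :=
  (Submodule.mem_bot ℂ).mp (S_eq_bot_of_nonpos (N := N) hk ▸ hF)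

/-- level-one cusp forms of weight `< 12` vanish -/
theorem bs_A0_eq_bot_of_lt (hk : k < 12) : A0 k = ⊥ := by
  rw [eq_bot_iff]
  intro F hF
  obtain ⟨F', hF', rfl⟩ := mem_A0_iff_exists.mp hF
  rw [bs_eq_zero_of_mem_A_neg (by omega) hF', mul_zero]
  exact Submodule.zero_mem _

end Fermat.Agent.S20T
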