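import Mathlib

/-!
# S20T: power sums detect zero (pure algebra over `ℂ`)
-/

set_option autoImplicit false

namespace Fermat.Agent.S20T

/-- Newton's identities: if the power sums `∑ x_i^m`, `1 ≤ m ≤ n`, vanish, then so do the
elementary symmetric functions `e_k`, `1 ≤ k ≤ n`, of the `x_i`. -/
theorem nw_esymm_eq_zero {ι : Type*} [Fintype ι] (x : ι → ℂ)
    (h : ∀ m : ℕ, 1 ≤ m → m ≤ Fintype.card ι → ∑ i, x i ^ m = 0) (k : ℕ) (hk1 : 1 ≤ k)
    (hkn : k ≤ Fintype.card ι) : (Finset.univ.val.map x).esymm k = 0 := by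
  classical
  rw [← MvPolynomial.aeval_esymm_eq_multiset_esymm ι ℂ]
  have h1 := congrArg (MvPolynomial.aeval x) (MvPolynomial.mul_esymm_eq_sum ι ℂ k)
  simp only [map_mul, map_natCast, map_pow, map_neg, map_one, map_sum] at h1
  have h2 : ∀ a ∈ (Finset.HasAntidiagonal.antidiagonal k).filter (fun a : ℕ × ℕ => a.1 < k),
      (-1 : ℂ) ^ a.1 * MvPolynomial.aeval x (MvPolynomial.esymm ι ℂ a.1) *
        MvPolynomial.aeval x (MvPolynomial.psum ι ℂ a.2) = 0 := by
    intro a ha
    rw [Finset.mem_filter, Finset.HasAntidiagonal.mem_antidiagonal] at ha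
    have h3 : MvPolynomial.aeval x (MvPolynomial.psum ι ℂ a.2) = 0 := by
      simp only [MvPolynomial.psum, map_sum, map_pow, MvPolynomial.aeval_X]
      exact h a.2 (by omega) (by omega)
    rw [h3, mul_zero]
  rw [Finset.sum_eq_zero h2, mul_zero] at h1
  have hk0 : (k : ℂ) ≠ 0 := by exact_mod_cast (by omega : k ≠ 0)
  exact (mul_eq_zero.mp h1).resolve_left hk0

/-- If the power sums `∑ x_i^m`, `1 ≤ m ≤ n`, of `n` complex numbers all vanish,
then all the numbers vanish. -/
theorem eq_zero_of_psum_eq_zero {ι : Type*} [Fintype ι] (x : ι → ℂ)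
    (h : ∀ m : ℕ, 1 ≤ m → m ≤ Fintype.card ι → ∑ i, x i ^ m = 0) : ∀ i, x i = 0 := by
  classical
  intro i
  have hcard : Multiset.card (Finset.univ.val.map x) = Fintype.card ι := by
    rw [Multiset.card_map]
    rfl
  have hprod : ((Finset.univ.val.map x).map fun t => Polynomial.X - Polynomial.C t).prod =
      (Polynomial.X : Polynomial ℂ) ^ Fintype.card ι := by
    rw [Multiset.prod_X_sub_X_eq_sum_esymm, hcard, Finset.sum_eq_single 0]
    · simp [Multiset.esymm]
    · intro j hj hj0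
      rw [Finset.mem_range] at hj
      rw [nw_esymm_eq_zero x h j (by omega) (by omega)]
      simp
    · intro h0
      exact absurd (Finset.mem_range.mpr (Nat.succ_pos _)) h0
  have hdvd : (Polynomial.X - Polynomial.C (x i)) ∣
      (Polynomial.X : Polynomial ℂ) ^ Fintype.card ι := by
    rw [← hprod]
    refine Multiset.dvd_prod ?_
    rw [Multiset.mem_map]
    exact ⟨x i, Multiset.mem_map.mpr ⟨i, Finset.mem_univ_val i, rfl⟩, rfl⟩
  rw [Polynomial.dvd_iff_isRoot, Polynomial.IsRoot.def, Polynomial.eval_pow, Polynomial.eval_X]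
    at hdvd
  exact eq_zero_of_pow_eq_zero hdvd

/-- A nonempty family of `n` nonzero complex numbers has a nonvanishing power sum
of exponent `1 ≤ m ≤ n`. -/
theorem exists_psum_ne_zero {ι : Type*} [Fintype ι] [Nonempty ι] (x : ι → ℂ)
    (hx : ∀ i, x i ≠ 0) : ∃ m : ℕ, 1 ≤ m ∧ m ≤ Fintype.card ι ∧ ∑ i, x i ^ m ≠ 0 := by
  by_contra hcon
  obtain ⟨i⟩ := ‹Nonempty ι›
  refine hx i (eq_zero_of_psum_eq_zero x (fun m hm1 hmn => ?_) i)
  by_contra hne
  exact hcon ⟨m, hm1, hmn, hne⟩

end Fermat.Agent.S20T
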