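import Mathlib
import Fermat.Agent.S20T.Basic
import Fermat.Agent.S20T.Newton

/-!
# S20T: conjugates and the trace to level one
-/

set_option autoImplicit false

open UpperHalfPlane ModularFormClass CongruenceSubgroup
open scoped MatrixGroups ModularForm Manifold

namespace Fermat.Agent.S20T

open Fermat.Agent.S23L.Data (Q G0 perm cj toSL fintypeQ)

attribute [local instance] fintypeQ

variable {N : ℕ} {k l : ℤ} {F G a : ℍ → ℂ}

/-! ### auxiliary statements -/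

/-- Every conjugate is a slash by one element of `SL(2, ℤ)` depending only on the coset
(not on the function or the weight). -/
theorem cjx_exists_slash (N : ℕ) (q : Q N) :
    ∃ δ : SL(2, ℤ), ∀ (k : ℤ) (F : ℍ → ℂ), conj N k F q = F ∣[k] δ := by
  obtain ⟨δ, hδ⟩ : ∃ δ : SL(2, ℤ),
      Matrix.SpecialLinearGroup.mapGL ℝ δ = ((Quotient.out q : 𝒮ℒ) : GL (Fin 2) ℝ)⁻¹ :=
    (Quotient.out q : 𝒮ℒ)⁻¹.2
  refine ⟨δ, fun k F => ?_⟩
  rw [ModularForm.SL_slash]
  show F ∣[k] ((Quotient.out q : 𝒮ℒ) : GL (Fin 2) ℝ)⁻¹ = F ∣[k] (Matrix.SpecialLinearGroup.mapGL ℝ δ)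
  rw [hδ]

/-- `conj` agrees with the `S23` conjugate for any slash-invariant form class. -/
theorem cjx_conj_eq_cj {T : Type*} [FunLike T ℍ ℂ] [SlashInvariantFormClass T (G0 N) k]
    (f : T) (q : Q N) : conj N k (⇑f) q = cj f q := by
  conv_rhs => rw [← Quotient.out_eq q]
  rfl

theorem conj_eq_cj (f : ModularForm (Gamma0 N) k) (q : Q N) : conj N k (⇑f) q = cj f q :=
  cjx_conj_eq_cj f q

/-- Slash by `SL(2, ℤ)` is multiplicative for powers. -/
theorem cjx_pow_slash (k : ℤ) (m : ℕ) (γ : SL(2, ℤ)) (F : ℍ → ℂ) :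
    (F ^ m) ∣[(m : ℤ) * k] γ = (F ∣[k] γ) ^ m := by
  induction m with
  | zero =>
    have h0 : ((0 : ℕ) : ℤ) * k = 0 := by simp
    rw [h0, pow_zero, pow_zero]
    exact ModularForm.is_invariant_one γ
  | succ n ih =>
    have hk : ((n + 1 : ℕ) : ℤ) * k = (n : ℤ) * k + k := by push_cast; ring
    rw [hk, pow_succ, ModularForm.mul_slash_SL2, ih, pow_succ]

theorem conj_mul (N : ℕ) (k l : ℤ) (F G : ℍ → ℂ) (q : Q N) :
    conj N (k + l) (F * G) q = conj N k F q * conj N l G q := by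
  obtain ⟨δ, hδ⟩ := cjx_exists_slash N q
  rw [hδ, hδ, hδ, ModularForm.mul_slash_SL2]

theorem conj_add (N : ℕ) (k : ℤ) (F G : ℍ → ℂ) (q : Q N) :
    conj N k (F + G) q = conj N k F q + conj N k G q := by
  obtain ⟨δ, hδ⟩ := cjx_exists_slash N q
  rw [hδ, hδ, hδ, SlashAction.add_slash]

theorem conj_smul (N : ℕ) (k : ℤ) (c : ℂ) (F : ℍ → ℂ) (q : Q N) :
    conj N k (c • F) q = c • conj N k F q := by
  obtain ⟨δ, hδ⟩ := cjx_exists_slash N q
  rw [hδ, hδ, ModularForm.SL_smul_slash]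

theorem conj_zero (N : ℕ) (k : ℤ) (q : Q N) : conj N k 0 q = 0 := by
  obtain ⟨δ, hδ⟩ := cjx_exists_slash N q
  rw [hδ, SlashAction.zero_slash]

theorem conj_sum (N : ℕ) (k : ℤ) {ι : Type*} (s : Finset ι) (F : ι → ℍ → ℂ) (q : Q N) :
    conj N k (∑ i ∈ s, F i) q = ∑ i ∈ s, conj N k (F i) q := by
  obtain ⟨δ, hδ⟩ := cjx_exists_slash N q
  rw [hδ, SlashAction.sum_slash]
  exact Finset.sum_congr rfl fun i _ => (hδ k (F i)).symm

theorem conj_pow (N : ℕ) (k : ℤ) (F : ℍ → ℂ) (m : ℕ) (q : Q N) :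
    conj N (m * k) (F ^ m) q = conj N k F q ^ m := by
  obtain ⟨δ, hδ⟩ := cjx_exists_slash N q
  rw [hδ, hδ, cjx_pow_slash]

theorem conj_of_mem_A (ha : a ∈ A k) (q : Q N) : conj N k a q = a := by
  obtain ⟨δ, hδ⟩ := cjx_exists_slash N q
  rw [hδ, slash_of_mem_A ha]

/-- the conjugate at the trivial coset -/
theorem conj_one (hF : F ∈ R N k) : conj N k F ((1 : 𝒮ℒ) : Q N) = F := by
  obtain ⟨f, rfl⟩ := hF
  rw [conj_eq_cj]
  exact Fermat.Agent.S23L.Data.cj_one f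

theorem conj_slash (hF : F ∈ R N k) (q : Q N) (γ : SL(2, ℤ)) :
    conj N k F q ∣[k] γ = conj N k F (perm N γ q) := by
  obtain ⟨f, rfl⟩ := hF
  rw [conj_eq_cj, conj_eq_cj]
  exact Fermat.Agent.S23L.Data.cj_slash f q γ

theorem exists_conj_eq_slash (N : ℕ) (k : ℤ) (F : ℍ → ℂ) (q : Q N) :
    ∃ γ : SL(2, ℤ), conj N k F q = F ∣[k] γ := by
  obtain ⟨δ, hδ⟩ := cjx_exists_slash N q
  exact ⟨δ, hδ k F⟩

theorem exists_slash_eq_conj (hF : F ∈ R N k) (γ : SL(2, ℤ)) :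
    ∃ q : Q N, F ∣[k] γ = conj N k F q := by
  refine ⟨perm N γ ((1 : 𝒮ℒ) : Q N), ?_⟩
  rw [← conj_slash hF, conj_one hF]

theorem conj_eq_zero_iff (hF : F ∈ R N k) (q : Q N) : conj N k F q = 0 ↔ F = 0 := by
  have _ := hF
  obtain ⟨δ, hδ⟩ := cjx_exists_slash N q
  rw [hδ]
  exact SlashAction.slash_eq_zero_iff k δ F

theorem mdiff_conj [NeZero N] (hF : F ∈ R N k) (q : Q N) : MDiff (conj N k F q) := by
  obtain ⟨f, rfl⟩ := hF
  rw [conj_eq_cj]
  exact Fermat.Agent.S23L.Data.mdiff_cj f q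

theorem bdd_conj [NeZero N] (hF : F ∈ R N k) (q : Q N) : IsBoundedAtImInfty (conj N k F q) := by
  obtain ⟨f, rfl⟩ := hF
  rw [conj_eq_cj]
  exact Fermat.Agent.S23L.Data.bdd_cj f q

theorem zero_conj [NeZero N] (hF : F ∈ S N k) (q : Q N) : IsZeroAtImInfty (conj N k F q) := by
  obtain ⟨f, rfl⟩ := hF
  rw [cjx_conj_eq_cj]
  exact Fermat.Agent.S23L.Data.zero_cj f q

theorem mem_S_iff_conj [NeZero N] (hF : F ∈ R N k) :
    F ∈ S N k ↔ ∀ q : Q N, IsZeroAtImInfty (conj N k F q) := by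
  refine ⟨fun h q => zero_conj h q, fun h => mem_S_iff.mpr ⟨hF, fun γ => ?_⟩⟩
  obtain ⟨q, hq⟩ := exists_slash_eq_conj hF γ
  rw [hq]
  exact h q

/-! ### the trace -/

theorem tr_apply [NeZero N] (k : ℤ) (F : ℍ → ℂ) (z : ℍ) :
    tr N k F z = ∑ q : Q N, conj N k F q z := by
  unfold tr
  rw [Finset.sum_apply]

/-- the trace of a form on `Γ₀(N)` is invariant under `SL(2, ℤ)` -/
theorem cjx_tr_slash [NeZero N] (hF : F ∈ R N k) (γ : SL(2, ℤ)) : tr N k F ∣[k] γ = tr N k F := by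
  unfold tr
  rw [SlashAction.sum_slash, Finset.sum_congr rfl fun q _ => conj_slash hF q γ]
  exact Equiv.sum_comp (perm N γ) fun q => conj N k F q

theorem cjx_mdiff_tr [NeZero N] (hF : F ∈ R N k) : MDiff (tr N k F) := by
  unfold tr
  exact MDifferentiable.sum fun q _ => mdiff_conj hF q

theorem cjx_bdd_tr [NeZero N] (hF : F ∈ R N k) : IsBoundedAtImInfty (tr N k F) := by
  unfold tr
  exact (boundedAtImInftySubalgebra ℂ).sum_mem fun q _ => bdd_conj hF q

theorem cjx_zero_tr [NeZero N] (hF : F ∈ S N k) : IsZeroAtImInfty (tr N k F) := by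
  unfold tr
  exact (zeroAtImInftySubmodule ℂ).sum_mem fun q _ => zero_conj hF q

theorem tr_mem_A [NeZero N] (hF : F ∈ R N k) : tr N k F ∈ A k :=
  mem_A_of_invariant (cjx_mdiff_tr hF) (cjx_bdd_tr hF) fun γ => cjx_tr_slash hF γ

theorem tr_mem_A0 [NeZero N] (hF : F ∈ S N k) : tr N k F ∈ A0 k :=
  mem_A0_iff.mpr ⟨tr_mem_A (S_le_R N k hF), cjx_zero_tr hF⟩

theorem tr_add [NeZero N] (k : ℤ) (F G : ℍ → ℂ) : tr N k (F + G) = tr N k F + tr N k G := by
  unfold tr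
  rw [← Finset.sum_add_distrib]
  exact Finset.sum_congr rfl fun q _ => conj_add N k F G q

theorem tr_smul [NeZero N] (k : ℤ) (c : ℂ) (F : ℍ → ℂ) : tr N k (c • F) = c • tr N k F := by
  unfold tr
  rw [Finset.smul_sum]
  exact Finset.sum_congr rfl fun q _ => conj_smul N k c F q

theorem tr_sum [NeZero N] (k : ℤ) {ι : Type*} (s : Finset ι) (F : ι → ℍ → ℂ) :
    tr N k (∑ i ∈ s, F i) = ∑ i ∈ s, tr N k (F i) := by
  unfold tr
  rw [Finset.sum_comm]
  exact Finset.sum_congr rfl fun q _ => conj_sum N k s F q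

/-- `A`-linearity of the trace -/
theorem tr_A_mul [NeZero N] (ha : a ∈ A l) (k : ℤ) (F : ℍ → ℂ) :
    tr N (l + k) (a * F) = a * tr N k F := by
  unfold tr
  rw [Finset.mul_sum]
  refine Finset.sum_congr rfl fun q _ => ?_
  rw [conj_mul, conj_of_mem_A ha]

/-- the weight argument of `conj`/`tr` may be rewritten along equalities -/
theorem tr_cast [NeZero N] (h : k = l) (F : ℍ → ℂ) : tr N k F = tr N l F := by rw [h]

/-- Newton: if all traces of powers of `F` vanish at `z`, all conjugates of `F` vanish at `z`. -/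
theorem conj_eq_zero_of_tr_pow [NeZero N] (hF : F ∈ R N k) (z : ℍ)
    (h : ∀ m : ℕ, 1 ≤ m → tr N (m * k) (F ^ m) z = 0) : ∀ q : Q N, conj N k F q z = 0 := by
  have _ := hF
  refine eq_zero_of_psum_eq_zero (fun q : Q N => conj N k F q z) fun m hm _ => ?_
  have h1 := h m hm
  rw [tr_apply] at h1
  rw [← h1]
  refine Finset.sum_congr rfl fun q _ => ?_
  rw [conj_pow]
  rfl

/-- the trace form is nondegenerate -/
theorem eq_zero_of_tr_mul [NeZero N] (hF : F ∈ R N k)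
    (h : ∀ (l : ℤ) (r : ℍ → ℂ), r ∈ R N l → tr N (l + k) (r * F) = 0) : F = 0 := by
  have key : ∀ (z : ℍ) (m : ℕ), 1 ≤ m → tr N (m * k) (F ^ m) z = 0 := by
    intro z m hm
    obtain ⟨n, rfl⟩ : ∃ n : ℕ, m = n + 1 := ⟨m - 1, by omega⟩
    have h1 := h ((n : ℤ) * k) (F ^ n) (R_pow hF n)
    have h2 : (n : ℤ) * k + k = ((n + 1 : ℕ) : ℤ) * k := by push_cast; ring
    rw [tr_cast h2, ← pow_succ] at h1
    rw [h1]
    rfl
  rw [← conj_one hF]
  funext z
  exact conj_eq_zero_of_tr_pow hF z (key z) _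

/-! ### further auxiliary statements (not part of the frozen interface) -/

theorem cjx_conj_neg (N : ℕ) (k : ℤ) (F : ℍ → ℂ) (q : Q N) :
    conj N k (-F) q = -conj N k F q := by
  obtain ⟨δ, hδ⟩ := cjx_exists_slash N q
  rw [hδ, hδ, SlashAction.neg_slash]

theorem cjx_conj_sub (N : ℕ) (k : ℤ) (F G : ℍ → ℂ) (q : Q N) :
    conj N k (F - G) q = conj N k F q - conj N k G q := by
  rw [sub_eq_add_neg, conj_add, cjx_conj_neg, sub_eq_add_neg]

/-- every coset is a `perm`-translate of the trivial coset -/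
theorem cjx_exists_perm_one (N : ℕ) (q : Q N) :
    ∃ γ : SL(2, ℤ), perm N γ ((1 : 𝒮ℒ) : Q N) = q := by
  induction q using Quotient.inductionOn with
  | h r =>
    obtain ⟨r, δ, rfl⟩ := r
    refine ⟨δ⁻¹, ?_⟩
    show ((toSL δ⁻¹)⁻¹ * (1 : 𝒮ℒ) : 𝒮ℒ) = (_ : Q N)
    congr 1
    apply Subtype.ext
    simp [toSL]

/-- the conjugate at the `perm`-translate of the trivial coset is the slash -/
theorem cjx_conj_perm_one (hF : F ∈ R N k) (γ : SL(2, ℤ)) :
    conj N k F (perm N γ ((1 : 𝒮ℒ) : Q N)) = F ∣[k] γ := by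
  rw [← conj_slash hF, conj_one hF]

theorem cjx_tr_zero [NeZero N] (k : ℤ) : tr N k 0 = 0 := by
  unfold tr
  exact Finset.sum_eq_zero fun q _ => conj_zero N k q

theorem cjx_tr_neg [NeZero N] (k : ℤ) (F : ℍ → ℂ) : tr N k (-F) = -tr N k F := by
  unfold tr
  rw [← Finset.sum_neg_distrib]
  exact Finset.sum_congr rfl fun q _ => cjx_conj_neg N k F q

theorem cjx_tr_sub [NeZero N] (k : ℤ) (F G : ℍ → ℂ) :
    tr N k (F - G) = tr N k F - tr N k G := by
  rw [sub_eq_add_neg, tr_add, cjx_tr_neg, sub_eq_add_neg]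

/-- the trace of a product, pointwise, as a sum over the cosets -/
theorem cjx_tr_mul_apply [NeZero N] (k l : ℤ) (F G : ℍ → ℂ) (z : ℍ) :
    tr N (k + l) (F * G) z = ∑ q : Q N, conj N k F q z * conj N l G q z := by
  rw [tr_apply]
  refine Finset.sum_congr rfl fun q _ => ?_
  rw [conj_mul]
  rfl

/-- `A`-linearity of the trace, factor on the right -/
theorem cjx_tr_mul_A [NeZero N] (ha : a ∈ A l) (k : ℤ) (F : ℍ → ℂ) :
    tr N (k + l) (F * a) = tr N k F * a := by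
  rw [mul_comm F a, add_comm k l, tr_A_mul ha, mul_comm]

/-- the trace of a level-one form is the index times the form -/
theorem cjx_tr_of_mem_A [NeZero N] (ha : a ∈ A k) :
    tr N k a = (Fintype.card (Q N) : ℂ) • a := by
  unfold tr
  rw [Finset.sum_congr rfl fun q _ => conj_of_mem_A ha q, Finset.sum_const, Finset.card_univ,
    Nat.cast_smul_eq_nsmul]

end Fermat.Agent.S20T
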