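import Mathlib
import Fermat.Prelude.Thm_ModularForm_sturm_bound_Gamma0
import Fermat.Prelude.Thm_CongruenceSubgroup_one_mem_strictPeriods_Gamma0
import Fermat.Agent.S20T.Defs

/-!
# S20T: finite-dimensionality and the level-one dimension formula
-/

set_option autoImplicit false

open UpperHalfPlane ModularFormClass CongruenceSubgroup
open scoped MatrixGroups ModularForm Manifold

namespace Fermat.Agent.S20T

variable {N : ℕ} {k : ℤ}

/-! ### the spaces of functions are linearly equivalent to the spaces of bundled forms -/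

/-- The coercion to functions, as a linear map into `A k`. -/
noncomputable def dm_toA (k : ℤ) : ModularForm 𝒮ℒ k →ₗ[ℂ] A k where
  toFun f := ⟨⇑f, f, rfl⟩
  map_add' _ _ := rfl
  map_smul' _ _ := rfl

/-- The coercion to functions, as a linear map into `A0 k`. -/
noncomputable def dm_toA0 (k : ℤ) : CuspForm 𝒮ℒ k →ₗ[ℂ] A0 k where
  toFun f := ⟨⇑f, f, rfl⟩
  map_add' _ _ := rfl
  map_smul' _ _ := rfl

/-- The coercion to functions, as a linear map into `R N k`. -/
noncomputable def dm_toR (N : ℕ) (k : ℤ) : ModularForm (Gamma0 N) k →ₗ[ℂ] R N k where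
  toFun f := ⟨⇑f, f, rfl⟩
  map_add' _ _ := rfl
  map_smul' _ _ := rfl

/-- The coercion to functions, as a linear map into `S N k`. -/
noncomputable def dm_toS (N : ℕ) (k : ℤ) : CuspForm (Gamma0 N) k →ₗ[ℂ] S N k where
  toFun f := ⟨⇑f, f, rfl⟩
  map_add' _ _ := rfl
  map_smul' _ _ := rfl

/-- `A k` is linearly equivalent to the space of level-one modular forms of weight `k`. -/
noncomputable def dm_equivA (k : ℤ) : ModularForm 𝒮ℒ k ≃ₗ[ℂ] A k :=
  LinearEquiv.ofBijective (dm_toA k)
    ⟨fun _ _ h => DFunLike.coe_injective (congrArg Subtype.val h),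
      fun ⟨_, f, hf⟩ => ⟨f, Subtype.ext hf⟩⟩

/-- `A0 k` is linearly equivalent to the space of level-one cusp forms of weight `k`. -/
noncomputable def dm_equivA0 (k : ℤ) : CuspForm 𝒮ℒ k ≃ₗ[ℂ] A0 k :=
  LinearEquiv.ofBijective (dm_toA0 k)
    ⟨fun _ _ h => DFunLike.coe_injective (congrArg Subtype.val h),
      fun ⟨_, f, hf⟩ => ⟨f, Subtype.ext hf⟩⟩

/-- `R N k` is linearly equivalent to the space of modular forms of weight `k` on `Γ₀(N)`. -/
noncomputable def dm_equivR (N : ℕ) (k : ℤ) : ModularForm (Gamma0 N) k ≃ₗ[ℂ] R N k :=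
  LinearEquiv.ofBijective (dm_toR N k)
    ⟨fun _ _ h => DFunLike.coe_injective (congrArg Subtype.val h),
      fun ⟨_, f, hf⟩ => ⟨f, Subtype.ext hf⟩⟩

/-- `S N k` is linearly equivalent to the space of cusp forms of weight `k` on `Γ₀(N)`. -/
noncomputable def dm_equivS (N : ℕ) (k : ℤ) : CuspForm (Gamma0 N) k ≃ₗ[ℂ] S N k :=
  LinearEquiv.ofBijective (dm_toS N k)
    ⟨fun _ _ h => DFunLike.coe_injective (congrArg Subtype.val h),
      fun ⟨_, f, hf⟩ => ⟨f, Subtype.ext hf⟩⟩

@[simp]
theorem dm_equivA_apply (k : ℤ) (f : ModularForm 𝒮ℒ k) :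
    ((dm_equivA k f : A k) : ℍ → ℂ) = ⇑f :=
  rfl

@[simp]
theorem dm_equivA0_apply (k : ℤ) (f : CuspForm 𝒮ℒ k) :
    ((dm_equivA0 k f : A0 k) : ℍ → ℂ) = ⇑f :=
  rfl

@[simp]
theorem dm_equivR_apply (N : ℕ) (k : ℤ) (f : ModularForm (Gamma0 N) k) :
    ((dm_equivR N k f : R N k) : ℍ → ℂ) = ⇑f :=
  rfl

@[simp]
theorem dm_equivS_apply (N : ℕ) (k : ℤ) (f : CuspForm (Gamma0 N) k) :
    ((dm_equivS N k f : S N k) : ℍ → ℂ) = ⇑f :=
  rfl

/-- `dim M_k(SL₂(ℤ)) = dim A k`. -/
theorem dm_finrank_A (k : ℤ) :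
    Module.finrank ℂ (ModularForm 𝒮ℒ k) = Module.finrank ℂ (A k) :=
  (dm_equivA k).finrank_eq

/-- `dim S_k(SL₂(ℤ)) = dim A0 k`. -/
theorem dm_finrank_A0 (k : ℤ) :
    Module.finrank ℂ (CuspForm 𝒮ℒ k) = Module.finrank ℂ (A0 k) :=
  (dm_equivA0 k).finrank_eq

/-! ### finite-dimensionality -/

/-- The truncated `q`-expansion map of modular forms on `Γ₀(N)`. -/
noncomputable def dm_trunc (N : ℕ) (k : ℤ) (B : ℕ) :
    ModularForm (Gamma0 N) k →ₗ[ℂ] (Fin (B + 1) → ℂ) where
  toFun f i := (qExpansion 1 f).coeff i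
  map_add' f g := by
    funext i
    have h := ModularForm.qExpansion_add one_pos
      (CongruenceSubgroup.one_mem_strictPeriods_Gamma0 N) f g
    simp only [FunLike.coe_add, Pi.add_apply]
    rw [h, map_add]
  map_smul' c f := by
    funext i
    have h := ModularForm.qExpansion_smul one_pos
      (CongruenceSubgroup.one_mem_strictPeriods_Gamma0 N) c f
    simp only [FunLike.coe_smul, RingHom.id_apply, Pi.smul_apply]
    rw [h, map_smul]

theorem dm_trunc_injective (N : ℕ) [NeZero N] (k : ℤ) :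
    Function.Injective (dm_trunc N k ((k * (Gamma0 N).index).toNat / 12)) := by
  rw [← LinearMap.ker_eq_bot, LinearMap.ker_eq_bot']
  intro f hf
  apply ModularForm.sturm_bound_Gamma0 N f
  intro n hn
  exact congrFun hf ⟨n, Nat.lt_succ_of_le hn⟩

/-- Modular forms on `Γ₀(N)` form a finite-dimensional space (Sturm bound). -/
theorem dm_finiteDimensional_modularForm (N : ℕ) [NeZero N] (k : ℤ) :
    FiniteDimensional ℂ (ModularForm (Gamma0 N) k) :=
  FiniteDimensional.of_injective _ (dm_trunc_injective N k)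

instance finiteDimensional_A (k : ℤ) : FiniteDimensional ℂ (A k) :=
  LinearEquiv.finiteDimensional (dm_equivA k)

instance finiteDimensional_R (N : ℕ) [NeZero N] (k : ℤ) : FiniteDimensional ℂ (R N k) :=
  have := dm_finiteDimensional_modularForm N k
  LinearEquiv.finiteDimensional (dm_equivR N k)

theorem dm_S_le_R (N : ℕ) (k : ℤ) : S N k ≤ R N k := by
  rintro _ ⟨f, rfl⟩
  exact ⟨CuspForm.toModularFormₗ f, rfl⟩

instance finiteDimensional_S (N : ℕ) [NeZero N] (k : ℤ) : FiniteDimensional ℂ (S N k) :=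
  Submodule.finiteDimensional_of_le (dm_S_le_R N k)

/-- Cusp forms on `Γ₀(N)` form a finite-dimensional space. -/
theorem dm_finiteDimensional_cuspForm (N : ℕ) [NeZero N] (k : ℤ) :
    FiniteDimensional ℂ (CuspForm (Gamma0 N) k) :=
  LinearEquiv.finiteDimensional (dm_equivS N k).symm

/-- Level-one cusp forms form a finite-dimensional space. -/
theorem dm_finiteDimensional_A0 (k : ℤ) : FiniteDimensional ℂ (A0 k) :=
  LinearEquiv.finiteDimensional
    (CuspForm.discriminantEquiv.symm.trans (dm_equivA0 k) : ModularForm 𝒮ℒ (k - 12) ≃ₗ[ℂ] A0 k)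

/-- `dim A0 k = dim A (k - 12)` (division by the discriminant). -/
theorem dm_finrank_A0_eq (k : ℤ) : Module.finrank ℂ (A0 k) = Module.finrank ℂ (A (k - 12)) :=
  ((dm_equivA0 k).symm.trans (CuspForm.discriminantEquiv.trans (dm_equivA (k - 12)))).finrank_eq

/-- the level-one dimension formula, for all integer weights -/
theorem finrank_A (k : ℤ) :
    Module.finrank ℂ (A k) =
      if k < 0 ∨ Odd k then 0 else if k % 12 = 2 then (k / 12).toNat else (k / 12).toNat + 1 := by
  rw [← dm_finrank_A]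
  rcases lt_or_ge k 0 with hk | hk
  · rw [if_pos (Or.inl hk)]
    exact Module.finrank_eq_zero_of_rank_eq_zero (ModularForm.levelOne_neg_weight_rank_zero hk)
  rcases Int.even_or_odd k with he | ho
  · have hno : ¬ (k < 0 ∨ Odd k) := by
      rintro (h | h)
      · omega
      · exact (Int.not_even_iff_odd.mpr h) he
    rw [if_neg hno]
    lift k to ℕ using hk
    rw [Module.finrank_eq_of_rank_eq (ModularForm.dimension_level_one k (mod_cast he))]
    have h1 : (k ≡ 2 [MOD 12]) ↔ ((k : ℤ) % 12 = 2) := by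
      unfold Nat.ModEq
      omega
    have h2 : ((k : ℤ) / 12).toNat = k / 12 := by omega
    rw [h2]
    by_cases h : (k : ℤ) % 12 = 2
    · rw [if_pos h, if_pos (h1.mpr h)]
    · rw [if_neg h, if_neg (fun h' => h (h1.mp h'))]
  · rw [if_pos (Or.inr ho)]
    exact Module.finrank_eq_zero_of_rank_eq_zero (ModularForm.levelOne_odd_weight_rank_zero ho)

theorem finrank_A_of_neg (hk : k < 0) : Module.finrank ℂ (A k) = 0 := by
  rw [finrank_A, if_pos (Or.inl hk)]

theorem finrank_A_zero : Module.finrank ℂ (A 0) = 1 := by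
  rw [finrank_A]; norm_num

/-- `dim A(n) - dim A(n-12) = 1` for even `n ≥ 12` (also for `n ∈ {0,4,6,8,10}`). -/
theorem finrank_A_add_twelve (hk : 0 ≤ k) (he : Even k) :
    Module.finrank ℂ (A (k + 12)) = Module.finrank ℂ (A k) + 1 := by
  have he' : Even (k + 12) := he.add ⟨6, rfl⟩
  have hno : ¬ (k < 0 ∨ Odd k) := by
    rintro (h | h)
    · omega
    · exact (Int.not_even_iff_odd.mpr h) he
  have hno' : ¬ (k + 12 < 0 ∨ Odd (k + 12)) := by
    rintro (h | h)
    · omega
    · exact (Int.not_even_iff_odd.mpr h) he'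
  rw [finrank_A, finrank_A, if_neg hno, if_neg hno']
  have h1 : (k + 12) % 12 = k % 12 := by omega
  have h2 : ((k + 12) / 12).toNat = (k / 12).toNat + 1 := by omega
  rw [h1, h2]
  split_ifs <;> rfl

theorem finrank_cuspForm_eq (N : ℕ) (k : ℤ) :
    Module.finrank ℂ (CuspForm (Gamma0 N) k) = Module.finrank ℂ (S N k) :=
  (dm_equivS N k).finrank_eq

theorem finrank_modularForm_eq (N : ℕ) (k : ℤ) :
    Module.finrank ℂ (ModularForm (Gamma0 N) k) = Module.finrank ℂ (R N k) :=
  (dm_equivR N k).finrank_eq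

end Fermat.Agent.S20T
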