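import Mathlib
import Fermat.Agent.S20T.Basic

/-!
# S20T: simple zeros of `E₄`, `E₆` and `α E₄³ + β E₆²`

Via the weight-12 cusp form `2 E₄ · D E₆ - 3 E₆ · D E₄ = κ Δ`, `κ ≠ 0`
(`D = (2πi)⁻¹ d/dz`; Mathlib: `serreDerivative_slash_invariant`).

Outline:
* `wr_tendsto_E`, `wr_tendsto_deriv` (Cauchy estimate): `E₄, E₆ → 1` and their derivatives
  tend to `0` at `i∞`;
* `wr_W = 2 E₄ · D E₆ - 3 E₆ · D E₄` is a level-one cusp form of weight `12` (`wr_W_mem`),
  hence `wr_W = κ Δ` (`wr_exists_kappa`);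
* `wr_not_forall_zero`: the Wronskian is not identically zero (otherwise `E₄³ / Δ` would be
  constant on `ℍ`, contradicting the behaviour at `i∞`);
* since `Δ` never vanishes, neither does the Wronskian (`wronskian_ne_zero`).
-/

set_option autoImplicit false

open UpperHalfPlane ModularFormClass CongruenceSubgroup
open scoped MatrixGroups ModularForm Manifold

namespace Fermat.Agent.S20T

open Derivative

/-! ### behaviour at `i∞` -/

/-- The normalised Eisenstein series of level one tend to `1` at `i∞`. -/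
theorem wr_tendsto_E {k : ℕ} (hk : 3 ≤ k) (hk2 : Even k) :
    Filter.Tendsto (⇑(ModularForm.E hk)) atImInfty (nhds 1) := by
  have hper : Function.Periodic ((⇑(ModularForm.E hk)) ∘ ↑ofComplex) ((1 : ℝ) : ℂ) :=
    SlashInvariantFormClass.periodic_comp_ofComplex (ModularForm.E hk) one_mem_strictPeriods_SL
  have han : AnalyticAt ℂ (cuspFunction 1 (⇑(ModularForm.E hk))) 0 :=
    ModularFormClass.analyticAt_cuspFunction_zero (ModularForm.E hk) one_pos
      one_mem_strictPeriods_SL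
  have hval : valueAtInfty (⇑(ModularForm.E hk)) = 1 := by
    rw [← UpperHalfPlane.qExpansion_coeff_zero one_pos han hper]
    exact EisensteinSeries.E_qExpansion_coeff_zero hk hk2
  obtain ⟨c, hc, hO⟩ := ModularFormClass.exp_decay_sub_atImInfty' (ModularForm.E hk)
  rw [hval] at hO
  have hexp : Filter.Tendsto (fun τ : ℍ => Real.exp (-c * τ.im)) atImInfty (nhds 0) := by
    have h1 : Filter.Tendsto (fun τ : ℍ => τ.im) atImInfty Filter.atTop := Filter.tendsto_comap
    have h2 : Filter.Tendsto (fun τ : ℍ => -c * τ.im) atImInfty Filter.atBot := by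
      have h3 := Filter.tendsto_neg_atTop_atBot.comp (h1.const_mul_atTop hc)
      refine h3.congr fun τ => ?_
      simp [Function.comp_apply]
    exact Real.tendsto_exp_atBot.comp h2
  have h0 := hO.trans_tendsto hexp
  have := h0.add_const (1 : ℂ)
  simpa using this

/-- `E₄` and `E₆` tend to `1` at `i∞`. -/
theorem tendsto_E4_atImInfty : Filter.Tendsto E4 atImInfty (nhds 1) :=
  wr_tendsto_E _ ⟨2, rfl⟩

theorem tendsto_E6_atImInfty : Filter.Tendsto E6 atImInfty (nhds 1) :=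
  wr_tendsto_E _ ⟨3, rfl⟩

theorem tendsto_Dl_atImInfty : Filter.Tendsto Dl atImInfty (nhds 0) :=
  ModularForm.discriminant_isZeroAtImInfty

/-- `1728 Δ = E₄³ - E₆²`. -/
theorem Dl_eq (z : ℍ) : Dl z = (E4 z ^ 3 - E6 z ^ 2) / 1728 :=
  ModularForm.discriminant_eq_E₄_cube_sub_E₆_sq z

theorem wr_Dl_ne_zero (z : ℍ) : Dl z ≠ 0 := ModularForm.discriminant_ne_zero z

/-- `E₄` and `E₆` have no common zero. -/
theorem E4_ne_zero_or_E6_ne_zero (z : ℍ) : E4 z ≠ 0 ∨ E6 z ≠ 0 := by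
  by_contra h
  rw [not_or, not_not, not_not] at h
  have h1 := Dl_eq z
  rw [h.1, h.2] at h1
  exact wr_Dl_ne_zero z (by simpa using h1)

/-- Cauchy estimate: if `F` is holomorphic on `ℍ` and converges at `i∞`, then its derivative
tends to `0` at `i∞`. -/
theorem wr_tendsto_deriv {F : ℍ → ℂ} (hF : MDiff F) {c : ℂ}
    (hlim : Filter.Tendsto F atImInfty (nhds c)) :
    Filter.Tendsto (fun z : ℍ => deriv (F ∘ ofComplex) z) atImInfty (nhds 0) := by
  rw [Metric.tendsto_nhds]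
  intro ε hε
  have h1 : ∀ᶠ z in atImInfty, dist (F z) c < ε / 2 :=
    (Metric.tendsto_nhds.mp hlim) (ε / 2) (half_pos hε)
  rw [Filter.Eventually, atImInfty_mem] at h1
  obtain ⟨B, hB⟩ := h1
  rw [Filter.Eventually, atImInfty_mem]
  refine ⟨max B 0 + 2, fun z hz => ?_⟩
  have hsub : ∀ w ∈ Metric.closedBall (z : ℂ) 1, 0 < w.im ∧ B ≤ w.im := by
    intro w hw
    rw [Metric.mem_closedBall, Complex.dist_eq] at hw
    have h2 : |(w - (z : ℂ)).im| ≤ 1 := (Complex.abs_im_le_norm _).trans hw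
    rw [Complex.sub_im, abs_le] at h2
    have h3 : max B 0 + 2 ≤ (z : ℂ).im := hz
    have h4 := le_max_left B 0
    have h5 := le_max_right B 0
    constructor <;> linarith [h2.1]
  have hdiff : DifferentiableOn ℂ (F ∘ ofComplex) {w : ℂ | 0 < w.im} :=
    UpperHalfPlane.mdifferentiable_iff.mp hF
  set f : ℂ → ℂ := fun w => (F ∘ ofComplex) w - c with hf
  have hd : DiffContOnCl ℂ f (Metric.ball (z : ℂ) 1) := by
    refine DifferentiableOn.diffContOnCl_ball (U := {w : ℂ | 0 < w.im}) ?_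
      (fun w hw => (hsub w hw).1)
    exact hdiff.sub_const c
  have hC : ∀ w ∈ Metric.sphere (z : ℂ) 1, ‖f w‖ ≤ ε / 2 := by
    intro w hw
    have hw' := hsub w (Metric.sphere_subset_closedBall hw)
    have h2 : dist (F (ofComplex w)) c < ε / 2 :=
      hB (ofComplex w) (by rw [ofComplex_apply_of_im_pos hw'.1]; exact hw'.2)
    rw [Complex.dist_eq] at h2
    exact h2.le
  have h6 := Complex.norm_deriv_le_of_forall_mem_sphere_norm_le one_pos hd hC
  have h7 : deriv f (z : ℂ) = deriv (F ∘ ofComplex) (z : ℂ) := by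
    rw [hf]
    exact deriv_sub_const _
  change dist (deriv (F ∘ ofComplex) (z : ℂ)) 0 < ε
  rw [dist_zero_right, ← h7]
  linarith

/-- A function with a nonzero limit at `i∞` is bounded below near `i∞`. -/
theorem wr_bddBelow_of_tendsto {c : ℍ → ℂ} {L : ℂ} (hL : L ≠ 0)
    (h : Filter.Tendsto c atImInfty (nhds L)) :
    ∃ ε : ℝ, 0 < ε ∧ ∀ᶠ z in atImInfty, ε ≤ ‖c z‖ := by
  have hL' : 0 < ‖L‖ := norm_pos_iff.mpr hL
  refine ⟨‖L‖ / 2, by positivity, ?_⟩
  exact h.norm.eventually_const_le (by linarith)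

/-! ### the Wronskian as a cusp form of weight 12 -/

theorem wr_mdiff_E4 : MDiff E4 := ModularFormClass.holo ModularForm.E₄

theorem wr_mdiff_E6 : MDiff E6 := ModularFormClass.holo ModularForm.E₆

theorem wr_slash_E4 (γ : SL(2, ℤ)) : E4 ∣[(4 : ℤ)] γ = E4 := by
  rw [ModularForm.SL_slash]
  exact SlashInvariantForm.slash_action_eqn ModularForm.E₄ _ ⟨γ, rfl⟩

theorem wr_slash_E6 (γ : SL(2, ℤ)) : E6 ∣[(6 : ℤ)] γ = E6 := by
  rw [ModularForm.SL_slash]
  exact SlashInvariantForm.slash_action_eqn ModularForm.E₆ _ ⟨γ, rfl⟩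

/-- Derivatives of `F ∘ ofComplex` at points of the upper half plane. -/
theorem wr_hasDerivAt {F : ℍ → ℂ} (hF : MDiff F) {w : ℂ} (hw : 0 < w.im) :
    HasDerivAt (F ∘ ofComplex) (deriv (F ∘ ofComplex) w) w := by
  have h := (UpperHalfPlane.mdifferentiable_iff.mp hF) w hw
  exact (h.differentiableAt (isOpen_upperHalfPlaneSet.mem_nhds hw)).hasDerivAt

/-- The normalised Wronskian `2 E₄ · D E₆ - 3 E₆ · D E₄`. -/
noncomputable def wr_W : ℍ → ℂ :=
  (2 : ℂ) • (E4 * D E6) - (3 : ℂ) • (E6 * D E4)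

theorem wr_W_apply (z : ℍ) :
    wr_W z = (2 * Real.pi * Complex.I)⁻¹ *
      (2 * E4 z * deriv (E6 ∘ ofComplex) z - 3 * E6 z * deriv (E4 ∘ ofComplex) z) := by
  simp only [wr_W, Pi.sub_apply, Pi.smul_apply, Pi.mul_apply, smul_eq_mul,
    normalizedDerivOfComplex]
  ring

/-- The `E₂`-terms cancel. -/
theorem wr_W_eq_serre :
    wr_W = (2 : ℂ) • (E4 * serreDerivative (6 : ℤ) E6) -
      (3 : ℂ) • (E6 * serreDerivative (4 : ℤ) E4) := by
  ext z
  simp only [wr_W, Pi.sub_apply, Pi.smul_apply, Pi.mul_apply, smul_eq_mul,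
    serreDerivative_apply]
  push_cast
  ring

theorem wr_W_mdiff : MDiff wr_W := by
  unfold wr_W
  have h4 := normalizedDerivOfComplex_mdifferentiable wr_mdiff_E4
  have h6 := normalizedDerivOfComplex_mdifferentiable wr_mdiff_E6
  exact ((wr_mdiff_E4.mul h6).const_smul (2 : ℂ)).sub ((wr_mdiff_E6.mul h4).const_smul (3 : ℂ))

theorem wr_W_slash (γ : SL(2, ℤ)) : wr_W ∣[(12 : ℤ)] γ = wr_W := by
  have h4 : E4 ∣[(4 : ℤ)] γ = E4 := wr_slash_E4 γ
  have h6 : E6 ∣[(6 : ℤ)] γ = E6 := wr_slash_E6 γ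
  have hs4 : serreDerivative (4 : ℤ) E4 ∣[(4 : ℤ) + 2] γ = serreDerivative (4 : ℤ) E4 :=
    serreDerivative_slash_invariant wr_mdiff_E4 h4
  have hs6 : serreDerivative (6 : ℤ) E6 ∣[(6 : ℤ) + 2] γ = serreDerivative (6 : ℤ) E6 :=
    serreDerivative_slash_invariant wr_mdiff_E6 h6
  have e1 : (E4 * serreDerivative (6 : ℤ) E6) ∣[(12 : ℤ)] γ =
      E4 * serreDerivative (6 : ℤ) E6 := by
    have := ModularForm.mul_slash_SL2 4 (6 + 2) γ E4 (serreDerivative (6 : ℤ) E6)
    rw [h4, hs6] at this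
    exact this
  have e2 : (E6 * serreDerivative (4 : ℤ) E4) ∣[(12 : ℤ)] γ =
      E6 * serreDerivative (4 : ℤ) E4 := by
    have := ModularForm.mul_slash_SL2 6 (4 + 2) γ E6 (serreDerivative (4 : ℤ) E4)
    rw [h6, hs4] at this
    exact this
  rw [wr_W_eq_serre, sub_eq_add_neg, SlashAction.add_slash, SlashAction.neg_slash,
    ModularForm.SL_smul_slash, ModularForm.SL_smul_slash, e1, e2, ← sub_eq_add_neg]

theorem wr_W_zero : IsZeroAtImInfty wr_W := by
  have h4 := wr_tendsto_deriv wr_mdiff_E4 tendsto_E4_atImInfty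
  have h6 := wr_tendsto_deriv wr_mdiff_E6 tendsto_E6_atImInfty
  have h := ((((tendsto_E4_atImInfty.const_mul (2 : ℂ)).mul h6).sub
    ((tendsto_E6_atImInfty.const_mul (3 : ℂ)).mul h4)).const_mul
      ((2 * Real.pi * Complex.I)⁻¹ : ℂ))
  have h' : Filter.Tendsto wr_W atImInfty (nhds 0) := by
    refine (h.congr fun z => (wr_W_apply z).symm).trans ?_
    simp
  exact h'

/-- The normalised Wronskian as a level-one cusp form of weight `12`. -/
noncomputable def wr_cusp : CuspForm 𝒮ℒ 12 where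
  toFun := wr_W
  slash_action_eq' A hA := by
    obtain ⟨γ, rfl⟩ := hA
    exact wr_W_slash γ
  holo' := wr_W_mdiff
  zero_at_cusps' hc := by
    rw [Subgroup.IsArithmetic.isCusp_iff_isCusp_SL2Z] at hc
    rw [OnePoint.isZeroAt_iff_forall_SL2Z hc]
    intro γ _
    rw [wr_W_slash]
    exact wr_W_zero

/-- The normalised Wronskian is a level-one cusp form of weight `12`. -/
theorem wr_W_mem : wr_W ∈ A0 12 := ⟨wr_cusp, rfl⟩

theorem wr_exists_kappa : ∃ κ : ℂ, ∀ z : ℍ, wr_W z = κ * Dl z := by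
  obtain ⟨κ, hκ⟩ := CuspForm.exists_smul_discriminant_of_weight_eq_twelve wr_cusp
  refine ⟨κ, fun z => ?_⟩
  have h : wr_W z = (κ • CuspForm.discriminant) z := by
    rw [hκ]
    rfl
  exact h

/-- The Wronskian does not vanish identically: otherwise `E₄³ / Δ` would be constant. -/
theorem wr_not_forall_zero :
    ¬ ∀ z : ℍ,
      2 * E4 z * deriv (E6 ∘ ofComplex) z - 3 * E6 z * deriv (E4 ∘ ofComplex) z = 0 := by
  intro h
  set e4 : ℂ → ℂ := E4 ∘ ofComplex with he4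
  set e6 : ℂ → ℂ := E6 ∘ ofComplex with he6
  set g : ℂ → ℂ := fun w => e4 w ^ 3 / (e4 w ^ 3 - e6 w ^ 2) with hg
  have hne : ∀ w : ℂ, e4 w ^ 3 - e6 w ^ 2 ≠ 0 := by
    intro w h3
    apply wr_Dl_ne_zero (ofComplex w)
    rw [Dl_eq (ofComplex w)]
    simp only [he4, he6, Function.comp_apply] at h3
    rw [h3, zero_div]
  have hderiv : ∀ w : ℂ, 0 < w.im → HasDerivAt g 0 w := by
    intro w hw
    have d4 : HasDerivAt e4 (deriv e4 w) w := wr_hasDerivAt wr_mdiff_E4 hw
    have d6 : HasDerivAt e6 (deriv e6 w) w := wr_hasDerivAt wr_mdiff_E6 hw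
    have hW := h ⟨w, hw⟩
    have hw4 : E4 ⟨w, hw⟩ = e4 w := by
      simp only [he4, Function.comp_apply, ofComplex_apply_of_im_pos hw]
    have hw6 : E6 ⟨w, hw⟩ = e6 w := by
      simp only [he6, Function.comp_apply, ofComplex_apply_of_im_pos hw]
    rw [hw4, hw6] at hW
    change 2 * e4 w * deriv e6 w - 3 * e6 w * deriv e4 w = 0 at hW
    have d : HasDerivAt g _ w := (d4.pow 3).div ((d4.pow 3).sub (d6.pow 2)) (hne w)
    refine d.congr_deriv ?_
    rw [div_eq_zero_iff]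
    left
    simp only [Pi.pow_apply]
    push_cast
    linear_combination (e4 w ^ 2 * e6 w) * hW
  have hconst : ∀ w : ℂ, 0 < w.im → g w = g Complex.I := by
    intro w hw
    exact isOpen_upperHalfPlaneSet.is_const_of_deriv_eq_zero
      (convex_halfSpace_im_gt 0).isPreconnected
      (fun w hw => (hderiv w hw).differentiableAt.differentiableWithinAt)
      (fun w hw => (hderiv w hw).deriv) hw (by simp)
  have hE : ∀ z : ℍ, g Complex.I * 1728 * Dl z = E4 z ^ 3 := by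
    intro z
    have h1 := hconst z z.im_pos
    have h2 := hne z
    rw [Dl_eq z, ← h1]
    simp only [hg, he4, he6, Function.comp_apply, ofComplex_apply] at h2 ⊢
    field_simp
  have l1 : Filter.Tendsto (fun z : ℍ => E4 z ^ 3) atImInfty (nhds 1) := by
    simpa using tendsto_E4_atImInfty.pow 3
  have l2 : Filter.Tendsto (fun z : ℍ => g Complex.I * 1728 * Dl z) atImInfty (nhds 0) := by
    simpa using tendsto_Dl_atImInfty.const_mul (g Complex.I * 1728)
  exact one_ne_zero (tendsto_nhds_unique (l1.congr fun z => (hE z).symm) l2)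

/-! ### the main statements -/

/-- `2 E₄ E₆' - 3 E₆ E₄' = κ Δ` with a nonzero constant `κ`. -/
theorem wr_wronskian_eq : ∃ κ : ℂ, κ ≠ 0 ∧ ∀ z : ℍ,
    2 * E4 z * deriv (E6 ∘ ofComplex) z - 3 * E6 z * deriv (E4 ∘ ofComplex) z = κ * Dl z := by
  obtain ⟨κ, hκ⟩ := wr_exists_kappa
  have hpi : (2 * Real.pi * Complex.I : ℂ) ≠ 0 := Complex.two_pi_I_ne_zero
  have hκ0 : κ ≠ 0 := by
    rintro rfl
    apply wr_not_forall_zero
    intro w
    have h1 := hκ w
    rw [wr_W_apply, zero_mul] at h1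
    exact (mul_eq_zero.mp h1).resolve_left (inv_ne_zero hpi)
  refine ⟨2 * Real.pi * Complex.I * κ, mul_ne_zero hpi hκ0, fun z => ?_⟩
  have h1 := hκ z
  rw [wr_W_apply] at h1
  rw [mul_assoc (2 * Real.pi * Complex.I : ℂ) κ (Dl z), ← h1, mul_inv_cancel_left₀ hpi]

/-- The Wronskian-type combination `2 E₄ E₆' - 3 E₆ E₄'` never vanishes on `ℍ`. -/
theorem wronskian_ne_zero (z : ℍ) :
    2 * E4 z * deriv (E6 ∘ ofComplex) z - 3 * E6 z * deriv (E4 ∘ ofComplex) z ≠ 0 := by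
  obtain ⟨κ, hκ0, hκ⟩ := wr_wronskian_eq
  rw [hκ z]
  exact mul_ne_zero hκ0 (wr_Dl_ne_zero z)

theorem simple_zero_E4 (z : ℍ) (hz : E4 z = 0) : deriv (E4 ∘ ofComplex) z ≠ 0 := by
  intro h
  apply wronskian_ne_zero z
  rw [hz, h]
  ring

theorem simple_zero_E6 (z : ℍ) (hz : E6 z = 0) : deriv (E6 ∘ ofComplex) z ≠ 0 := by
  intro h
  apply wronskian_ne_zero z
  rw [hz, h]
  ring

theorem simple_zero_comb (α β : ℂ) (hα : α ≠ 0) (hβ : β ≠ 0) (z : ℍ)
    (hz : α * E4 z ^ 3 + β * E6 z ^ 2 = 0) :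
    deriv ((fun w : ℍ => α * E4 w ^ 3 + β * E6 w ^ 2) ∘ ofComplex) z ≠ 0 := by
  have d4 := wr_hasDerivAt wr_mdiff_E4 z.im_pos
  have d6 := wr_hasDerivAt wr_mdiff_E6 z.im_pos
  have d : HasDerivAt ((fun w : ℍ => α * E4 w ^ 3 + β * E6 w ^ 2) ∘ ofComplex) _ (z : ℂ) :=
    ((d4.pow 3).const_mul α).add ((d6.pow 2).const_mul β)
  rw [d.deriv]
  intro h
  simp only [Function.comp_apply, ofComplex_apply] at h
  have h6 : E6 z ≠ 0 := by
    intro h6
    rw [h6] at hz
    have h4 : E4 z = 0 := by simpa [hα] using hz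
    rcases E4_ne_zero_or_E6_ne_zero z with h' | h'
    exacts [h' h4, h' h6]
  apply wronskian_ne_zero z
  have h0 : β * E6 z * (2 * E4 z * deriv (E6 ∘ ofComplex) z -
      3 * E6 z * deriv (E4 ∘ ofComplex) z) = 0 := by
    push_cast at h
    linear_combination E4 z * h + (-3 * deriv (E4 ∘ ofComplex) z) * hz
  exact (mul_eq_zero.mp h0).resolve_left (mul_ne_zero hβ h6)

theorem isPrimeLike_E4 : IsPrimeLike E4 :=
  ⟨wr_bddBelow_of_tendsto one_ne_zero tendsto_E4_atImInfty, simple_zero_E4⟩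

theorem isPrimeLike_E6 : IsPrimeLike E6 :=
  ⟨wr_bddBelow_of_tendsto one_ne_zero tendsto_E6_atImInfty, simple_zero_E6⟩

theorem isPrimeLike_comb (α β : ℂ) (hα : α ≠ 0) (hβ : β ≠ 0) (hαβ : α + β ≠ 0) :
    IsPrimeLike (fun w : ℍ => α * E4 w ^ 3 + β * E6 w ^ 2) := by
  refine ⟨wr_bddBelow_of_tendsto hαβ ?_, fun z hz => simple_zero_comb α β hα hβ z hz⟩
  have h := ((tendsto_E4_atImInfty.pow 3).const_mul α).add
    ((tendsto_E6_atImInfty.pow 2).const_mul β)
  simpa using h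

end Fermat.Agent.S20T
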