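import Mathlib
import Fermat.Agent.S20T.Basic
import Fermat.Agent.S20T.Dim
import Fermat.Agent.S20T.Wronskian

/-!
# S20T: algebra of level-one forms (from the dimension formula)
-/

set_option autoImplicit false

open UpperHalfPlane ModularFormClass CongruenceSubgroup
open scoped MatrixGroups ModularForm Manifold

namespace Fermat.Agent.S20T

variable {k : ℤ} {F : ℍ → ℂ}

/-! ### auxiliary statements -/

/-- a level-one form has a limit at `i∞` -/
theorem lo_tendsto (hF : F ∈ A k) : ∃ c : ℂ, Filter.Tendsto F atImInfty (nhds c) := by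
  obtain ⟨f, rfl⟩ := hF
  refine ⟨cuspFunction 1 f 0, ?_⟩
  have hper := SlashInvariantFormClass.periodic_comp_ofComplex f
    one_mem_strictPeriods_SL
  have han := ModularFormClass.analyticAt_cuspFunction_zero f one_pos
    one_mem_strictPeriods_SL
  have : (cuspFunction 1 f ∘ fun τ : ℍ ↦ Function.Periodic.qParam 1 τ : ℍ → ℂ) = f := by
    funext τ
    simpa using eq_cuspFunction τ one_ne_zero hper
  simpa [this] using han.continuousAt.tendsto.comp (qParam_tendsto_atImInfty one_pos)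

theorem lo_eq_zero_of_finrank {n : ℤ} (h : Module.finrank ℂ (A n) = 0) {F : ℍ → ℂ}
    (hF : F ∈ A n) : F = 0 := by
  rw [Submodule.finrank_eq_zero] at h
  rw [h] at hF
  simpa using hF

/-- multiplication by a fixed function, as a linear map on `ℍ → ℂ` -/
noncomputable def lo_mul (c : ℍ → ℂ) : (ℍ → ℂ) →ₗ[ℂ] (ℍ → ℂ) := LinearMap.mulLeft ℂ c

theorem lo_mul_apply (c G : ℍ → ℂ) : lo_mul c G = c * G := rfl

theorem lo_mem_map_mul {c : ℍ → ℂ} {n : ℤ} {F : ℍ → ℂ} :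
    F ∈ (A n).map (lo_mul c) ↔ ∃ F' ∈ A n, F = c * F' := by
  rw [Submodule.mem_map]
  constructor
  · rintro ⟨G, hG, rfl⟩
    exact ⟨G, hG, rfl⟩
  · rintro ⟨G, hG, rfl⟩
    exact ⟨G, hG, rfl⟩

theorem lo_finrank_map_mul {c : ℍ → ℂ} {w : ℤ} (hc : c ∈ A w) (hc0 : c ≠ 0) (n : ℤ) :
    Module.finrank ℂ ((A n).map (lo_mul c)) = Module.finrank ℂ (A n) := by
  have hinj : Function.Injective ((lo_mul c).comp (A n).subtype) := by
    rw [← LinearMap.ker_eq_bot, LinearMap.ker_eq_bot']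
    rintro ⟨G, hG⟩ h
    have h' : c * G = 0 := h
    rcases eq_zero_or_eq_zero_of_mul (mdiff_of_mem_A hc) (mdiff_of_mem_A hG) h' with h0 | h0
    · exact absurd h0 hc0
    · exact Subtype.ext h0
  have hr : LinearMap.range ((lo_mul c).comp (A n).subtype) = (A n).map (lo_mul c) := by
    rw [LinearMap.range_comp, Submodule.range_subtype]
  rw [← hr, LinearMap.finrank_range_of_inj hinj]

theorem lo_map_mul_le {c : ℍ → ℂ} {w n : ℤ} (hc : c ∈ A w) :
    (A (n - w)).map (lo_mul c) ≤ A n := by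
  intro F hF
  obtain ⟨F', hF', rfl⟩ := lo_mem_map_mul.mp hF
  exact A_cast (by ring) (A_mul hc hF')

/-- if `dim A n ≤ dim A (n - w)` then every form of weight `n` is divisible by `c ∈ A w`. -/
theorem lo_surj {c : ℍ → ℂ} {w n : ℤ} (hc : c ∈ A w) (hc0 : c ≠ 0)
    (h : Module.finrank ℂ (A n) ≤ Module.finrank ℂ (A (n - w))) {F : ℍ → ℂ} (hF : F ∈ A n) :
    ∃ F' ∈ A (n - w), F = c * F' := by
  have heq : (A (n - w)).map (lo_mul c) = A n :=
    Submodule.eq_of_le_of_finrank_le (lo_map_mul_le hc)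
      (by rw [lo_finrank_map_mul hc hc0]; exact h)
  rw [← heq] at hF
  exact lo_mem_map_mul.mp hF

/-- forms of weight `n` vanishing at `z₀` -/
noncomputable abbrev lo_K (n : ℤ) (z₀ : ℍ) : Submodule ℂ (ℍ → ℂ) :=
  A n ⊓ LinearMap.ker (LinearMap.proj z₀ : (ℍ → ℂ) →ₗ[ℂ] ℂ)

theorem lo_mem_K {n : ℤ} {z₀ : ℍ} {F : ℍ → ℂ} : F ∈ lo_K n z₀ ↔ F ∈ A n ∧ F z₀ = 0 := by
  simp [lo_K, Submodule.mem_inf, LinearMap.mem_ker]

/-- if `dim A n ≤ dim A (n - w) + 1` and some form of weight `n` does not vanish at `z₀`, then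
every form of weight `n` vanishing at `z₀` is divisible by `c ∈ A w` (where `c z₀ = 0`). -/
theorem lo_dvd {c : ℍ → ℂ} {w n : ℤ} {z₀ : ℍ} (hc : c ∈ A w) (hc0 : c ≠ 0) (hcz : c z₀ = 0)
    (h : Module.finrank ℂ (A n) ≤ Module.finrank ℂ (A (n - w)) + 1)
    {G : ℍ → ℂ} (hG : G ∈ A n) (hGz : G z₀ ≠ 0) {F : ℍ → ℂ} (hF : F ∈ A n) (hFz : F z₀ = 0) :
    ∃ F' ∈ A (n - w), F = c * F' := by
  have hKA : lo_K n z₀ ≤ A n := inf_le_left
  have hlt : lo_K n z₀ < A n := by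
    refine lt_of_le_of_ne hKA ?_
    intro heq
    have : G ∈ lo_K n z₀ := by rw [heq]; exact hG
    exact hGz (lo_mem_K.mp this).2
  have h1 := Submodule.finrank_lt_finrank_of_lt hlt
  have hle : (A (n - w)).map (lo_mul c) ≤ lo_K n z₀ := by
    intro F hF
    obtain ⟨F', hF', rfl⟩ := lo_mem_map_mul.mp hF
    exact lo_mem_K.mpr ⟨A_cast (by ring) (A_mul hc hF'), by simp [hcz]⟩
  have heq : (A (n - w)).map (lo_mul c) = lo_K n z₀ :=
    Submodule.eq_of_le_of_finrank_le hle (by rw [lo_finrank_map_mul hc hc0]; omega)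
  have : F ∈ lo_K n z₀ := lo_mem_K.mpr ⟨hF, hFz⟩
  rw [← heq] at this
  exact lo_mem_map_mul.mp this

/-! ### numerics of the dimension formula -/

theorem lo_finrank_A_sub_12 (n : ℤ) :
    Module.finrank ℂ (A n) ≤ Module.finrank ℂ (A (n - 12)) + 1 := by
  have h1 := finrank_A n
  have h2 := finrank_A (n - 12)
  simp only [Int.odd_iff] at h1 h2
  split_ifs at h1 h2 <;> omega

theorem lo_finrank_A_sub_6 (n : ℤ) (h : ¬ ((4 : ℤ) ∣ n ∧ 0 ≤ n)) :
    Module.finrank ℂ (A n) ≤ Module.finrank ℂ (A (n - 6)) := by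
  have h1 := finrank_A n
  have h2 := finrank_A (n - 6)
  simp only [Int.odd_iff] at h1 h2
  split_ifs at h1 h2 <;> omega

theorem lo_finrank_A_sub_6' (n : ℤ) :
    Module.finrank ℂ (A n) ≤ Module.finrank ℂ (A (n - 6)) + 1 := by
  have h1 := finrank_A n
  have h2 := finrank_A (n - 6)
  simp only [Int.odd_iff] at h1 h2
  split_ifs at h1 h2 <;> omega

theorem lo_finrank_A_sub_4 (n : ℤ) (h : ¬ ((6 : ℤ) ∣ n ∧ 0 ≤ n)) :
    Module.finrank ℂ (A n) ≤ Module.finrank ℂ (A (n - 4)) := by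
  have h1 := finrank_A n
  have h2 := finrank_A (n - 4)
  simp only [Int.odd_iff] at h1 h2
  split_ifs at h1 h2 <;> omega

theorem lo_finrank_A_sub_4' (n : ℤ) :
    Module.finrank ℂ (A n) ≤ Module.finrank ℂ (A (n - 4)) + 1 := by
  have h1 := finrank_A n
  have h2 := finrank_A (n - 4)
  simp only [Int.odd_iff] at h1 h2
  split_ifs at h1 h2 <;> omega

theorem lo_finrank_A_eq_zero (n : ℤ) (h : n < 0 ∨ Odd n ∨ n = 2) :
    Module.finrank ℂ (A n) = 0 := by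
  have h1 := finrank_A n
  simp only [Int.odd_iff] at h1 h
  split_ifs at h1 <;> omega

/-! ### monomials in `E₄`, `E₆` -/

theorem lo_E4_pow_mem (x : ℕ) : E4 ^ x ∈ A (4 * x) := A_cast (by ring) (A_pow E4_mem_A x)

theorem lo_E6_pow_mem (y : ℕ) : E6 ^ y ∈ A (6 * y) := A_cast (by ring) (A_pow E6_mem_A y)

theorem lo_monomial_mem (x y : ℕ) : E4 ^ x * E6 ^ y ∈ A (4 * x + 6 * y) :=
  A_mul (lo_E4_pow_mem x) (lo_E6_pow_mem y)

theorem lo_tendsto_monomial (x y : ℕ) :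
    Filter.Tendsto (E4 ^ x * E6 ^ y) atImInfty (nhds 1) := by
  have := (tendsto_E4_atImInfty.pow x).mul (tendsto_E6_atImInfty.pow y)
  simp only [one_pow, mul_one] at this
  exact this

theorem lo_exists_exponents {n : ℤ} (h0 : 0 ≤ n) (he : ¬ Odd n) (h2 : n ≠ 2) :
    ∃ x y : ℕ, 4 * (x : ℤ) + 6 * (y : ℤ) = n := by
  rw [Int.odd_iff] at he
  by_cases h4 : n % 4 = 0
  · exact ⟨(n / 4).toNat, 0, by omega⟩
  · exact ⟨((n - 6) / 4).toNat, 1, by omega⟩

/-- the forms of weight `k` in the ideal generated by `E₄` and `E₆` -/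
noncomputable def lo_I (k : ℤ) : Submodule ℂ (ℍ → ℂ) :=
  (A (k - 4)).map (lo_mul E4) ⊔ (A (k - 6)).map (lo_mul E6)

theorem lo_mem_I {k : ℤ} {F : ℍ → ℂ} :
    F ∈ lo_I k ↔ ∃ F₁ ∈ A (k - 4), ∃ F₂ ∈ A (k - 6), F = E4 * F₁ + E6 * F₂ := by
  rw [lo_I, Submodule.mem_sup]
  constructor
  · rintro ⟨G₁, hG₁, G₂, hG₂, rfl⟩
    obtain ⟨F₁, hF₁, rfl⟩ := lo_mem_map_mul.mp hG₁
    obtain ⟨F₂, hF₂, rfl⟩ := lo_mem_map_mul.mp hG₂
    exact ⟨F₁, hF₁, F₂, hF₂, rfl⟩
  · rintro ⟨F₁, hF₁, F₂, hF₂, rfl⟩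
    exact ⟨_, lo_mem_map_mul.mpr ⟨F₁, hF₁, rfl⟩, _, lo_mem_map_mul.mpr ⟨F₂, hF₂, rfl⟩, rfl⟩

theorem lo_Dl_mul_mem_I {k : ℤ} {F' : ℍ → ℂ} (hF' : F' ∈ A (k - 12)) : Dl * F' ∈ lo_I k := by
  rw [lo_mem_I]
  refine ⟨(1 / 1728 : ℂ) • (E4 ^ 2 * F'), ?_, (-(1 / 1728) : ℂ) • (E6 * F'), ?_, ?_⟩
  · exact Submodule.smul_mem _ _ (A_cast (by push_cast; ring) (A_mul (lo_E4_pow_mem 2) hF'))
  · exact Submodule.smul_mem _ _ (A_cast (by ring) (A_mul E6_mem_A hF'))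
  · funext z
    simp only [Pi.mul_apply, Pi.add_apply, Pi.smul_apply, Pi.pow_apply, smul_eq_mul]
    rw [Dl_eq]
    ring

theorem lo_monomial_mem_I {k : ℤ} (x y : ℕ) (hxy : 0 < x + y)
    (hk : 4 * (x : ℤ) + 6 * (y : ℤ) = k) : E4 ^ x * E6 ^ y ∈ lo_I k := by
  rcases Nat.eq_zero_or_pos x with hx | hx
  · obtain ⟨y', rfl⟩ : ∃ y', y = y' + 1 := ⟨y - 1, by omega⟩
    subst hx
    refine Submodule.mem_sup_right (lo_mem_map_mul.mpr ⟨E6 ^ y', ?_, ?_⟩)
    · exact A_cast (by rw [← hk]; push_cast; ring) (lo_E6_pow_mem y')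
    · rw [pow_zero, one_mul, pow_succ, mul_comm]
  · obtain ⟨x', rfl⟩ : ∃ x', x = x' + 1 := ⟨x - 1, by omega⟩
    refine Submodule.mem_sup_left (lo_mem_map_mul.mpr ⟨E4 ^ x' * E6 ^ y, ?_, ?_⟩)
    · exact A_cast (by rw [← hk]; push_cast; ring) (lo_monomial_mem x' y)
    · rw [pow_succ]; ring

/-! ### the main statements -/

/-- `A_{>0} = E₄ A + E₆ A`. -/
theorem A_decomp (hk : 0 < k) (hF : F ∈ A k) :
    ∃ F₁ ∈ A (k - 4), ∃ F₂ ∈ A (k - 6), F = E4 * F₁ + E6 * F₂ := by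
  rw [← lo_mem_I]
  by_cases h : Odd k ∨ k = 2
  · rw [lo_eq_zero_of_finrank (lo_finrank_A_eq_zero k (Or.inr h)) hF]
    exact Submodule.zero_mem _
  · push Not at h
    obtain ⟨x, y, hxy⟩ := lo_exists_exponents hk.le h.1 h.2
    have hM : E4 ^ x * E6 ^ y ∈ A k := A_cast hxy (lo_monomial_mem x y)
    obtain ⟨c, hc⟩ := lo_tendsto hF
    have hG : F - c • (E4 ^ x * E6 ^ y) ∈ A0 k := by
      rw [mem_A0_iff]
      refine ⟨Submodule.sub_mem _ hF (Submodule.smul_mem _ c hM), ?_⟩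
      have := hc.sub ((lo_tendsto_monomial x y).const_smul c)
      simp only [smul_eq_mul, mul_one, sub_self] at this
      exact this
    obtain ⟨F', hF', hFF'⟩ := mem_A0_iff_exists.mp hG
    have : F = c • (E4 ^ x * E6 ^ y) + Dl * F' := by rw [← hFF']; ring
    rw [this]
    exact Submodule.add_mem _ (Submodule.smul_mem _ c (lo_monomial_mem_I x y (by omega) hxy))
      (lo_Dl_mul_mem_I hF')

theorem lo_ne_zero_of_isPrimeLike {c : ℍ → ℂ} (hc : IsPrimeLike c) : c ≠ 0 := by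
  obtain ⟨⟨ε, hε, hev⟩, -⟩ := hc
  obtain ⟨z, hz⟩ := hev.exists
  intro h
  rw [h] at hz
  simp at hz
  linarith

/-- For every point `z₀` there is `g ∈ {2,4,6}` such that forms of weight not divisible by `g`
vanish at `z₀`, while every large weight divisible by `g` carries a form not vanishing at `z₀`. -/
theorem exists_good_weights (z₀ : ℍ) :
    ∃ g : ℕ, 0 < g ∧ (∀ n : ℤ, ¬ (g : ℤ) ∣ n → ∀ F ∈ A n, F z₀ = 0) ∧
      ∃ n₀ : ℤ, ∀ n : ℤ, n₀ ≤ n → (g : ℤ) ∣ n → ∃ F ∈ A n, F z₀ ≠ 0 := by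
  by_cases h6 : E6 z₀ = 0
  · have h4 : E4 z₀ ≠ 0 := (E4_ne_zero_or_E6_ne_zero z₀).resolve_right (not_not.mpr h6)
    refine ⟨4, by norm_num, fun n hn F hF => ?_, 0, fun n hn0 hn => ?_⟩
    · obtain ⟨F', -, rfl⟩ := lo_surj E6_mem_A (lo_ne_zero_of_isPrimeLike isPrimeLike_E6)
        (lo_finrank_A_sub_6 n (fun h => hn (by exact_mod_cast h.1))) hF
      simp [h6]
    · obtain ⟨m, hm⟩ := hn
      refine ⟨E4 ^ m.toNat, A_cast (by push_cast at hm ⊢; omega) (lo_E4_pow_mem m.toNat), ?_⟩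
      rw [Pi.pow_apply]
      exact pow_ne_zero _ h4
  by_cases h4 : E4 z₀ = 0
  · refine ⟨6, by norm_num, fun n hn F hF => ?_, 0, fun n hn0 hn => ?_⟩
    · obtain ⟨F', -, rfl⟩ := lo_surj E4_mem_A (lo_ne_zero_of_isPrimeLike isPrimeLike_E4)
        (lo_finrank_A_sub_4 n (fun h => hn (by exact_mod_cast h.1))) hF
      simp [h4]
    · obtain ⟨m, hm⟩ := hn
      refine ⟨E6 ^ m.toNat, A_cast (by push_cast at hm ⊢; omega) (lo_E6_pow_mem m.toNat), ?_⟩
      rw [Pi.pow_apply]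
      exact pow_ne_zero _ h6
  · refine ⟨2, by norm_num, fun n hn F hF => ?_, 4, fun n hn0 hn => ?_⟩
    · have hodd : Odd n := by
        rw [Int.odd_iff]
        have : ¬ (2 : ℤ) ∣ n := by exact_mod_cast hn
        omega
      rw [lo_eq_zero_of_finrank (lo_finrank_A_eq_zero n (Or.inr (Or.inl hodd))) hF]
      rfl
    · have hev : ¬ Odd n := by
        rw [Int.odd_iff]
        have : (2 : ℤ) ∣ n := by exact_mod_cast hn
        omega
      obtain ⟨x, y, hxy⟩ := lo_exists_exponents (by omega) hev (by omega)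
      exact ⟨E4 ^ x * E6 ^ y, A_cast hxy (lo_monomial_mem x y), by simp [h4, h6]⟩

/-- For every point `z₀` there is a prime-like level-one form `c` vanishing at `z₀` which divides
(in `A`) every level-one form vanishing at `z₀`. -/
theorem exists_prime_dvd (z₀ : ℍ) :
    ∃ (w : ℤ) (c : ℍ → ℂ), c ∈ A w ∧ c z₀ = 0 ∧ IsPrimeLike c ∧
      ∀ (n : ℤ) (F : ℍ → ℂ), F ∈ A n → F z₀ = 0 → ∃ F' ∈ A (n - w), F = c * F' := by
  by_cases h4 : E4 z₀ = 0
  · have h6 : E6 z₀ ≠ 0 := (E4_ne_zero_or_E6_ne_zero z₀).resolve_left (not_not.mpr h4)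
    refine ⟨4, E4, E4_mem_A, h4, isPrimeLike_E4, fun n F hF hFz => ?_⟩
    have hc0 := lo_ne_zero_of_isPrimeLike isPrimeLike_E4
    by_cases hn : (6 : ℤ) ∣ n ∧ 0 ≤ n
    · obtain ⟨⟨m, hm⟩, hn0⟩ := hn
      have hG : E6 ^ m.toNat ∈ A n := A_cast (by omega) (lo_E6_pow_mem m.toNat)
      exact lo_dvd E4_mem_A hc0 h4 (lo_finrank_A_sub_4' n) hG
        (by rw [Pi.pow_apply]; exact pow_ne_zero _ h6) hF hFz
    · exact lo_surj E4_mem_A hc0 (lo_finrank_A_sub_4 n hn) hF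
  by_cases h6 : E6 z₀ = 0
  · refine ⟨6, E6, E6_mem_A, h6, isPrimeLike_E6, fun n F hF hFz => ?_⟩
    have hc0 := lo_ne_zero_of_isPrimeLike isPrimeLike_E6
    by_cases hn : (4 : ℤ) ∣ n ∧ 0 ≤ n
    · obtain ⟨⟨m, hm⟩, hn0⟩ := hn
      have hG : E4 ^ m.toNat ∈ A n := A_cast (by omega) (lo_E4_pow_mem m.toNat)
      exact lo_dvd E6_mem_A hc0 h6 (lo_finrank_A_sub_6' n) hG
        (by rw [Pi.pow_apply]; exact pow_ne_zero _ h4) hF hFz
    · exact lo_surj E6_mem_A hc0 (lo_finrank_A_sub_6 n hn) hF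
  · have hα : E6 z₀ ^ 2 ≠ 0 := pow_ne_zero _ h6
    have hβ : -(E4 z₀ ^ 3) ≠ 0 := neg_ne_zero.mpr (pow_ne_zero _ h4)
    have hαβ : E6 z₀ ^ 2 + -(E4 z₀ ^ 3) ≠ 0 := by
      have hD := Dl_ne_zero z₀
      rw [Dl_eq] at hD
      intro h
      apply hD
      have : E4 z₀ ^ 3 - E6 z₀ ^ 2 = 0 := by linear_combination -h
      rw [this]
      simp
    have hP := isPrimeLike_comb _ _ hα hβ hαβ
    have hc : (fun w : ℍ => E6 z₀ ^ 2 * E4 w ^ 3 + -(E4 z₀ ^ 3) * E6 w ^ 2) ∈ A 12 := by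
      have : (fun w : ℍ => E6 z₀ ^ 2 * E4 w ^ 3 + -(E4 z₀ ^ 3) * E6 w ^ 2) =
          (E6 z₀ ^ 2) • E4 ^ 3 + (-(E4 z₀ ^ 3)) • E6 ^ 2 := by
        funext w
        simp
      rw [this]
      exact Submodule.add_mem _ (Submodule.smul_mem _ _ (A_cast (by norm_num) (lo_E4_pow_mem 3)))
        (Submodule.smul_mem _ _ (A_cast (by norm_num) (lo_E6_pow_mem 2)))
    refine ⟨12, _, hc, by ring, hP, fun n F hF hFz => ?_⟩
    by_cases hn : n < 0 ∨ Odd n ∨ n = 2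
    · rw [lo_eq_zero_of_finrank (lo_finrank_A_eq_zero n hn) hF]
      exact ⟨0, Submodule.zero_mem _, by simp⟩
    · push Not at hn
      obtain ⟨x, y, hxy⟩ := lo_exists_exponents hn.1 hn.2.1 hn.2.2
      have hG : E4 ^ x * E6 ^ y ∈ A n := A_cast hxy (lo_monomial_mem x y)
      exact lo_dvd hc (lo_ne_zero_of_isPrimeLike hP) (by ring) (lo_finrank_A_sub_12 n) hG
        (by simp [h4, h6]) hF hFz

/-- the inverse of a nowhere vanishing level-one form with nonzero limit at `i∞` -/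
theorem lo_inv_mem {n : ℤ} {a : ℍ → ℂ} (ha : a ∈ A n) (hz : ∀ z : ℍ, a z ≠ 0) {c : ℂ}
    (hc : c ≠ 0) (hlim : Filter.Tendsto a atImInfty (nhds c)) : 1 / a ∈ A (0 - n) := by
  apply mem_A_of_invariant
  · intro τ
    rw [mdifferentiableAt_iff]
    have h := mdifferentiableAt_iff.mp (mdiff_of_mem_A ha τ)
    have hne : (a ∘ ofComplex) (τ : ℂ) ≠ 0 := by
      rw [Function.comp_apply, ofComplex_apply]
      exact hz τ
    exact (differentiableAt_const (1 : ℂ)).div h hne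
  · have h1 : Filter.Tendsto (1 / a) atImInfty (nhds (1 / c)) := by
      have := hlim.inv₀ hc
      simp only [one_div]
      exact this
    exact h1.isBigO_one ℝ
  · intro γ
    rw [ModularForm.div_slash_SL2, ModularForm.is_invariant_one, slash_of_mem_A ha]

theorem lo_eq_const_mul_Dl_pow_aux (N : ℕ) : ∀ (n : ℤ) (a : ℍ → ℂ), n.toNat = N → a ∈ A n →
    (∀ z : ℍ, a z ≠ 0) → ∃ (m : ℕ) (κ : ℂ), κ ≠ 0 ∧ n = 12 * (m : ℤ) ∧ a = κ • Dl ^ m := by
  induction N using Nat.strong_induction_on with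
  | _ N ih =>
    intro n a hnN ha hz
    obtain ⟨c, hc⟩ := lo_tendsto ha
    by_cases hc0 : c = 0
    · subst hc0
      have ha0 : a ∈ A0 n := mem_A0_iff.mpr ⟨ha, hc⟩
      obtain ⟨a', ha', rfl⟩ := mem_A0_iff_exists.mp ha0
      have hz' : ∀ z, a' z ≠ 0 := fun z h => hz z (by simp [h])
      have hn12 : 0 ≤ n - 12 := by
        by_contra hneg
        have hbot := A_eq_bot_of_neg (k := n - 12) (by omega)
        rw [hbot] at ha'
        exact hz' UpperHalfPlane.I (by rw [(Submodule.mem_bot ℂ).mp ha']; rfl)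
      obtain ⟨m, κ, hκ, hm, hak⟩ := ih (n - 12).toNat (by omega) (n - 12) a' rfl ha' hz'
      refine ⟨m + 1, κ, hκ, by push_cast; omega, ?_⟩
      rw [hak, pow_succ]
      funext z
      simp only [Pi.mul_apply, Pi.smul_apply, Pi.pow_apply, smul_eq_mul]
      ring
    · have hinv := lo_inv_mem ha hz hc0 hc
      have hn0 : n = 0 := by
        rcases lt_trichotomy n 0 with hneg | h0 | hpos
        · exfalso
          rw [A_eq_bot_of_neg hneg] at ha
          exact hz UpperHalfPlane.I (by rw [(Submodule.mem_bot ℂ).mp ha]; rfl)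
        · exact h0
        · exfalso
          rw [A_eq_bot_of_neg (by omega)] at hinv
          have := congrFun ((Submodule.mem_bot ℂ).mp hinv) UpperHalfPlane.I
          simp only [Pi.div_apply, Pi.one_apply, Pi.zero_apply, one_div, inv_eq_zero] at this
          exact hz _ this
      subst hn0
      obtain ⟨κ, rfl⟩ := mem_R_zero (N := 1) (A_le_R 1 0 ha)
      refine ⟨0, κ, hz UpperHalfPlane.I, by simp, ?_⟩
      funext z
      simp

/-- A level-one form without zeros on `ℍ` is a constant multiple of a power of `Δ`. -/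
theorem eq_const_mul_Dl_pow {n : ℤ} {a : ℍ → ℂ} (ha : a ∈ A n) (hz : ∀ z : ℍ, a z ≠ 0) :
    ∃ (m : ℕ) (κ : ℂ), κ ≠ 0 ∧ n = 12 * (m : ℤ) ∧ a = κ • Dl ^ m :=
  lo_eq_const_mul_Dl_pow_aux n.toNat n a rfl ha hz

end Fermat.Agent.S20T
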