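import Mathlib
import Fermat.Agent.S20T.Defs
import Fermat.Agent.X0Count.Basic

/-!
# S20T: the identification of `SL(2, ℤ) ⧸ Gamma0 N` with the coset space `Q N` of S23

The coset space `Q N = 𝒮ℒ ⧸ (G0 N).subgroupOf 𝒮ℒ` of S23 lives inside `GL (Fin 2) ℝ`.  Here we
construct the equivalence `cb_e N : (SL(2, ℤ) ⧸ Gamma0 N) ≃ Q N`, `⟦δ⟧ ↦ ⟦toSL δ⟧`, which
satisfies `cb_e N (γ • x) = toSL γ • cb_e N x` (`cb_e_smul`) and hence
`perm N γ (cb_e N x) = cb_e N (γ⁻¹ • x)` (`cb_perm_e`).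

As an application we record the basic properties of the permutations `perm N γ`
(`cb_perm_one`, `cb_perm_mul`, `cb_perm_of_mem_normalCore`, `cb_perm_neg_one`,
`cb_perm_S_perm_S`, `cb_perm_ST_cube`, `cb_perm_T_pow`, `cb_exists_perm_eq`).

This file depends only on `Defs` and on `X0Count.Basic`.
-/

set_option autoImplicit false

open UpperHalfPlane ModularFormClass CongruenceSubgroup
open scoped MatrixGroups ModularForm Manifold

namespace Fermat.Agent.S20T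

open Fermat.Agent.S23L.Data (Q G0 perm cj toSL fintypeQ)

/-! ### the identification of `SL(2, ℤ)` with `𝒮ℒ` -/

/-- The isomorphism of `SL(2, ℤ)` with its image `𝒮ℒ` in `GL (Fin 2) ℝ`. -/
noncomputable def cb_iso : SL(2, ℤ) ≃* 𝒮ℒ :=
  MonoidHom.ofInjective (f := (Matrix.SpecialLinearGroup.mapGL ℝ : SL(2, ℤ) →* GL (Fin 2) ℝ))
    Matrix.SpecialLinearGroup.mapGL_injective

theorem cb_iso_apply (γ : SL(2, ℤ)) : cb_iso γ = toSL γ := rfl

theorem cb_toSL_one : toSL 1 = 1 :=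
  map_one cb_iso

theorem cb_toSL_mul (γ δ : SL(2, ℤ)) : toSL (γ * δ) = toSL γ * toSL δ :=
  map_mul cb_iso γ δ

theorem cb_toSL_inv (γ : SL(2, ℤ)) : toSL γ⁻¹ = (toSL γ)⁻¹ :=
  map_inv cb_iso γ

theorem cb_toSL_zpow (γ : SL(2, ℤ)) (n : ℤ) : toSL (γ ^ n) = (toSL γ) ^ n :=
  map_zpow cb_iso γ n

theorem cb_toSL_injective : Function.Injective toSL :=
  cb_iso.injective

theorem cb_toSL_surjective : Function.Surjective toSL :=
  cb_iso.surjective

/-- The two coset relations correspond. -/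
theorem cb_rel_iff (N : ℕ) (a b : SL(2, ℤ)) :
    a⁻¹ * b ∈ Gamma0 N ↔ (toSL a)⁻¹ * toSL b ∈ (G0 N).subgroupOf 𝒮ℒ := by
  rw [Subgroup.mem_subgroupOf]
  have h : (((toSL a)⁻¹ * toSL b : 𝒮ℒ) : GL (Fin 2) ℝ)
      = Matrix.SpecialLinearGroup.mapGL ℝ (a⁻¹ * b) := by
    rw [← cb_toSL_inv, ← cb_toSL_mul]
    rfl
  rw [h]
  exact (Subgroup.mem_map_iff_mem Matrix.SpecialLinearGroup.mapGL_injective).symm

/-! ### the identification of the two coset spaces -/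

/-- The identification `⟦δ⟧ ↦ ⟦toSL δ⟧` of `SL(2, ℤ) ⧸ Gamma0 N` with `Q N`. -/
noncomputable def cb_e (N : ℕ) : (SL(2, ℤ) ⧸ Gamma0 N) ≃ Q N :=
  Quotient.congr cb_iso.toEquiv (fun a b => by
    rw [QuotientGroup.leftRel_apply, QuotientGroup.leftRel_apply]
    exact cb_rel_iff N a b)

theorem cb_e_mk (N : ℕ) (δ : SL(2, ℤ)) :
    cb_e N (QuotientGroup.mk δ : SL(2, ℤ) ⧸ Gamma0 N) = ((toSL δ : 𝒮ℒ) : Q N) := rfl

/-- Every coset in `Q N` is of the form `cb_e N ⟦δ⟧ = ⟦toSL δ⟧`. -/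
theorem cb_exists_mk {N : ℕ} (q : Q N) :
    ∃ δ : SL(2, ℤ), q = cb_e N (QuotientGroup.mk δ : SL(2, ℤ) ⧸ Gamma0 N) := by
  obtain ⟨x, rfl⟩ := (cb_e N).surjective q
  induction x using QuotientGroup.induction_on with
  | H δ => exact ⟨δ, rfl⟩

/-- `cb_e` intertwines the action of `γ` with the action of `toSL γ`. -/
theorem cb_e_smul (N : ℕ) (γ : SL(2, ℤ)) (x : SL(2, ℤ) ⧸ Gamma0 N) :
    cb_e N (γ • x) = toSL γ • cb_e N x := by
  induction x using QuotientGroup.induction_on with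
  | H δ =>
    rw [Fermat.Agent.X0Count.smul_mk, cb_e_mk, cb_e_mk, cb_toSL_mul]
    rfl

theorem cb_perm_apply {N : ℕ} (γ : SL(2, ℤ)) (q : Q N) : perm N γ q = (toSL γ)⁻¹ • q := rfl

/-- `perm N γ` corresponds to the action of `γ⁻¹`. -/
theorem cb_perm_e (N : ℕ) (γ : SL(2, ℤ)) (x : SL(2, ℤ) ⧸ Gamma0 N) :
    perm N γ (cb_e N x) = cb_e N (γ⁻¹ • x) := by
  rw [cb_e_smul, cb_toSL_inv]
  rfl

/-- Fixed points of `γ` correspond to fixed points of `perm N γ`. -/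
theorem cb_perm_fix_iff (N : ℕ) (γ : SL(2, ℤ)) (x : SL(2, ℤ) ⧸ Gamma0 N) :
    γ • x = x ↔ perm N γ (cb_e N x) = cb_e N x := by
  rw [cb_perm_e, (cb_e N).apply_eq_iff_eq, inv_smul_eq_iff, eq_comm]

/-- Powers of `perm N γ` correspond to the action of the inverse powers of `γ`. -/
theorem cb_perm_zpow_e (N : ℕ) (γ : SL(2, ℤ)) (n : ℤ) (x : SL(2, ℤ) ⧸ Gamma0 N) :
    ((perm N γ) ^ n) (cb_e N x) = cb_e N (γ ^ (-n) • x) := by
  have h1 : (perm N γ) ^ n = MulAction.toPerm ((toSL γ)⁻¹ ^ n) := by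
    have h2 : perm N γ = MulAction.toPermHom 𝒮ℒ (Q N) (toSL γ)⁻¹ := rfl
    rw [h2, ← map_zpow]
    rfl
  rw [h1, cb_e_smul, cb_toSL_zpow, zpow_neg, inv_zpow]
  rfl

/-! ### the orbits of `T` -/

/-- The orbit relation of `⟨T⟩` on `SL(2, ℤ) ⧸ Gamma0 N` corresponds to the orbit relation of
`⟨perm N T⟩` on `Q N`. -/
theorem cb_orbit_iff (N : ℕ) (a b : SL(2, ℤ) ⧸ Gamma0 N) :
    MulAction.orbitRel (Subgroup.zpowers ModularGroup.T) (SL(2, ℤ) ⧸ Gamma0 N) a b ↔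
      MulAction.orbitRel (Subgroup.zpowers (perm N ModularGroup.T)) (Q N)
        (cb_e N a) (cb_e N b) := by
  rw [MulAction.orbitRel_apply, MulAction.orbitRel_apply, MulAction.mem_orbit_iff,
    MulAction.mem_orbit_iff]
  constructor
  · rintro ⟨⟨t, ht⟩, h⟩
    obtain ⟨n, rfl⟩ := Subgroup.mem_zpowers_iff.mp ht
    refine ⟨⟨(perm N ModularGroup.T) ^ (-n), Subgroup.zpow_mem_zpowers _ _⟩, ?_⟩
    show ((perm N ModularGroup.T) ^ (-n)) (cb_e N b) = cb_e N a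
    rw [cb_perm_zpow_e, neg_neg, ← h]
    rfl
  · rintro ⟨⟨t, ht⟩, h⟩
    obtain ⟨n, rfl⟩ := Subgroup.mem_zpowers_iff.mp ht
    refine ⟨⟨ModularGroup.T ^ (-n), Subgroup.zpow_mem_zpowers _ _⟩, ?_⟩
    show ModularGroup.T ^ (-n) • b = a
    apply (cb_e N).injective
    rw [← cb_perm_zpow_e, ← h]
    rfl

/-- The identification of the two spaces of `T`-orbits. -/
noncomputable def cb_orbitEquiv (N : ℕ) :
    MulAction.orbitRel.Quotient (Subgroup.zpowers ModularGroup.T) (SL(2, ℤ) ⧸ Gamma0 N) ≃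
      MulAction.orbitRel.Quotient (Subgroup.zpowers (perm N ModularGroup.T)) (Q N) :=
  Quotient.congr (cb_e N) (cb_orbit_iff N)

/-! ### basic properties of the permutations `perm N γ` -/

section permutations

variable {N : ℕ}

theorem cb_perm_one (q : Q N) : perm N 1 q = q := by
  rw [cb_perm_apply, cb_toSL_one, inv_one, one_smul]

theorem cb_perm_mul (γ γ' : SL(2, ℤ)) (q : Q N) :
    perm N (γ * γ') q = perm N γ' (perm N γ q) := by
  rw [cb_perm_apply, cb_perm_apply, cb_perm_apply, cb_toSL_mul, mul_inv_rev, mul_smul]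

theorem cb_perm_of_mem_normalCore (γ : SL(2, ℤ)) (h : ∀ δ : SL(2, ℤ), δ⁻¹ * γ * δ ∈ Gamma0 N)
    (q : Q N) : perm N γ q = q := by
  obtain ⟨δ, rfl⟩ := cb_exists_mk q
  rw [cb_perm_e, Fermat.Agent.X0Count.smul_mk, (cb_e N).apply_eq_iff_eq, QuotientGroup.eq]
  have h1 : (γ⁻¹ * δ)⁻¹ * δ = δ⁻¹ * γ * δ := by group
  rw [h1]
  exact h δ

theorem cb_perm_neg_one (q : Q N) : perm N (-1) q = q := by
  refine cb_perm_of_mem_normalCore (-1) (fun δ => ?_) q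
  have h1 : δ⁻¹ * (-1 : SL(2, ℤ)) * δ = -1 := by
    rw [mul_neg, mul_one, neg_mul, inv_mul_cancel]
  rw [h1, Gamma0_mem]
  simp

theorem cb_S_mul_S : ModularGroup.S * ModularGroup.S = -1 := by
  ext i j
  fin_cases i <;> fin_cases j <;> simp [ModularGroup.S]

theorem cb_ST_cube : ModularGroup.S * ModularGroup.T * (ModularGroup.S * ModularGroup.T) *
    (ModularGroup.S * ModularGroup.T) = -1 := by
  ext i j
  fin_cases i <;> fin_cases j <;> simp [ModularGroup.S, ModularGroup.T, Matrix.mul_apply,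
    Fin.sum_univ_two]

theorem cb_perm_S_perm_S (q : Q N) : perm N ModularGroup.S (perm N ModularGroup.S q) = q := by
  rw [← cb_perm_mul, cb_S_mul_S, cb_perm_neg_one]

theorem cb_perm_ST_cube (q : Q N) :
    perm N (ModularGroup.S * ModularGroup.T) (perm N (ModularGroup.S * ModularGroup.T)
      (perm N (ModularGroup.S * ModularGroup.T) q)) = q := by
  rw [← cb_perm_mul, ← cb_perm_mul, ← mul_assoc, cb_ST_cube, cb_perm_neg_one]

theorem cb_perm_T_pow (q : Q N) : ((perm N ModularGroup.T) ^ N) q = q := by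
  obtain ⟨δ, rfl⟩ := cb_exists_mk q
  rw [← zpow_natCast, cb_perm_zpow_e, Fermat.Agent.X0Count.smul_mk, (cb_e N).apply_eq_iff_eq,
    Fermat.Agent.X0Count.mk_eq_mk_iff, (Fermat.Agent.X0Count.T_zpow_mul_col (-(N : ℤ)) δ).1,
    (Fermat.Agent.X0Count.T_zpow_mul_col (-(N : ℤ)) δ).2]
  exact ⟨-(δ.1 1 0 * δ.1 1 0), by ring⟩

/-- Every coset is a translate of the trivial coset. -/
theorem cb_exists_perm_eq (q : Q N) : ∃ γ : SL(2, ℤ), q = perm N γ ((1 : 𝒮ℒ) : Q N) := by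
  obtain ⟨δ, rfl⟩ := cb_exists_mk q
  refine ⟨δ⁻¹, ?_⟩
  have h1 : ((1 : 𝒮ℒ) : Q N) = cb_e N (QuotientGroup.mk 1 : SL(2, ℤ) ⧸ Gamma0 N) := by
    rw [cb_e_mk, cb_toSL_one]
  rw [h1, cb_perm_e, inv_inv, Fermat.Agent.X0Count.smul_mk, mul_one]

end permutations

end Fermat.Agent.S20T
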