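import Mathlib
import Fermat.Agent.S20T.Defs

/-!
# S20T: the permutation action of `SL₂(ℤ)` on the cosets `Q N`
(`perm N γ q = (toSL γ)⁻¹ • q`, from S23)
-/

set_option autoImplicit false

open UpperHalfPlane ModularFormClass CongruenceSubgroup
open scoped MatrixGroups ModularForm Manifold

namespace Fermat.Agent.S20T

open Fermat.Agent.S23L.Data (Q G0 perm cj toSL fintypeQ)

variable {N : ℕ}

/-! ### Auxiliary facts on `toSL` and `perm` -/

theorem pm_toSL_one : toSL 1 = 1 := Subtype.ext (map_one _)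

theorem pm_toSL_mul (γ γ' : SL(2, ℤ)) : toSL (γ * γ') = toSL γ * toSL γ' :=
  Subtype.ext (map_mul _ _ _)

theorem pm_toSL_inv (γ : SL(2, ℤ)) : toSL γ⁻¹ = (toSL γ)⁻¹ :=
  Subtype.ext (map_inv _ _)

/-- every element of `𝒮ℒ` is of the form `toSL δ` -/
theorem pm_exists_toSL (h : 𝒮ℒ) : ∃ δ : SL(2, ℤ), toSL δ = h := by
  obtain ⟨h, δ, rfl⟩ := h
  exact ⟨δ, rfl⟩

theorem pm_toSL_injective : Function.Injective toSL := by
  intro γ γ' h
  exact Matrix.SpecialLinearGroup.mapGL_injective (congrArg Subtype.val h)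

theorem pm_toSL_mem_iff (γ : SL(2, ℤ)) : toSL γ ∈ (G0 N).subgroupOf 𝒮ℒ ↔ γ ∈ Gamma0 N := by
  rw [Subgroup.mem_subgroupOf]
  show Matrix.SpecialLinearGroup.mapGL ℝ γ ∈
    Subgroup.map (Matrix.SpecialLinearGroup.mapGL ℝ) (Gamma0 N) ↔ _
  rw [Subgroup.mem_map_iff_mem Matrix.SpecialLinearGroup.mapGL_injective]

theorem pm_perm_apply (γ : SL(2, ℤ)) (q : Q N) : perm N γ q = (toSL γ)⁻¹ • q := rfl

/-- the action of `perm` on the coset of `toSL δ` -/
theorem pm_perm_mk (γ δ : SL(2, ℤ)) :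
    perm N γ ((toSL δ : 𝒮ℒ) : Q N) = ((toSL (γ⁻¹ * δ) : 𝒮ℒ) : Q N) := by
  rw [pm_perm_apply, pm_toSL_mul, pm_toSL_inv]
  rfl

/-- equality of cosets in terms of `Γ₀(N)` -/
theorem pm_mk_eq_iff (δ δ' : SL(2, ℤ)) :
    ((toSL δ : 𝒮ℒ) : Q N) = ((toSL δ' : 𝒮ℒ) : Q N) ↔ δ⁻¹ * δ' ∈ Gamma0 N := by
  rw [QuotientGroup.eq, ← pm_toSL_inv, ← pm_toSL_mul, pm_toSL_mem_iff]

/-- every coset is the coset of some `toSL δ` -/
theorem pm_exists_mk (q : Q N) : ∃ δ : SL(2, ℤ), q = ((toSL δ : 𝒮ℒ) : Q N) := by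
  induction q using QuotientGroup.induction_on with
  | H r =>
    obtain ⟨δ, rfl⟩ := pm_exists_toSL r
    exact ⟨δ, rfl⟩

/-- `perm N γ` fixes the coset of `toSL δ` iff `δ⁻¹ γ δ ∈ Γ₀(N)` -/
theorem pm_perm_mk_eq_iff (γ δ : SL(2, ℤ)) :
    perm N γ ((toSL δ : 𝒮ℒ) : Q N) = ((toSL δ : 𝒮ℒ) : Q N) ↔ δ⁻¹ * γ * δ ∈ Gamma0 N := by
  rw [pm_perm_mk, pm_mk_eq_iff]
  have h1 : (γ⁻¹ * δ)⁻¹ * δ = δ⁻¹ * γ * δ := by group
  rw [h1]

/-! ### The interface statements -/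

theorem perm_one (q : Q N) : perm N 1 q = q := by
  rw [pm_perm_apply, pm_toSL_one, inv_one, one_smul]

theorem perm_mul (γ γ' : SL(2, ℤ)) (q : Q N) : perm N (γ * γ') q = perm N γ' (perm N γ q) := by
  rw [pm_perm_apply, pm_perm_apply, pm_perm_apply, pm_toSL_mul, mul_inv_rev, mul_smul]

theorem perm_of_mem_normalCore (γ : SL(2, ℤ)) (h : ∀ δ : SL(2, ℤ), δ⁻¹ * γ * δ ∈ Gamma0 N)
    (q : Q N) : perm N γ q = q := by
  obtain ⟨δ, rfl⟩ := pm_exists_mk q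
  exact (pm_perm_mk_eq_iff γ δ).mpr (h δ)

theorem perm_neg_one (q : Q N) : perm N (-1) q = q := by
  refine perm_of_mem_normalCore _ (fun δ => ?_) q
  have h1 : δ⁻¹ * (-1) * δ = -1 := by
    rw [mul_neg, mul_one, neg_mul, inv_mul_cancel]
  rw [h1, Gamma0_mem]
  simp

theorem pm_S_mul_S : ModularGroup.S * ModularGroup.S = -1 := by
  ext i j
  fin_cases i <;> fin_cases j <;> simp [ModularGroup.S]

theorem pm_ST_cube :
    ModularGroup.S * ModularGroup.T * (ModularGroup.S * ModularGroup.T *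
      (ModularGroup.S * ModularGroup.T)) = -1 := by
  ext i j
  fin_cases i <;> fin_cases j <;>
    simp [ModularGroup.S, ModularGroup.T, Matrix.mul_apply, Fin.sum_univ_two]

theorem perm_S_perm_S (q : Q N) : perm N ModularGroup.S (perm N ModularGroup.S q) = q := by
  rw [← perm_mul, pm_S_mul_S, perm_neg_one]

theorem perm_ST_cube (q : Q N) :
    perm N (ModularGroup.S * ModularGroup.T) (perm N (ModularGroup.S * ModularGroup.T)
      (perm N (ModularGroup.S * ModularGroup.T) q)) = q := by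
  rw [← perm_mul, ← perm_mul, pm_ST_cube, perm_neg_one]

/-- iterating `perm N γ` -/
theorem pm_perm_pow (γ : SL(2, ℤ)) (n : ℕ) (q : Q N) : ((perm N γ) ^ n) q = perm N (γ ^ n) q := by
  induction n generalizing q with
  | zero => rw [pow_zero, pow_zero, perm_one]; rfl
  | succ n ih =>
    rw [pow_succ, pow_succ', Equiv.Perm.mul_apply, ih, perm_mul]

/-- the conjugates of `T ^ N` lie in `Γ₀(N)` -/
theorem pm_conj_T_pow_mem (δ : SL(2, ℤ)) :
    δ⁻¹ * ModularGroup.T ^ N * δ ∈ Gamma0 N := by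
  have h1 : ModularGroup.T ^ N ∈ Gamma N := by
    have h2 := ModularGroup_T_pow_mem_Gamma (N : ℤ) (N : ℤ) dvd_rfl
    simpa using h2
  have h3 : δ⁻¹ * ModularGroup.T ^ N * δ ∈ Gamma N := by
    have h4 := (Gamma_normal N).conj_mem _ h1 δ⁻¹
    simpa using h4
  rw [Gamma_mem] at h3
  rw [Gamma0_mem]
  exact h3.2.2.1

theorem perm_T_pow (q : Q N) : ((perm N ModularGroup.T) ^ N) q = q := by
  rw [pm_perm_pow]
  exact perm_of_mem_normalCore _ pm_conj_T_pow_mem q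

/-- every coset is a translate of the trivial coset -/
theorem exists_perm_eq (q : Q N) : ∃ γ : SL(2, ℤ), q = perm N γ ((1 : 𝒮ℒ) : Q N) := by
  obtain ⟨δ, rfl⟩ := pm_exists_mk q
  refine ⟨δ⁻¹, ?_⟩
  have h1 : ((1 : 𝒮ℒ) : Q N) = ((toSL 1 : 𝒮ℒ) : Q N) := by rw [pm_toSL_one]
  rw [h1, pm_perm_mk, inv_inv, mul_one]

end Fermat.Agent.S20T
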