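import Mathlib
import Fermat.Agent.S20T.Defs
import Fermat.Agent.S20T.Perm
import Fermat.Agent.S20T.CountBridgeAux
import Fermat.Agent.X0Count.Fixed
import Fermat.Agent.X0Count.Index
import Fermat.Agent.X0Count.Cusps

/-!
# S20T: transfer of the counting package to the coset space `Q N` of S23

The counting results of package `X0Count` are stated for the coset space `SL(2, ℤ) ⧸ Gamma0 N`
with the left action of `SL(2, ℤ)`.  Here they are transported to the coset space
`Q N = 𝒮ℒ ⧸ (G0 N).subgroupOf 𝒮ℒ` of S23 along the equivalence `cb_e N`, `⟦δ⟧ ↦ ⟦toSL δ⟧`,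
of `CountBridgeAux`, which satisfies `perm N γ (cb_e N x) = cb_e N (γ⁻¹ • x)`.
-/

set_option autoImplicit false

open UpperHalfPlane ModularFormClass CongruenceSubgroup
open scoped MatrixGroups ModularForm Manifold

namespace Fermat.Agent.S20T

open Fermat.Agent.S23L.Data (Q G0 perm cj toSL fintypeQ)

variable (N : ℕ) [NeZero N]

theorem card_Q : Nat.card (Q N) = ModularCurve.dedekindPsi N := by
  rw [← Fermat.Agent.X0Count.card_quotient_Gamma0 N]
  exact Nat.card_congr (cb_e N).symm

theorem card_fix_S :
    Nat.card {q : Q N // perm N ModularGroup.S q = q} = ModularCurve.nuTwo N := by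
  rw [← Fermat.Agent.X0Count.card_fixed_S N]
  exact (Nat.card_congr ((cb_e N).subtypeEquiv (cb_perm_fix_iff N ModularGroup.S))).symm

theorem card_fix_ST :
    Nat.card {q : Q N // perm N (ModularGroup.S * ModularGroup.T) q = q}
      = ModularCurve.nuThree N := by
  rw [← Fermat.Agent.X0Count.card_fixed_ST N]
  exact (Nat.card_congr ((cb_e N).subtypeEquiv
    (cb_perm_fix_iff N (ModularGroup.S * ModularGroup.T)))).symm

theorem card_orbits_T :
    Nat.card (MulAction.orbitRel.Quotient (Subgroup.zpowers (perm N ModularGroup.T)) (Q N))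
      = ModularCurve.cuspCount N := by
  rw [← Fermat.Agent.X0Count.card_orbits_T N]
  exact (Nat.card_congr (cb_orbitEquiv N)).symm

end Fermat.Agent.S20T
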