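import Mathlib
import Fermat.Agent.S20T.Basic
import Fermat.Agent.S20T.Wronskian

/-!
# S20T: division lemmas for forms on `Γ₀(N)`
-/

set_option autoImplicit false

open UpperHalfPlane ModularFormClass CongruenceSubgroup
open scoped MatrixGroups ModularForm Manifold

namespace Fermat.Agent.S20T

variable {N : ℕ} {k w : ℤ} {F c : ℍ → ℂ}

/-- cancellation of a nonzero holomorphic factor -/
theorem mul_left_cancel_fun {c F G : ℍ → ℂ} (hc : MDiff c) (hF : MDiff F) (hG : MDiff G)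
    (hc0 : c ≠ 0) (h : c * F = c * G) : F = G := by
  have h1 : c * (F - G) = 0 := by rw [mul_sub, h, sub_self]
  rcases eq_zero_or_eq_zero_of_mul hc (hF.sub hG) h1 with h2 | h2
  · exact absurd h2 hc0
  · exact sub_eq_zero.mp h2

/-- values of `F ∘ ofComplex` at points of `ℍ` -/
theorem dv_comp_ofComplex (F : ℍ → ℂ) (τ : ℍ) : (F ∘ ofComplex) (τ : ℂ) = F τ := by
  rw [Function.comp_apply, ofComplex_apply]

/-- holomorphic functions on `ℍ` are analytic, as functions on an open subset of `ℂ` -/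
theorem dv_analyticAt (hF : MDiff F) (τ : ℍ) : AnalyticAt ℂ (F ∘ ofComplex) (τ : ℂ) :=
  (UpperHalfPlane.mdifferentiable_iff.mp hF).analyticOnNhd isOpen_upperHalfPlaneSet _ τ.im_pos

theorem dv_order_aux (a b : ℕ∞) (h1 : a ≤ b) (h2 : (a.map (Nat.cast : ℕ → ℤ)) ≠ ⊤) :
    (0 : WithTop ℤ) ≤ b.map (Nat.cast : ℕ → ℤ) - a.map (Nat.cast : ℕ → ℤ) := by
  cases a with
  | top => simp at h2
  | coe n =>
    cases b with
    | top => simp
    | coe m =>
      have : n ≤ m := by exact_mod_cast h1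
      simp only [ENat.map_natCast]
      have h3 : (0 : ℤ) ≤ (m : ℤ) - n := by omega
      exact_mod_cast h3

/-- Division of holomorphic functions on `ℍ`: if the order of vanishing of `F` is at least that
of `c` at every point (and `c ≠ 0`), then `F = c * G` with `G` holomorphic. -/
theorem dv_exists_quot (hF : MDiff F) (hc : MDiff c) (hc0 : c ≠ 0)
    (hord : ∀ z : ℍ, analyticOrderAt (c ∘ ofComplex) (z : ℂ) ≤
      analyticOrderAt (F ∘ ofComplex) (z : ℂ)) :
    ∃ G : ℍ → ℂ, MDiff G ∧ F = c * G := by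
  set U : Set ℂ := {z : ℂ | 0 < z.im} with hU
  have hUo : IsOpen U := isOpen_upperHalfPlaneSet
  have hUc : IsPreconnected U :=
    (Complex.isConnected_of_upperHalfPlane subset_rfl (by grind)).isPreconnected
  have hHa : AnalyticOnNhd ℂ (F ∘ ofComplex) U :=
    (UpperHalfPlane.mdifferentiable_iff.mp hF).analyticOnNhd hUo
  have hΨa : AnalyticOnNhd ℂ (c ∘ ofComplex) U :=
    (UpperHalfPlane.mdifferentiable_iff.mp hc).analyticOnNhd hUo
  set h : ℂ → ℂ := F ∘ ofComplex with hh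
  set ψ : ℂ → ℂ := c ∘ ofComplex with hψ
  -- the order of `ψ` is nowhere `⊤`
  obtain ⟨τ₀, hτ₀⟩ : ∃ τ₀, c τ₀ ≠ 0 := by
    by_contra hcon
    exact hc0 (funext fun τ => not_not.1 fun hτ => hcon ⟨τ, hτ⟩)
  have hψM : MeromorphicOn ψ U := fun z hz => (hΨa z hz).meromorphicAt
  have hord₀ : meromorphicOrderAt ψ (τ₀ : ℂ) ≠ ⊤ := by
    rw [meromorphicOrderAt_ne_top_iff_eventually_ne_zero (hψM _ τ₀.im_pos)]
    have hc : ContinuousAt ψ (τ₀ : ℂ) := (hΨa _ τ₀.im_pos).continuousAt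
    have : ∀ᶠ w in nhds (τ₀ : ℂ), ψ w ≠ 0 :=
      hc.eventually_ne (by rw [hψ, dv_comp_ofComplex]; exact hτ₀)
    exact this.filter_mono nhdsWithin_le_nhds
  have hordψ : ∀ z ∈ U, meromorphicOrderAt ψ z ≠ ⊤ := fun z hz =>
    hψM.meromorphicOrderAt_ne_top_of_isPreconnected hUc τ₀.im_pos hz hord₀
  -- the quotient
  set q : ℂ → ℂ := h / ψ with hq
  have hqM : MeromorphicOn q U := fun z hz =>
    (hHa z hz).meromorphicAt.div (hΨa z hz).meromorphicAt
  have hqord : ∀ z ∈ U, 0 ≤ meromorphicOrderAt q z := by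
    intro z hz
    have h1 := hord ⟨z, hz⟩
    have h2 := hordψ z hz
    rw [hq, meromorphicOrderAt_div (hHa z hz).meromorphicAt (hΨa z hz).meromorphicAt]
    rw [(hΨa z hz).meromorphicOrderAt_eq] at h2 ⊢
    rw [(hHa z hz).meromorphicOrderAt_eq]
    change analyticOrderAt ψ z ≤ analyticOrderAt h z at h1
    exact dv_order_aux _ _ h1 h2
  -- the normal form
  set G : ℂ → ℂ := toMeromorphicNFOn q U with hG
  have hGa : ∀ z ∈ U, AnalyticAt ℂ G z := by
    intro z hz
    have hNF : MeromorphicNFAt G z := meromorphicNFOn_toMeromorphicNFOn q U hz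
    rw [← hNF.meromorphicOrderAt_nonneg_iff_analyticAt, hG,
      meromorphicOrderAt_toMeromorphicNFOn hqM hz]
    exact hqord z hz
  refine ⟨fun τ => G τ, ?_, ?_⟩
  · rw [UpperHalfPlane.mdifferentiable_iff]
    have hGd : DifferentiableOn ℂ G U := fun z hz => (hGa z hz).differentiableAt.differentiableWithinAt
    refine hGd.congr fun z hz => ?_
    change 0 < z.im at hz
    simp [Function.comp_apply, ofComplex_apply_of_im_pos hz]
  · funext τ
    simp only [Pi.mul_apply]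
    have hz : (τ : ℂ) ∈ U := τ.im_pos
    by_cases hτ : c τ = 0
    · have h1 := hord τ
      have h2 : analyticOrderAt ψ (τ : ℂ) ≠ 0 := by
        rw [(hΨa _ hz).analyticOrderAt_ne_zero, hψ, dv_comp_ofComplex]
        exact hτ
      have h3 : analyticOrderAt h (τ : ℂ) ≠ 0 := by
        intro h0
        rw [h0] at h1
        exact h2 (le_antisymm h1 zero_le)
      rw [(hHa _ hz).analyticOrderAt_ne_zero, hh, dv_comp_ofComplex] at h3
      rw [h3, hτ, zero_mul]
    · have hψτ : ψ τ ≠ 0 := by rw [hψ, dv_comp_ofComplex]; exact hτ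
      have hqa : AnalyticAt ℂ q τ := (hHa _ hz).div (hΨa _ hz) hψτ
      have hGτ : G τ = q τ := by
        rw [hG, toMeromorphicNFOn_eq_toMeromorphicNFAt hqM hz,
          toMeromorphicNFAt_eq_self.2 hqa.meromorphicNFAt]
      rw [hGτ, hq, Pi.div_apply, hh, hψ, dv_comp_ofComplex, dv_comp_ofComplex]
      field_simp

/-- a function bounded below near `i∞` is not the zero function -/
theorem dv_ne_zero (hcb : ∃ ε : ℝ, 0 < ε ∧ ∀ᶠ z in atImInfty, ε ≤ ‖c z‖) : c ≠ 0 := by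
  obtain ⟨ε, hε, hev⟩ := hcb
  intro h0
  obtain ⟨z, hz⟩ := hev.exists
  rw [h0] at hz
  simp at hz
  linarith

/-- If `F = c * G` with `F ∈ R N k`, `c ∈ A w` bounded below near `i∞` and `G` holomorphic,
then `G ∈ R N (k - w)`. -/
theorem dv_mem_R_of_mul [NeZero N] {G : ℍ → ℂ} (hc : c ∈ A w)
    (hcb : ∃ ε : ℝ, 0 < ε ∧ ∀ᶠ z in atImInfty, ε ≤ ‖c z‖) (hF : F ∈ R N k) (hG : MDiff G)
    (h : F = c * G) : G ∈ R N (k - w) := by
  have hcm : MDiff c := mdiff_of_mem_A hc
  have hc0 : c ≠ 0 := dv_ne_zero hcb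
  obtain ⟨ε, hε, hev⟩ := hcb
  have key : ∀ γ : SL(2, ℤ), F ∣[k] γ = c * (G ∣[k - w] γ) := by
    intro γ
    have h1 : (c * G) ∣[w + (k - w)] γ = c ∣[w] γ * G ∣[k - w] γ :=
      ModularForm.mul_slash_SL2 _ _ _ _ _
    rw [slash_of_mem_A hc, add_sub_cancel] at h1
    rw [h]
    exact h1
  refine mem_R_of_invariant hG ?_ ?_
  · intro γ hγ
    have h1 := key γ
    rw [slash_of_mem_R hF γ hγ, h] at h1
    exact (mul_left_cancel_fun hcm hG (hG.slash _ _) hc0 h1).symm
  · intro γ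
    have h1 := key γ
    have hb := bdd_slash_of_mem_R hF γ
    rw [isBoundedAtImInfty_iff] at hb ⊢
    obtain ⟨M, A₁, hM⟩ := hb
    obtain ⟨A₂, hA₂⟩ := (atImInfty_mem _).mp hev
    refine ⟨M / ε, max A₁ A₂, fun z hz => ?_⟩
    have h2 := hM z (le_trans (le_max_left _ _) hz)
    have h3 : ε ≤ ‖c z‖ := hA₂ z (le_trans (le_max_right _ _) hz)
    have h4 : (F ∣[k] γ) z = c z * (G ∣[k - w] γ) z := congrFun h1 z
    rw [h4, norm_mul] at h2
    rw [le_div_iff₀ hε]
    calc ‖(G ∣[k - w] γ) z‖ * ε ≤ ‖(G ∣[k - w] γ) z‖ * ‖c z‖ := by gcongr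
      _ = ‖c z‖ * ‖(G ∣[k - w] γ) z‖ := mul_comm _ _
      _ ≤ M := h2

/-- Division by a prime-like level-one form: if `F ∈ R N k` vanishes at all zeros of `c`
(which are simple), then `F = c * F'` with `F' ∈ R N (k - w)`. -/
theorem div_simple [NeZero N] (hc : c ∈ A w) (hp : IsPrimeLike c) (hF : F ∈ R N k)
    (hv : ∀ z : ℍ, c z = 0 → F z = 0) : ∃ F' ∈ R N (k - w), F = c * F' := by
  have hcm : MDiff c := mdiff_of_mem_A hc
  have hFm : MDiff F := mdiff_of_mem_R hF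
  have hc0 : c ≠ 0 := dv_ne_zero hp.1
  obtain ⟨G, hG, hFG⟩ := dv_exists_quot hFm hcm hc0 (by
    intro z
    by_cases hz : c z = 0
    · have h1 : analyticOrderAt (c ∘ ofComplex) (z : ℂ) = 1 :=
        (dv_analyticAt hcm z).analyticOrderAt_eq_one_of_zero_deriv_ne_zero
          (by rw [dv_comp_ofComplex]; exact hz) (hp.2 z hz)
      have h2 : analyticOrderAt (F ∘ ofComplex) (z : ℂ) ≠ 0 := by
        rw [(dv_analyticAt hFm z).analyticOrderAt_ne_zero, dv_comp_ofComplex]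
        exact hv z hz
      rw [h1]
      exact Order.one_le_iff_ne_zero.mpr h2
    · have h1 : analyticOrderAt (c ∘ ofComplex) (z : ℂ) = 0 := by
        rw [(dv_analyticAt hcm z).analyticOrderAt_eq_zero, dv_comp_ofComplex]
        exact hz
      rw [h1]
      exact zero_le)
  exact ⟨G, dv_mem_R_of_mul hc hp.1 hF hG hFG, hFG⟩

/-- `E₄, E₆` is a regular sequence on `R N`: a relation `E₄ F₁ + E₆ F₂ = 0` is trivial. -/
theorem div_coprime [NeZero N] {F₁ F₂ : ℍ → ℂ} (hF₁ : F₁ ∈ R N (k - 4)) (hF₂ : F₂ ∈ R N (k - 6))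
    (h : E4 * F₁ + E6 * F₂ = 0) : ∃ H ∈ R N (k - 10), F₁ = E6 * H ∧ F₂ = -(E4 * H) := by
  have h4m : MDiff E4 := mdiff_of_mem_A E4_mem_A
  have h6m : MDiff E6 := mdiff_of_mem_A E6_mem_A
  have hF₁m : MDiff F₁ := mdiff_of_mem_R hF₁
  have hF₂m : MDiff F₂ := mdiff_of_mem_R hF₂
  have h6b : ∃ ε : ℝ, 0 < ε ∧ ∀ᶠ z in atImInfty, ε ≤ ‖E6 z‖ := by
    refine ⟨1 / 2, by norm_num, ?_⟩
    have h0 := tendsto_E6_atImInfty.norm
    have h1 : (1 / 2 : ℝ) < ‖(1 : ℂ)‖ := by norm_num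
    filter_upwards [h0.eventually (lt_mem_nhds h1)] with z hz using hz.le
  have h60 : E6 ≠ 0 := dv_ne_zero h6b
  obtain ⟨H, hH, hFH⟩ := dv_exists_quot hF₁m h6m h60 (by
    intro z
    by_cases hz : E6 z = 0
    · have hz4 : E4 z ≠ 0 := (E4_ne_zero_or_E6_ne_zero z).resolve_right (not_not.mpr hz)
      have e1 : (E4 ∘ ofComplex) * (F₁ ∘ ofComplex) =
          (E6 ∘ ofComplex) * (-(F₂ ∘ ofComplex)) := by
        funext x
        have h0 := congrFun h (ofComplex x)
        simp only [Pi.add_apply, Pi.mul_apply, Pi.zero_apply] at h0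
        simp only [Pi.mul_apply, Function.comp_apply, Pi.neg_apply]
        linear_combination h0
      have e2 : analyticOrderAt ((E4 ∘ ofComplex) * (F₁ ∘ ofComplex)) (z : ℂ) =
          analyticOrderAt ((E6 ∘ ofComplex) * (-(F₂ ∘ ofComplex))) (z : ℂ) := by rw [e1]
      rw [analyticOrderAt_mul (dv_analyticAt h4m z) (dv_analyticAt hF₁m z),
        analyticOrderAt_mul (dv_analyticAt h6m z) (dv_analyticAt hF₂m z).neg] at e2
      have e3 : analyticOrderAt (E4 ∘ ofComplex) (z : ℂ) = 0 := by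
        rw [(dv_analyticAt h4m z).analyticOrderAt_eq_zero, dv_comp_ofComplex]
        exact hz4
      rw [e3, zero_add] at e2
      rw [e2]
      exact le_self_add
    · have h1 : analyticOrderAt (E6 ∘ ofComplex) (z : ℂ) = 0 := by
        rw [(dv_analyticAt h6m z).analyticOrderAt_eq_zero, dv_comp_ofComplex]
        exact hz
      rw [h1]
      exact zero_le)
  have hHR : H ∈ R N (k - 4 - 6) := dv_mem_R_of_mul E6_mem_A h6b hF₁ hH hFH
  refine ⟨H, R_cast (by ring) hHR, hFH, ?_⟩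
  have e : E6 * F₂ = E6 * (-(E4 * H)) := by
    rw [hFH] at h
    have h0 : E6 * F₂ = -(E4 * (E6 * H)) := eq_neg_of_add_eq_zero_right h
    rw [h0]
    ring
  exact mul_left_cancel_fun h6m hF₂m (h4m.mul hH).neg h60 e

end Fermat.Agent.S20T
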