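import Mathlib
import Fermat.Agent.S20T.Basic
import Fermat.Agent.S20T.Dim
import Fermat.Agent.S20T.LevelOne
import Fermat.Agent.S20T.Division
import Fermat.Prelude.Thm_ModularForm_sturm_bound_Gamma0
import Fermat.Prelude.Thm_CongruenceSubgroup_one_mem_strictPeriods_Gamma0

/-!
# S20T: construction of a homogeneous family of generators of `⊕ R N k` over `⊕ A k`

For each weight `k` we choose a complement `fr_W N k` of
`fr_U N k = E4 * R N (k - 4) + E6 * R N (k - 6)` in `R N k` and a basis of it.  The union of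
these bases (indexed by `fr_J N`) generates `⊕ R N k` freely over `⊕ A k`.
-/

set_option autoImplicit false

open UpperHalfPlane ModularFormClass CongruenceSubgroup
open scoped MatrixGroups ModularForm Manifold

namespace Fermat.Agent.S20T

variable {N : ℕ}

/-- strong induction on integers, with a trivial case for negative integers -/
theorem fr_int_strong {P : ℤ → Prop} (h0 : ∀ k, k < 0 → P k)
    (h : ∀ k, 0 ≤ k → (∀ j, j < k → P j) → P k) : ∀ k, P k := by
  have key : ∀ n : ℕ, ∀ k : ℤ, k < n → P k := by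
    intro n
    induction n with
    | zero => intro k hk; exact h0 k (by simpa using hk)
    | succ n ih =>
      intro k hk
      by_cases hk0 : k < 0
      · exact h0 k hk0
      · exact h k (by omega) (fun j hj => ih j (by push_cast at hk; omega))
  intro k
  exact key (k.toNat + 1) k (by push_cast; omega)

/-- the submodule `E4 * R N (k - 4) + E6 * R N (k - 6)` -/
noncomputable def fr_U (N : ℕ) (k : ℤ) : Submodule ℂ (ℍ → ℂ) :=
  (R N (k - 4)).map (LinearMap.mulLeft ℂ E4) ⊔ (R N (k - 6)).map (LinearMap.mulLeft ℂ E6)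

theorem fr_mem_U {k : ℤ} {F : ℍ → ℂ} :
    F ∈ fr_U N k ↔ ∃ F₁ ∈ R N (k - 4), ∃ F₂ ∈ R N (k - 6), F = E4 * F₁ + E6 * F₂ := by
  unfold fr_U
  rw [Submodule.mem_sup]
  constructor
  · rintro ⟨y, hy, z, hz, rfl⟩
    obtain ⟨F₁, hF₁, rfl⟩ := Submodule.mem_map.mp hy
    obtain ⟨F₂, hF₂, rfl⟩ := Submodule.mem_map.mp hz
    exact ⟨F₁, hF₁, F₂, hF₂, rfl⟩
  · rintro ⟨F₁, hF₁, F₂, hF₂, rfl⟩
    exact ⟨E4 * F₁, Submodule.mem_map.mpr ⟨F₁, hF₁, rfl⟩, E6 * F₂,
      Submodule.mem_map.mpr ⟨F₂, hF₂, rfl⟩, rfl⟩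

theorem fr_U_le (N : ℕ) (k : ℤ) : fr_U N k ≤ R N k := by
  intro F hF
  obtain ⟨F₁, hF₁, F₂, hF₂, rfl⟩ := fr_mem_U.mp hF
  refine Submodule.add_mem _ ?_ ?_
  · exact R_cast (by ring) (R_mul (A_le_R N 4 E4_mem_A) hF₁)
  · exact R_cast (by ring) (R_mul (A_le_R N 6 E6_mem_A) hF₂)

theorem fr_exists_compl (N : ℕ) (k : ℤ) :
    ∃ W : Submodule ℂ (ℍ → ℂ), W ≤ R N k ∧ W ⊓ fr_U N k = ⊥ ∧ R N k ≤ W ⊔ fr_U N k := by
  obtain ⟨C, hC⟩ := Submodule.exists_isCompl (fr_U N k)
  refine ⟨C ⊓ R N k, inf_le_right, ?_, ?_⟩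
  · have h1 : C ⊓ R N k ⊓ fr_U N k ≤ fr_U N k ⊓ C := by
      refine le_inf inf_le_right ?_
      exact inf_le_left.trans inf_le_left
    exact le_bot_iff.mp (h1.trans (le_of_eq hC.inf_eq_bot))
  · have h2 : (fr_U N k ⊔ C) ⊓ R N k = fr_U N k ⊔ C ⊓ R N k := sup_inf_assoc_of_le C (fr_U_le N k)
    rw [hC.sup_eq_top, top_inf_eq] at h2
    exact le_of_eq (h2.trans (sup_comm _ _))

/-- a complement of `fr_U N k` in `R N k` -/
noncomputable def fr_W (N : ℕ) (k : ℤ) : Submodule ℂ (ℍ → ℂ) :=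
  Classical.choose (fr_exists_compl N k)

theorem fr_W_le (N : ℕ) (k : ℤ) : fr_W N k ≤ R N k :=
  (Classical.choose_spec (fr_exists_compl N k)).1

theorem fr_W_inf (N : ℕ) (k : ℤ) : fr_W N k ⊓ fr_U N k = ⊥ :=
  (Classical.choose_spec (fr_exists_compl N k)).2.1

theorem fr_le_W_sup (N : ℕ) (k : ℤ) : R N k ≤ fr_W N k ⊔ fr_U N k :=
  (Classical.choose_spec (fr_exists_compl N k)).2.2

instance fr_finiteDimensional_W (N : ℕ) [NeZero N] (k : ℤ) : FiniteDimensional ℂ (fr_W N k) :=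
  Submodule.finiteDimensional_of_le (fr_W_le N k)

/-- the number of generators of weight `k` -/
noncomputable def fr_n (N : ℕ) (k : ℤ) : ℕ := Module.finrank ℂ (fr_W N k)

/-- the index type of the generators -/
abbrev fr_J (N : ℕ) : Type := Σ k : ℤ, Fin (fr_n N k)

/-- the generators -/
noncomputable def fr_g (N : ℕ) [NeZero N] (i : fr_J N) : ℍ → ℂ :=
  ((Module.finBasis ℂ (fr_W N i.1) i.2 : fr_W N i.1) : ℍ → ℂ)

theorem fr_g_mem_W [NeZero N] (i : fr_J N) : fr_g N i ∈ fr_W N i.1 :=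
  (Module.finBasis ℂ (fr_W N i.1) i.2).2

theorem fr_g_mem [NeZero N] (i : fr_J N) : fr_g N i ∈ R N i.1 :=
  fr_W_le N i.1 (fr_g_mem_W i)

theorem fr_W_repr [NeZero N] {k : ℤ} {w : ℍ → ℂ} (hw : w ∈ fr_W N k) :
    ∃ c : Fin (fr_n N k) → ℂ, w = ∑ l, c l • fr_g N ⟨k, l⟩ := by
  refine ⟨fun l => (Module.finBasis ℂ (fr_W N k)).repr ⟨w, hw⟩ l, ?_⟩
  have h := (Module.finBasis ℂ (fr_W N k)).sum_repr ⟨w, hw⟩
  have h2 := congrArg (Subtype.val) h
  simp only [Submodule.coe_sum, Submodule.coe_smul] at h2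
  exact h2.symm

theorem fr_W_indep [NeZero N] {k : ℤ} (c : Fin (fr_n N k) → ℂ)
    (h : ∑ l, c l • fr_g N ⟨k, l⟩ ∈ fr_U N k) : ∀ l, c l = 0 := by
  have hW : ∑ l, c l • fr_g N ⟨k, l⟩ ∈ fr_W N k :=
    Submodule.sum_mem _ fun l _ => Submodule.smul_mem _ _ (fr_g_mem_W ⟨k, l⟩)
  have h0 : ∑ l, c l • fr_g N ⟨k, l⟩ ∈ (⊥ : Submodule ℂ (ℍ → ℂ)) := by
    rw [← fr_W_inf N k]
    exact ⟨hW, h⟩
  rw [Submodule.mem_bot] at h0
  have h1 : ∑ l, c l • Module.finBasis ℂ (fr_W N k) l = 0 := by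
    apply Subtype.ext
    simp only [Submodule.coe_sum, Submodule.coe_smul, Submodule.coe_zero]
    exact h0
  exact Fintype.linearIndependent_iff.mp (Module.finBasis ℂ (fr_W N k)).linearIndependent c h1

theorem fr_d_nonneg [NeZero N] (i : fr_J N) : 0 ≤ i.1 := by
  by_contra hneg
  have h1 : fr_W N i.1 = ⊥ := by
    have := fr_W_le N i.1
    rw [R_eq_bot_of_neg (by omega)] at this
    exact le_bot_iff.mp this
  have h2 : fr_n N i.1 = 0 := by
    unfold fr_n
    rw [h1]
    exact finrank_bot ℂ (ℍ → ℂ)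
  have := i.2.2
  omega

theorem fr_d_even [NeZero N] (i : fr_J N) : Even i.1 := by
  by_contra hodd
  have h1 : fr_W N i.1 = ⊥ := by
    have := fr_W_le N i.1
    rw [R_eq_bot_of_odd (Int.not_even_iff_odd.mp hodd)] at this
    exact le_bot_iff.mp this
  have h2 : fr_n N i.1 = 0 := by
    unfold fr_n
    rw [h1]
    exact finrank_bot ℂ (ℍ → ℂ)
  have := i.2.2
  omega

/-- linear combinations of the generators with function coefficients -/
noncomputable def fr_lc (N : ℕ) [NeZero N] : (fr_J N →₀ (ℍ → ℂ)) →ₗ[ℍ → ℂ] (ℍ → ℂ) :=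
  Finsupp.linearCombination (ℍ → ℂ) (fr_g N)

theorem fr_lc_apply [NeZero N] (a : fr_J N →₀ (ℍ → ℂ)) :
    fr_lc N a = ∑ i ∈ a.support, a i * fr_g N i := by
  simp [fr_lc, Finsupp.linearCombination_apply, Finsupp.sum]

theorem fr_lc_single [NeZero N] (i : fr_J N) (f : ℍ → ℂ) :
    fr_lc N (Finsupp.single i f) = f * fr_g N i := by
  unfold fr_lc
  rw [Finsupp.linearCombination_single, smul_eq_mul]

theorem fr_lc_mem [NeZero N] {k : ℤ} {a : fr_J N →₀ (ℍ → ℂ)} (ha : ∀ i, a i ∈ A (k - i.1)) :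
    fr_lc N a ∈ R N k := by
  rw [fr_lc_apply]
  exact Submodule.sum_mem _ fun i _ =>
    R_cast (by ring) (R_mul (A_le_R N _ (ha i)) (fr_g_mem i))

/-- SPAN: the generators generate `⊕ R N k` over `⊕ A k`. -/
theorem fr_span (N : ℕ) [NeZero N] : ∀ (k : ℤ) (F : ℍ → ℂ), F ∈ R N k →
    ∃ a : fr_J N →₀ (ℍ → ℂ), (∀ i, a i ∈ A (k - i.1)) ∧ F = fr_lc N a := by
  refine fr_int_strong ?_ ?_
  · intro k hk F hF
    rw [R_eq_bot_of_neg hk, Submodule.mem_bot] at hF
    exact ⟨0, fun i => by simp, by simp [hF]⟩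
  · intro k hk ih F hF
    obtain ⟨w, hw, u, hu, rfl⟩ := Submodule.mem_sup.mp (fr_le_W_sup N k hF)
    obtain ⟨F₁, hF₁, F₂, hF₂, rfl⟩ := fr_mem_U.mp hu
    obtain ⟨c, rfl⟩ := fr_W_repr hw
    obtain ⟨a₁, ha₁, rfl⟩ := ih (k - 4) (by omega) F₁ hF₁
    obtain ⟨a₂, ha₂, rfl⟩ := ih (k - 6) (by omega) F₂ hF₂
    refine ⟨∑ l, Finsupp.single (⟨k, l⟩ : fr_J N) (Function.const ℍ (c l)) + E4 • a₁ + E6 • a₂,
      ?_, ?_⟩
    · intro i
      simp only [Finsupp.add_apply, Finsupp.smul_apply, Finsupp.finsetSum_apply, smul_eq_mul]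
      refine Submodule.add_mem _ (Submodule.add_mem _ (Submodule.sum_mem _ fun l _ => ?_) ?_) ?_
      · classical
        rw [Finsupp.single_apply]
        split_ifs with h
        · subst h
          exact A_cast (by simp) (const_mem_A (c l))
        · exact Submodule.zero_mem _
      · exact A_cast (by ring) (A_mul E4_mem_A (ha₁ i))
      · exact A_cast (by ring) (A_mul E6_mem_A (ha₂ i))
    · have hw' : ∀ l, fr_lc N (Finsupp.single (⟨k, l⟩ : fr_J N) (Function.const ℍ (c l))) =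
          c l • fr_g N ⟨k, l⟩ := by
        intro l
        rw [fr_lc_single]
        ext z
        simp
      simp only [map_add, map_sum, map_smul, smul_eq_mul, hw', add_assoc]

theorem fr_decomp {n : ℤ} {F : ℍ → ℂ} (hF : F ∈ A n) :
    ∃ c : ℂ, ∃ F₁ ∈ A (n - 4), ∃ F₂ ∈ A (n - 6),
      F = Function.const ℍ c + E4 * F₁ + E6 * F₂ ∧ (c ≠ 0 → n = 0) := by
  rcases lt_trichotomy n 0 with hn | hn | hn
  · rw [A_eq_bot_of_neg hn, Submodule.mem_bot] at hF
    refine ⟨0, 0, Submodule.zero_mem _, 0, Submodule.zero_mem _, ?_, fun h => absurd rfl h⟩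
    subst hF
    ext z
    simp
  · subst hn
    obtain ⟨c, rfl⟩ := mem_R_zero (N := 1) (A_le_R 1 0 hF)
    exact ⟨c, 0, Submodule.zero_mem _, 0, Submodule.zero_mem _, by simp, fun _ => rfl⟩
  · obtain ⟨F₁, hF₁, F₂, hF₂, rfl⟩ := A_decomp hn hF
    exact ⟨0, F₁, hF₁, F₂, hF₂, by ext z; simp, fun h => absurd rfl h⟩

/-- INDEPENDENCE: the generators are independent over `⊕ A k`. -/
theorem fr_indep (N : ℕ) [NeZero N] : ∀ (k : ℤ) (a : fr_J N →₀ (ℍ → ℂ)),
    (∀ i, a i ∈ A (k - i.1)) → fr_lc N a = 0 → a = 0 := by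
  refine fr_int_strong ?_ ?_
  · intro k hk a ha _
    ext1 i
    have h := ha i
    rw [A_eq_bot_of_neg (by have := fr_d_nonneg i; omega), Submodule.mem_bot] at h
    rw [h]
    rfl
  · intro k hk ih a ha h0
    have hdec : ∀ i : fr_J N, ∃ p : ℂ × (ℍ → ℂ) × (ℍ → ℂ),
        p.2.1 ∈ A (k - 4 - i.1) ∧ p.2.2 ∈ A (k - 6 - i.1) ∧
        a i = Function.const ℍ p.1 + E4 * p.2.1 + E6 * p.2.2 ∧ (p.1 ≠ 0 → i.1 = k) ∧
        (a i = 0 → p = 0) := by
      intro i
      by_cases hai : a i = 0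
      · refine ⟨0, Submodule.zero_mem _, Submodule.zero_mem _, ?_, fun h => absurd rfl h,
          fun _ => rfl⟩
        rw [hai]
        ext z
        simp
      · obtain ⟨c, F₁, hF₁, F₂, hF₂, h1, h2⟩ := fr_decomp (ha i)
        exact ⟨(c, F₁, F₂), A_cast (by ring) hF₁, A_cast (by ring) hF₂, h1,
          fun h => by have := h2 h; omega, fun h => absurd h hai⟩
    choose p hp1 hp2 hp3 hp4 hp5 using hdec
    let a' : fr_J N →₀ (ℍ → ℂ) := Finsupp.onFinset a.support (fun i => (p i).2.1)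
      (fun i hi => by
        rw [Finsupp.mem_support_iff]
        intro h
        exact hi (by rw [hp5 i h]; rfl))
    let a'' : fr_J N →₀ (ℍ → ℂ) := Finsupp.onFinset a.support (fun i => (p i).2.2)
      (fun i hi => by
        rw [Finsupp.mem_support_iff]
        intro h
        exact hi (by rw [hp5 i h]; rfl))
    let c₀ : fr_J N →₀ (ℍ → ℂ) := Finsupp.onFinset a.support (fun i => Function.const ℍ (p i).1)
      (fun i hi => by
        rw [Finsupp.mem_support_iff]
        intro h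
        exact hi (by rw [hp5 i h]; rfl))
    have ha_eq : a = c₀ + E4 • a' + E6 • a'' := by
      ext1 i
      simp only [c₀, a', a'', Finsupp.add_apply, Finsupp.smul_apply, Finsupp.onFinset_apply,
        smul_eq_mul]
      exact hp3 i
    have ha' : ∀ i, a' i ∈ A (k - 4 - i.1) := fun i => hp1 i
    have ha'' : ∀ i, a'' i ∈ A (k - 6 - i.1) := fun i => hp2 i
    have hx : fr_lc N a' ∈ R N (k - 4) := fr_lc_mem ha'
    have hy : fr_lc N a'' ∈ R N (k - 6) := fr_lc_mem ha''
    have hsum : fr_lc N c₀ + E4 * fr_lc N a' + E6 * fr_lc N a'' = 0 := by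
      rw [← h0, ha_eq]
      simp only [map_add, map_smul, smul_eq_mul]
    have hc₀ : fr_lc N c₀ = ∑ l : Fin (fr_n N k), (p ⟨k, l⟩).1 • fr_g N ⟨k, l⟩ := by
      unfold fr_lc
      rw [Finsupp.linearCombination_onFinset]
      have hm : ∑ l : Fin (fr_n N k), (p ⟨k, l⟩).1 • fr_g N ⟨k, l⟩ =
          ∑ i ∈ Finset.univ.map (Function.Embedding.sigmaMk k), (p i).1 • fr_g N i :=
        (Finset.sum_map Finset.univ (Function.Embedding.sigmaMk k)
          (fun i => (p i).1 • fr_g N i)).symm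
      rw [hm]
      apply Finset.sum_congr_of_eq_on_inter
      · intro i _ hi'
        have : (p i).1 = 0 := by
          by_contra hne
          have hik := hp4 i hne
          apply hi'
          rw [Finset.mem_map]
          obtain ⟨j, l⟩ := i
          simp only at hik
          subst hik
          exact ⟨l, Finset.mem_univ _, rfl⟩
        rw [this]
        ext z
        simp
      · intro i _ hi'
        have : a i = 0 := by simpa using hi'
        rw [hp5 i this]
        simp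
      · intro i _ _
        ext z
        simp
    have hU : fr_lc N c₀ ∈ fr_U N k := by
      have : fr_lc N c₀ = E4 * (-(fr_lc N a')) + E6 * (-(fr_lc N a'')) := by
        linear_combination hsum
      rw [this]
      exact fr_mem_U.mpr ⟨_, Submodule.neg_mem _ hx, _, Submodule.neg_mem _ hy, rfl⟩
    have hp0 : ∀ i, (p i).1 = 0 := by
      intro i
      by_contra hne
      have hik := hp4 i hne
      obtain ⟨j, l⟩ := i
      simp only at hik
      subst hik
      exact hne (fr_W_indep (fun l => (p ⟨j, l⟩).1) (hc₀ ▸ hU) l)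
    have hc₀0 : c₀ = 0 := by
      ext1 i
      simp only [c₀, Finsupp.onFinset_apply, hp0 i]
      rfl
    rw [hc₀0, map_zero, zero_add] at hsum
    obtain ⟨H, hH, hxH, hyH⟩ := div_coprime hx hy hsum
    obtain ⟨h, hh, rfl⟩ := fr_span N (k - 10) H hH
    have e1 : a' - E6 • h = 0 := by
      refine ih (k - 4) (by omega) _ (fun i => ?_) ?_
      · rw [Finsupp.sub_apply, Finsupp.smul_apply, smul_eq_mul]
        exact Submodule.sub_mem _ (ha' i) (A_cast (by ring) (A_mul E6_mem_A (hh i)))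
      · rw [map_sub, map_smul, hxH, smul_eq_mul, sub_self]
    have e2 : a'' + E4 • h = 0 := by
      refine ih (k - 6) (by omega) _ (fun i => ?_) ?_
      · rw [Finsupp.add_apply, Finsupp.smul_apply, smul_eq_mul]
        exact Submodule.add_mem _ (ha'' i) (A_cast (by ring) (A_mul E4_mem_A (hh i)))
      · rw [map_add, map_smul, hyH, smul_eq_mul, neg_add_cancel]
    rw [ha_eq, hc₀0, sub_eq_zero.mp e1, eq_neg_of_add_eq_zero_left e2, zero_add, smul_neg,
      smul_smul, smul_smul, mul_comm E4 E6, add_neg_cancel]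

/-- the linear map `(a_i) ↦ ∑ a_i r_i` -/
noncomputable def fr_Phi {ι : Type} [Fintype ι] (d : ι → ℤ) (r : ι → ℍ → ℂ)
    (hr : ∀ i, r i ∈ R N (d i)) (k : ℤ) : (Π i, A (k - d i)) →ₗ[ℂ] R N k where
  toFun a := ⟨∑ i, (a i : ℍ → ℂ) * r i, Submodule.sum_mem _ fun i _ =>
    R_cast (by ring) (R_mul (A_le_R N _ (a i).2) (hr i))⟩
  map_add' a b := by
    apply Subtype.ext
    simp [add_mul, Finset.sum_add_distrib]
  map_smul' c a := by
    apply Subtype.ext
    simp [Finset.smul_sum]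

theorem fr_Phi_apply {ι : Type} [Fintype ι] (d : ι → ℤ) (r : ι → ℍ → ℂ)
    (hr : ∀ i, r i ∈ R N (d i)) (k : ℤ) (a : Π i, A (k - d i)) :
    ((fr_Phi d r hr k a : R N k) : ℍ → ℂ) = ∑ i, (a i : ℍ → ℂ) * r i := rfl

/-- every finite subfamily of the generators gives a lower bound for `finrank (R N k)` -/
theorem fr_sum_finrank_le (N : ℕ) [NeZero N] (T : Finset (fr_J N)) (k : ℤ) :
    ∑ i ∈ T, Module.finrank ℂ (A (k - i.1)) ≤ Module.finrank ℂ (R N k) := by
  classical
  let Φ := fr_Phi (N := N) (ι := T) (fun i => i.1.1) (fun i => fr_g N i.1)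
    (fun i => fr_g_mem i.1) k
  have hinj : Function.Injective Φ := by
    rw [injective_iff_map_eq_zero]
    intro a ha
    let ã : fr_J N →₀ (ℍ → ℂ) := Finsupp.onFinset T
      (fun i => if h : i ∈ T then (a ⟨i, h⟩ : ℍ → ℂ) else 0)
      (fun i hi => by
        by_contra h
        simp [h] at hi)
    have h1 : ∀ i, ã i ∈ A (k - i.1) := by
      intro i
      simp only [ã, Finsupp.onFinset_apply]
      split_ifs with h
      · exact (a ⟨i, h⟩).2
      · exact Submodule.zero_mem _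
    have h2 : fr_lc N ã = 0 := by
      unfold fr_lc
      rw [Finsupp.linearCombination_onFinset]
      have h := congrArg Subtype.val ha
      rw [fr_Phi_apply] at h
      rw [← Finset.sum_coe_sort]
      simpa using h
    have h3 := fr_indep N k ã h1 h2
    funext i
    have h4 := DFunLike.congr_fun h3 i.1
    simp only [ã, Finsupp.onFinset_apply, i.2, dite_true, Finsupp.coe_zero, Pi.zero_apply] at h4
    exact Subtype.ext h4
  have h := LinearMap.finrank_le_finrank_of_injective hinj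
  rw [Module.finrank_pi_fintype] at h
  rw [← Finset.sum_coe_sort T (fun i => Module.finrank ℂ (A (k - i.1)))]
  exact h

/-- the Sturm bound as a dimension bound -/
theorem fr_finrank_R_le (N : ℕ) [NeZero N] (k : ℤ) :
    Module.finrank ℂ (R N k) ≤ (k * (Gamma0 N).index).toNat / 12 + 1 := by
  rw [← finrank_modularForm_eq]
  let φ : ModularForm (Gamma0 N) k →ₗ[ℂ] (Fin ((k * (Gamma0 N).index).toNat / 12 + 1) → ℂ) :=
    { toFun := fun f n => (qExpansion 1 f).coeff n
      map_add' := fun f g => by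
        funext n
        simp [ModularForm.qExpansion_add one_pos (one_mem_strictPeriods_Gamma0 N) f g]
      map_smul' := fun c f => by
        funext n
        simp [ModularForm.qExpansion_smul one_pos (one_mem_strictPeriods_Gamma0 N) c f] }
  have hφ : Function.Injective φ := by
    rw [injective_iff_map_eq_zero]
    intro f hf
    apply ModularForm.sturm_bound_Gamma0 N
    intro n hn
    exact congrFun hf ⟨n, by omega⟩
  have h := LinearMap.finrank_le_finrank_of_injective hφ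
  simpa using h

theorem fr_finrank_A_ge {n : ℤ} {t : ℕ} (hn : 12 * (t : ℤ) ≤ n) (he : Even n) :
    t ≤ Module.finrank ℂ (A n) := by
  rw [finrank_A]
  have h1 : ¬ (n < 0 ∨ Odd n) := by
    rintro (h | h)
    · omega
    · exact (Int.not_even_iff_odd.mpr h) he
  rw [if_neg h1]
  have h2 : t ≤ (n / 12).toNat := by omega
  split_ifs <;> omega

/-- the number of generators is bounded -/
theorem fr_card_le (N : ℕ) [NeZero N] (T : Finset (fr_J N)) :
    T.card ≤ 2 * (Gamma0 N).index + 1 := by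
  obtain ⟨t, ht1, ht⟩ : ∃ t : ℕ, 1 ≤ t ∧ ∀ i ∈ T, i.1 ≤ (t : ℤ) := by
    refine ⟨1 + ∑ i ∈ T, (i.1).toNat, by omega, ?_⟩
    intro i hi
    have h1 : (i.1).toNat ≤ ∑ j ∈ T, (j.1).toNat :=
      Finset.single_le_sum (f := fun j : fr_J N => (j.1).toNat) (fun _ _ => Nat.zero_le _) hi
    have h2 := Int.self_le_toNat i.1
    have h3 : ((i.1).toNat : ℤ) ≤ ((∑ j ∈ T, (j.1).toNat : ℕ) : ℤ) := by exact_mod_cast h1
    rw [Nat.cast_add, Nat.cast_one]
    omega
  have h1 : T.card * t ≤ ∑ i ∈ T, Module.finrank ℂ (A (24 * (t : ℤ) - i.1)) := by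
    rw [← smul_eq_mul, ← Finset.sum_const]
    refine Finset.sum_le_sum fun i hi => fr_finrank_A_ge (by have := ht i hi; omega) ?_
    exact Even.sub (Even.mul_right (by decide) _) (fr_d_even i)
  have h2 := fr_sum_finrank_le N T (24 * (t : ℤ))
  have h3 := fr_finrank_R_le N (24 * (t : ℤ))
  have h4 : (24 * (t : ℤ) * ((Gamma0 N).index : ℤ)).toNat / 12 = 2 * (t * (Gamma0 N).index) := by
    have h5 : (24 * (t : ℤ) * ((Gamma0 N).index : ℤ)) = ((24 * (t * (Gamma0 N).index) : ℕ) : ℤ) := by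
      push_cast
      ring
    rw [h5, Int.toNat_natCast]
    omega
  rw [h4] at h3
  by_contra hcon
  rw [not_le] at hcon
  have h6 : (2 * (Gamma0 N).index + 2) * t ≤ T.card * t := Nat.mul_le_mul_right t hcon
  have h7 : (2 * (Gamma0 N).index + 2) * t = 2 * (t * (Gamma0 N).index) + 2 * t := by ring
  omega

/-- there are only finitely many generators -/
noncomputable instance fr_fintype (N : ℕ) [NeZero N] : Fintype (fr_J N) :=
  fintypeOfFinsetCardLe _ (fr_card_le N)

end Fermat.Agent.S20T
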