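import Mathlib
import Fermat.Agent.S20T.Basic
import Fermat.Agent.S20T.Dim
import Fermat.Agent.S20T.LevelOne
import Fermat.Agent.S20T.Division
import Fermat.Agent.S20T.FreeAux

/-!
# S20T: `⊕ R N k` is a free graded module of finite rank over `⊕ A k`
-/

set_option autoImplicit false

open UpperHalfPlane ModularFormClass CongruenceSubgroup
open scoped MatrixGroups ModularForm Manifold

namespace Fermat.Agent.S20T

variable {N : ℕ}

theorem exists_basis (N : ℕ) [NeZero N] : Nonempty (Basis N) := by
  refine ⟨{ ι := fr_J N, fin := fr_fintype N, d := fun i => i.1, r := fr_g N,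
            mem := fr_g_mem, span := ?_, indep := ?_ }⟩
  · intro k F hF
    obtain ⟨a, ha, rfl⟩ := fr_span N k F hF
    refine ⟨fun i => a i, ha, ?_⟩
    rw [fr_lc_apply]
    refine Finset.sum_subset (Finset.subset_univ _) (fun i _ hi => ?_)
    rw [Finsupp.notMem_support_iff.mp hi, zero_mul]
  · intro k a ha h
    have h1 := fr_indep N k (Finsupp.equivFunOnFinite.symm a) (fun i => ha i) (by
      rw [fr_lc_apply, ← h]
      refine Finset.sum_subset (Finset.subset_univ _) (fun i _ hi => ?_)
      rw [Finsupp.notMem_support_iff.mp hi, zero_mul])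
    intro i
    exact DFunLike.congr_fun h1 i

namespace Basis

variable (B : Basis N)

theorem r_ne_zero (i : B.ι) : B.r i ≠ 0 := by
  classical
  intro h
  have h1 := B.indep (B.d i) (fun j => if j = i then (1 : ℍ → ℂ) else 0) (fun j => ?_) ?_ i
  · simp at h1
  · split_ifs with hj
    · subst hj
      exact A_cast (by ring) one_mem_A
    · exact Submodule.zero_mem _
  · simp [h]

theorem d_nonneg [NeZero N] (i : B.ι) : 0 ≤ B.d i := by
  by_contra h
  have h1 := B.mem i
  rw [R_eq_bot_of_neg (by omega), Submodule.mem_bot] at h1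
  exact B.r_ne_zero i h1

theorem d_even [NeZero N] (i : B.ι) : Even (B.d i) := by
  by_contra h
  have h1 := B.mem i
  rw [R_eq_bot_of_odd (Int.not_even_iff_odd.mp h), Submodule.mem_bot] at h1
  exact B.r_ne_zero i h1

/-- uniqueness of coordinates -/
theorem coord_unique {k : ℤ} {a a' : B.ι → ℍ → ℂ} (ha : ∀ i, a i ∈ A (k - B.d i))
    (ha' : ∀ i, a' i ∈ A (k - B.d i)) (h : ∑ i, a i * B.r i = ∑ i, a' i * B.r i) : a = a' := by
  funext i
  have h1 := B.indep k (fun i => a i - a' i) (fun i => Submodule.sub_mem _ (ha i) (ha' i))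
    (by simp [sub_mul, Finset.sum_sub_distrib, h]) i
  exact sub_eq_zero.mp h1

/-- the Hilbert function of `R N` -/
theorem finrank_R [NeZero N] (k : ℤ) :
    Module.finrank ℂ (R N k) = ∑ i, Module.finrank ℂ (A (k - B.d i)) := by
  have hinj : Function.Injective (fr_Phi B.d B.r B.mem k) := by
    rw [injective_iff_map_eq_zero]
    intro a ha
    have h := congrArg Subtype.val ha
    rw [fr_Phi_apply] at h
    have h1 := B.indep k (fun i => (a i : ℍ → ℂ)) (fun i => (a i).2) h
    funext i
    exact Subtype.ext (h1 i)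
  have hsurj : Function.Surjective (fr_Phi B.d B.r B.mem k) := by
    intro F
    obtain ⟨a, ha, h⟩ := B.span k F.1 F.2
    exact ⟨fun i => ⟨a i, ha i⟩, Subtype.ext (by rw [fr_Phi_apply]; exact h.symm)⟩
  have e := LinearEquiv.ofBijective _ ⟨hinj, hsurj⟩
  rw [← e.finrank_eq, Module.finrank_pi_fintype]

/-- exactly one generator in degree `0` -/
theorem card_d_zero [NeZero N] : Nat.card {i : B.ι // B.d i = 0} = 1 := by
  classical
  have h1 : Module.finrank ℂ (R N 0) = 1 := by
    have h0 : R N 0 = A 0 := le_antisymm (fun F hF => by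
      obtain ⟨c, rfl⟩ := mem_R_zero hF
      exact const_mem_A c) (A_le_R N 0)
    rw [h0, finrank_A_zero]
  have h2 := B.finrank_R 0
  rw [h1] at h2
  have h3 : ∀ i, Module.finrank ℂ (A (0 - B.d i)) = if B.d i = 0 then 1 else 0 := by
    intro i
    split_ifs with h
    · rw [h, sub_zero, finrank_A_zero]
    · exact finrank_A_of_neg (by have := B.d_nonneg i; omega)
  simp only [h3] at h2
  rw [Finset.sum_boole] at h2
  rw [Nat.card_eq_fintype_card, Fintype.card_subtype]
  exact_mod_cast h2.symm

end Basis

end Fermat.Agent.S20T
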