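import Mathlib

/-!
# S20T: eigenspaces of permutation operators of order 2 and 3 (pure linear algebra)

For a permutation `σ` of a finite set `X`, `permEigen σ ε` is the space of functions
`v : X → ℂ` with `v (σ x) = ε * v x`.

* `finrank_permEigen_one_eq_card_orbits`: `dim E(1)` is the number of orbits of `⟨σ⟩`
  (invariant functions are the functions on the orbit space).
* `pe_finrank_add_card_fixed_le`: for `ε ≠ 0, 1`, `dim E(ε) + #Fix ≤ #orbits`
  (an eigenfunction vanishes at the fixed points and is determined by its values at one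
  representative of every orbit without fixed points).
* `pe_prime_mul_card_orbits`: if `σ ^ p = 1` for a prime `p` then
  `p * #orbits = #X + (p - 1) * #Fix`.

The four inequalities for involutions and for permutations of order three follow.
-/

set_option autoImplicit false

namespace Fermat.Agent.S20T

/-- The `ε`-eigenspace of the permutation `σ` acting on functions. -/
def permEigen {X : Type*} (σ : Equiv.Perm X) (ε : ℂ) : Submodule ℂ (X → ℂ) where
  carrier := {v | ∀ x, v (σ x) = ε * v x}
  zero_mem' := fun x => by simp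
  add_mem' := by
    intro v w hv hw x
    simp only [Pi.add_apply, hv x, hw x, mul_add]
  smul_mem' := by
    intro c v hv x
    simp only [Pi.smul_apply, smul_eq_mul, hv x]
    ring

theorem mem_permEigen {X : Type*} (σ : Equiv.Perm X) (ε : ℂ) (v : X → ℂ) :
    v ∈ permEigen σ ε ↔ ∀ x, v (σ x) = ε * v x := Iff.rfl

/-! ### orbit counting for a cyclic group acting through an element of prime order -/

section Generic

variable {G : Type*} [Group G] {Q : Type*} [MulAction G Q]

/-- The orbit of `q` under `⟨s⟩` has `minimalPeriod (s • ·) q` elements. -/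
theorem pe_card_orbit_zpowers (s : G) (q : Q) :
    Nat.card (MulAction.orbit (Subgroup.zpowers s) q) = Function.minimalPeriod (s • ·) q := by
  rw [Nat.card_congr (MulAction.orbitZPowersEquiv s q), Nat.card_zmod]

/-- An element fixed by `s` is fixed by `⟨s⟩`. -/
theorem pe_zpowers_smul_eq (s : G) (q : Q) (hq : s • q = q) (k : Subgroup.zpowers s) :
    k • q = q := by
  have h : Subgroup.zpowers s ≤ MulAction.stabilizer G q :=
    Subgroup.zpowers_le.mpr (MulAction.mem_stabilizer_iff.mpr hq)
  exact MulAction.mem_stabilizer_iff.mp (h k.2)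

/-- Orbit counting for a cyclic group acting through an element of prime order `p`:
orbits have size `1` or `p`, hence `p * #orbits = #Q + (p - 1) * #fixed points`. -/
theorem pe_prime_mul_card_orbits [Finite Q] (s : G) (p : ℕ) (hp : p.Prime)
    (hs : ∀ q : Q, s ^ p • q = q) :
    p * Nat.card (MulAction.orbitRel.Quotient (Subgroup.zpowers s) Q)
      = Nat.card Q + (p - 1) * Nat.card {q : Q // s • q = q} := by
  classical
  have : Fintype Q := Fintype.ofFinite Q
  have : Fintype (MulAction.orbitRel.Quotient (Subgroup.zpowers s) Q) := Fintype.ofFinite _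
  -- the class equation
  have h1 : Nat.card Q
      = ∑ ω : MulAction.orbitRel.Quotient (Subgroup.zpowers s) Q, Nat.card ω.orbit := by
    rw [Nat.card_congr (MulAction.selfEquivSigmaOrbits' (Subgroup.zpowers s) Q), Nat.card_sigma]
  -- orbits have size `1` or `p`
  have h2 : ∀ ω : MulAction.orbitRel.Quotient (Subgroup.zpowers s) Q,
      Nat.card ω.orbit = 1 ∨ Nat.card ω.orbit = p := by
    intro ω
    induction ω using Quotient.inductionOn' with
    | _ q =>
      rw [MulAction.orbitRel.Quotient.orbit_mk, pe_card_orbit_zpowers]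
      refine (Nat.dvd_prime hp).mp (Function.IsPeriodicPt.minimalPeriod_dvd ?_)
      show (fun x => s • x)^[p] q = q
      rw [smul_iterate]
      exact hs q
  -- orbits of size `1` are the fixed points
  have h3 : Nat.card {ω : MulAction.orbitRel.Quotient (Subgroup.zpowers s) Q //
      Nat.card ω.orbit = 1} = Nat.card {q : Q // s • q = q} := by
    symm
    have hfix : ∀ q : Q, s • q = q ↔
        Nat.card (MulAction.orbitRel.Quotient.orbit
          (Quotient.mk'' q : MulAction.orbitRel.Quotient (Subgroup.zpowers s) Q)) = 1 := by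
      intro q
      rw [MulAction.orbitRel.Quotient.orbit_mk, pe_card_orbit_zpowers,
        Function.minimalPeriod_eq_one_iff_isFixedPt]
      rfl
    refine Nat.card_eq_of_bijective
      (fun q : {q : Q // s • q = q} =>
        (⟨Quotient.mk'' q.1, (hfix q.1).mp q.2⟩ :
          {ω : MulAction.orbitRel.Quotient (Subgroup.zpowers s) Q // Nat.card ω.orbit = 1}))
      ⟨?_, ?_⟩
    · rintro ⟨a, ha⟩ ⟨b, hb⟩ hab
      have hab' : (Quotient.mk'' a : MulAction.orbitRel.Quotient (Subgroup.zpowers s) Q)
          = Quotient.mk'' b := congrArg Subtype.val hab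
      obtain ⟨k, hk⟩ := Quotient.exact' hab'
      apply Subtype.ext
      show a = b
      rw [← hk]
      exact pe_zpowers_smul_eq s b hb k
    · rintro ⟨⟨q⟩, hq⟩
      exact ⟨⟨q, (hfix q).mpr hq⟩, rfl⟩
  have h4 : ∑ ω : MulAction.orbitRel.Quotient (Subgroup.zpowers s) Q,
      (Nat.card ω.orbit + (p - 1) * (if Nat.card ω.orbit = 1 then 1 else 0))
      = ∑ _ω : MulAction.orbitRel.Quotient (Subgroup.zpowers s) Q, p := by
    refine Finset.sum_congr rfl (fun ω _ => ?_)
    have hp1 := hp.one_lt
    rcases h2 ω with h | h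
    · rw [h, if_pos rfl]
      omega
    · rw [h, if_neg hp.ne_one]
      omega
  rw [Finset.sum_add_distrib, ← h1, ← Finset.mul_sum, Finset.sum_boole, Finset.sum_const,
    Finset.card_univ, smul_eq_mul, Nat.cast_id, ← Fintype.card_subtype,
    ← Nat.card_eq_fintype_card, ← Nat.card_eq_fintype_card, h3] at h4
  rw [h4, mul_comm]

end Generic

/-! ### invariant functions and eigenfunctions -/

section Aux

variable {X : Type*} (σ : Equiv.Perm X)

/-- A `σ`-invariant map is invariant under the cyclic group generated by `σ`. -/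
theorem pe_invariant_zpowers {α : Type*} (φ : X → α) (h : ∀ x, φ (σ x) = φ x)
    (g : Equiv.Perm X) (hg : g ∈ Subgroup.zpowers σ) (x : X) : φ (g x) = φ x := by
  let H : Subgroup (Equiv.Perm X) :=
    { carrier := {g | ∀ x, φ (g x) = φ x}
      mul_mem' := fun {a b} ha hb x => by
        rw [Equiv.Perm.mul_apply, ha (b x), hb x]
      one_mem' := fun x => rfl
      inv_mem' := fun {a} ha x => by
        have h1 := ha (a.symm x)
        rw [Equiv.apply_symm_apply] at h1
        exact h1.symm }
  have hH : Subgroup.zpowers σ ≤ H := Subgroup.zpowers_le.mpr h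
  exact hH hg x

/-- `σ x` and `x` lie in the same orbit. -/
theorem pe_mk_apply (x : X) :
    (Quotient.mk'' (σ x) : MulAction.orbitRel.Quotient (Subgroup.zpowers σ) X)
      = Quotient.mk'' x :=
  Quotient.sound' ⟨⟨σ, Subgroup.mem_zpowers σ⟩, rfl⟩

/-- Two points in the same orbit differ by an element of the cyclic group. -/
theorem pe_exists_of_mk_eq {x y : X}
    (h : (Quotient.mk'' x : MulAction.orbitRel.Quotient (Subgroup.zpowers σ) X)
      = Quotient.mk'' y) :
    ∃ g : Equiv.Perm X, g ∈ Subgroup.zpowers σ ∧ g y = x := by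
  obtain ⟨k, hk⟩ := Quotient.exact' h
  exact ⟨k.1, k.2, hk⟩

/-- A map invariant under `σ` takes the same value at points of the same orbit. -/
theorem pe_eq_of_mk_eq {α : Type*} (φ : X → α) (h : ∀ x, φ (σ x) = φ x) {x y : X}
    (hxy : (Quotient.mk'' x : MulAction.orbitRel.Quotient (Subgroup.zpowers σ) X)
      = Quotient.mk'' y) : φ x = φ y := by
  obtain ⟨g, hg, rfl⟩ := pe_exists_of_mk_eq σ hxy
  exact pe_invariant_zpowers σ φ h g hg y

/-- The invariant functions are the functions factoring through the orbit space. -/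
theorem pe_permEigen_one_eq_range :
    permEigen σ 1 = LinearMap.range (LinearMap.funLeft ℂ ℂ
      (Quotient.mk'' : X → MulAction.orbitRel.Quotient (Subgroup.zpowers σ) X)) := by
  ext v
  rw [mem_permEigen, LinearMap.mem_range]
  constructor
  · intro hv
    have hv' : ∀ x, v (σ x) = v x := fun x => by rw [hv x, one_mul]
    refine ⟨fun O => Quotient.liftOn' O v (fun a b hab => ?_), ?_⟩
    · exact pe_eq_of_mk_eq σ v hv' (Quotient.sound' hab)
    · funext x
      rfl
  · rintro ⟨w, rfl⟩ x
    rw [LinearMap.funLeft_apply, LinearMap.funLeft_apply, pe_mk_apply, one_mul]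

/-- The dimension of the space of invariant functions is the number of orbits. -/
theorem pe_finrank_one [Finite X] :
    Module.finrank ℂ (permEigen σ 1)
      = Nat.card (MulAction.orbitRel.Quotient (Subgroup.zpowers σ) X) := by
  classical
  have : Fintype (MulAction.orbitRel.Quotient (Subgroup.zpowers σ) X) := Fintype.ofFinite _
  rw [pe_permEigen_one_eq_range,
    LinearMap.finrank_range_of_inj
      (LinearMap.funLeft_injective_of_surjective ℂ ℂ _ Quotient.mk''_surjective),
    Module.finrank_fintype_fun_eq_card, Nat.card_eq_fintype_card]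

/-- A fixed point is the chosen representative of its orbit. -/
theorem pe_out_mk_of_fixed (x : X) (hx : σ x = x) :
    Quotient.out (Quotient.mk'' x : MulAction.orbitRel.Quotient (Subgroup.zpowers σ) X) = x := by
  have h : (Quotient.mk'' (Quotient.out
      (Quotient.mk'' x : MulAction.orbitRel.Quotient (Subgroup.zpowers σ) X)) :
        MulAction.orbitRel.Quotient (Subgroup.zpowers σ) X) = Quotient.mk'' x :=
    Quotient.out_eq' _
  obtain ⟨g, hg, hgx⟩ := pe_exists_of_mk_eq σ h
  rw [← hgx]
  exact pe_zpowers_smul_eq σ x hx ⟨g, hg⟩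

/-- The orbits whose chosen representative is a fixed point correspond to the fixed points. -/
theorem pe_card_fixed_orbits :
    Nat.card {O : MulAction.orbitRel.Quotient (Subgroup.zpowers σ) X //
        σ (Quotient.out O) = Quotient.out O}
      = Nat.card {x : X // σ x = x} := by
  refine Nat.card_eq_of_bijective
    (fun O : {O : MulAction.orbitRel.Quotient (Subgroup.zpowers σ) X //
        σ (Quotient.out O) = Quotient.out O} =>
      (⟨Quotient.out O.1, O.2⟩ : {x : X // σ x = x})) ⟨?_, ?_⟩
  · rintro ⟨a, ha⟩ ⟨b, hb⟩ hab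
    apply Subtype.ext
    exact Quotient.out_injective (congrArg Subtype.val hab)
  · rintro ⟨x, hx⟩
    have hout := pe_out_mk_of_fixed σ x hx
    refine ⟨⟨Quotient.mk'' x, ?_⟩, Subtype.ext hout⟩
    rw [hout]
    exact hx

/-- An eigenfunction for an eigenvalue `ε ≠ 0, 1` vanishing at the chosen representatives of
the orbits without fixed points vanishes identically. -/
theorem pe_eq_zero_of_out (ε : ℂ) (hε0 : ε ≠ 0) (hε1 : ε ≠ 1) (v : X → ℂ)
    (hv : v ∈ permEigen σ ε)
    (h0 : ∀ O : MulAction.orbitRel.Quotient (Subgroup.zpowers σ) X,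
      ¬ σ (Quotient.out O) = Quotient.out O → v (Quotient.out O) = 0) : v = 0 := by
  rw [mem_permEigen] at hv
  -- `v` vanishes at all chosen representatives
  have hout : ∀ O : MulAction.orbitRel.Quotient (Subgroup.zpowers σ) X,
      v (Quotient.out O) = 0 := by
    intro O
    by_cases hP : σ (Quotient.out O) = Quotient.out O
    · have h1 := hv (Quotient.out O)
      rw [hP] at h1
      have h2 : (1 - ε) * v (Quotient.out O) = 0 := by
        rw [sub_mul, one_mul, ← h1, sub_self]
      rcases mul_eq_zero.mp h2 with h3 | h3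
      · exact absurd (sub_eq_zero.mp h3).symm hε1
      · exact h3
    · exact h0 O hP
  -- the zero set of `v` is invariant
  have hinv : ∀ x, (v (σ x) = 0) = (v x = 0) := by
    intro x
    rw [hv x]
    exact propext ⟨fun h => (mul_eq_zero.mp h).resolve_left hε0, fun h => by rw [h, mul_zero]⟩
  funext x
  have hx : (Quotient.mk'' x : MulAction.orbitRel.Quotient (Subgroup.zpowers σ) X)
      = Quotient.mk'' (Quotient.out
        (Quotient.mk'' x : MulAction.orbitRel.Quotient (Subgroup.zpowers σ) X)) :=
    (Quotient.out_eq' _).symm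
  have h := pe_eq_of_mk_eq σ (fun y => v y = 0) hinv hx
  exact h.mpr (hout _)

/-- For `ε ≠ 0, 1`: `dim E(ε) + #Fix ≤ #orbits`. -/
theorem pe_finrank_add_card_fixed_le [Finite X] (ε : ℂ) (hε0 : ε ≠ 0) (hε1 : ε ≠ 1) :
    Module.finrank ℂ (permEigen σ ε) + Nat.card {x : X // σ x = x}
      ≤ Nat.card (MulAction.orbitRel.Quotient (Subgroup.zpowers σ) X) := by
  classical
  have : Fintype (MulAction.orbitRel.Quotient (Subgroup.zpowers σ) X) := Fintype.ofFinite _
  have hsplit : Nat.card (MulAction.orbitRel.Quotient (Subgroup.zpowers σ) X)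
      = Nat.card {O : MulAction.orbitRel.Quotient (Subgroup.zpowers σ) X //
          σ (Quotient.out O) = Quotient.out O}
        + Nat.card {O : MulAction.orbitRel.Quotient (Subgroup.zpowers σ) X //
          ¬ σ (Quotient.out O) = Quotient.out O} := by
    rw [Nat.card_congr (Equiv.sumCompl (fun O : MulAction.orbitRel.Quotient
      (Subgroup.zpowers σ) X => σ (Quotient.out O) = Quotient.out O)).symm, Nat.card_sum]
  have hle : Module.finrank ℂ (permEigen σ ε)
      ≤ Nat.card {O : MulAction.orbitRel.Quotient (Subgroup.zpowers σ) X //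
          ¬ σ (Quotient.out O) = Quotient.out O} := by
    let Φ : permEigen σ ε →ₗ[ℂ]
        ({O : MulAction.orbitRel.Quotient (Subgroup.zpowers σ) X //
          ¬ σ (Quotient.out O) = Quotient.out O} → ℂ) :=
      (LinearMap.funLeft ℂ ℂ
        (fun O : {O : MulAction.orbitRel.Quotient (Subgroup.zpowers σ) X //
          ¬ σ (Quotient.out O) = Quotient.out O} => Quotient.out O.1)).comp
        (permEigen σ ε).subtype
    have hΦ : Function.Injective Φ := by
      refine (injective_iff_map_eq_zero Φ).mpr ?_
      rintro ⟨v, hv⟩ h0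
      apply Subtype.ext
      show v = 0
      exact pe_eq_zero_of_out σ ε hε0 hε1 v hv (fun O hO => congrFun h0 ⟨O, hO⟩)
    have h := LinearMap.finrank_le_finrank_of_injective hΦ
    rwa [Module.finrank_fintype_fun_eq_card, ← Nat.card_eq_fintype_card] at h
  rw [hsplit, pe_card_fixed_orbits]
  omega

/-- For an involution: `2 * #orbits = #X + #Fix`. -/
theorem pe_two_mul_card_orbits [Finite X] (h2 : ∀ x, σ (σ x) = x) :
    2 * Nat.card (MulAction.orbitRel.Quotient (Subgroup.zpowers σ) X)
      = Nat.card X + Nat.card {x : X // σ x = x} := by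
  have h := pe_prime_mul_card_orbits σ 2 Nat.prime_two (fun x => by
    show (σ ^ 2) x = x
    rw [sq, Equiv.Perm.mul_apply, h2])
  rw [h]
  have h' : Nat.card {q : X // σ • q = q} = Nat.card {x : X // σ x = x} := rfl
  rw [h']
  omega

/-- For a permutation of order three: `3 * #orbits = #X + 2 * #Fix`. -/
theorem pe_three_mul_card_orbits [Finite X] (h3 : ∀ x, σ (σ (σ x)) = x) :
    3 * Nat.card (MulAction.orbitRel.Quotient (Subgroup.zpowers σ) X)
      = Nat.card X + 2 * Nat.card {x : X // σ x = x} := by
  have h := pe_prime_mul_card_orbits σ 3 Nat.prime_three (fun x => by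
    show (σ ^ 3) x = x
    rw [pow_succ, sq, Equiv.Perm.mul_apply, Equiv.Perm.mul_apply, h3])
  rw [h]
  have h' : Nat.card {q : X // σ • q = q} = Nat.card {x : X // σ x = x} := rfl
  rw [h']

end Aux

variable {X : Type*} [Finite X] (σ : Equiv.Perm X)

theorem finrank_permEigen_two_one (h2 : ∀ x, σ (σ x) = x) :
    2 * Module.finrank ℂ (permEigen σ 1) ≤ Nat.card X + Nat.card {x : X // σ x = x} := by
  rw [pe_finrank_one, pe_two_mul_card_orbits σ h2]

theorem finrank_permEigen_two_neg (h2 : ∀ x, σ (σ x) = x) :
    2 * Module.finrank ℂ (permEigen σ (-1)) + Nat.card {x : X // σ x = x} ≤ Nat.card X := by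
  have h1 := pe_finrank_add_card_fixed_le σ (-1) (by norm_num) (by norm_num)
  have h := pe_two_mul_card_orbits σ h2
  omega

theorem finrank_permEigen_three_one (h3 : ∀ x, σ (σ (σ x)) = x) :
    3 * Module.finrank ℂ (permEigen σ 1) ≤ Nat.card X + 2 * Nat.card {x : X // σ x = x} := by
  rw [pe_finrank_one, pe_three_mul_card_orbits σ h3]

theorem finrank_permEigen_three_prim (h3 : ∀ x, σ (σ (σ x)) = x) (ω : ℂ) (hω : ω ^ 3 = 1)
    (hω1 : ω ≠ 1) :
    3 * Module.finrank ℂ (permEigen σ ω) + Nat.card {x : X // σ x = x} ≤ Nat.card X := by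
  have hω0 : ω ≠ 0 := by
    rintro rfl
    norm_num at hω
  have h1 := pe_finrank_add_card_fixed_le σ ω hω0 hω1
  have h := pe_three_mul_card_orbits σ h3
  omega

/-- The dimension of the space of `σ`-invariant functions is the number of orbits. -/
theorem finrank_permEigen_one_eq_card_orbits :
    Module.finrank ℂ (permEigen σ 1)
      = Nat.card (MulAction.orbitRel.Quotient (Subgroup.zpowers σ) X) := by
  exact pe_finrank_one σ

end Fermat.Agent.S20T
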