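import Mathlib
import Fermat.Agent.S20T.Basic
import Fermat.Agent.S20T.Conj
import Fermat.Agent.S20T.Perm

/-!
# S20T: `q_N`-expansions of the conjugates

`ps N k F q` is the expansion of `conj N k F q` in `q_N = exp(2πi z / N)`
(each conjugate of a form on `Γ₀(N)` is invariant under `z ↦ z + N`).
-/

set_option autoImplicit false

open UpperHalfPlane ModularFormClass CongruenceSubgroup
open scoped MatrixGroups ModularForm Manifold

namespace Fermat.Agent.S20T

open Fermat.Agent.S23L.Data (Q G0 perm cj toSL fintypeQ)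

attribute [local instance] fintypeQ

/-- the `q_N`-expansion of the conjugate `conj N k F q`. -/
noncomputable def ps (N : ℕ) (k : ℤ) (F : ℍ → ℂ) (q : Q N) : PowerSeries ℂ :=
  qExpansion (N : ℝ) (conj N k F q)

/-! ### auxiliary lemmas: the action of powers of `T` -/

theorem qn_perm_pow {N : ℕ} (γ : SL(2, ℤ)) (n : ℕ) (q : Q N) :
    perm N (γ ^ n) q = ((perm N γ) ^ n) q := by
  induction n with
  | zero => simp [perm_one]
  | succ n ih => rw [pow_succ, perm_mul, ih, pow_succ']; rfl

theorem qn_perm_T_pow {N : ℕ} (q : Q N) : perm N (ModularGroup.T ^ N) q = q := by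
  rw [qn_perm_pow]; exact perm_T_pow q

/-- slashing with `T ^ n` is the translation by `n` -/
theorem qn_slash_T_pow_apply (G : ℍ → ℂ) (k : ℤ) (n : ℕ) (z : ℍ) :
    (G ∣[k] (ModularGroup.T ^ n)) z = G ((n : ℝ) +ᵥ z) := by
  have h1 := modular_T_zpow_smul z (n : ℤ)
  rw [zpow_natCast] at h1
  have h3 := ModularGroup.coe_T_zpow (n : ℤ)
  rw [zpow_natCast] at h3
  have h2 : denom ((ModularGroup.T ^ n : SL(2, ℤ)) : GL (Fin 2) ℝ) z = 1 := by
    simp [denom, h3, -map_pow]
  rw [ModularForm.SL_slash_apply, h1, h2]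
  simp

/-- slashing with `T` is the translation by `1` -/
theorem qn_slash_T_apply (G : ℍ → ℂ) (k : ℤ) (z : ℍ) :
    (G ∣[k] ModularGroup.T) z = G ((1 : ℝ) +ᵥ z) := by
  simpa using qn_slash_T_pow_apply G k 1 z

/-- uniqueness of `q`-expansion coefficients, for plain functions -/
theorem qn_coeff_unique_aux {h : ℝ} {f : ℍ → ℂ} {c : ℕ → ℂ} (hh : 0 < h)
    (hfanalytic : AnalyticAt ℂ (cuspFunction h f) 0)
    (hf : ∀ τ : ℍ, HasSum (fun m ↦ c m • Function.Periodic.qParam h τ ^ m) (f τ)) (m : ℕ) :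
    c m = (qExpansion h f).coeff m := by
  have h1 := (hasFPowerSeriesOnBall_cuspFunction hh hfanalytic hf).hasFPowerSeriesAt
  have h2 := hfanalytic.hasFPowerSeriesAt
  have h3 := congr_arg (FormalMultilinearSeries.coeff · m) (h1.eq_formalMultilinearSeries h2)
  simpa [qExpansion_coeff, FormalMultilinearSeries.coeff_ofScalars, div_eq_mul_inv, mul_comm]
    using h3

theorem qn_pos (N : ℕ) [NeZero N] : (0 : ℝ) < (N : ℝ) := Nat.cast_pos.mpr (NeZero.pos N)

section aux

variable {N : ℕ} {k : ℤ} {F : ℍ → ℂ}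

/-- the conjugates are `N`-periodic -/
theorem qn_conj_vadd (hF : F ∈ R N k) (q : Q N) (z : ℍ) :
    conj N k F q ((N : ℝ) +ᵥ z) = conj N k F q z := by
  rw [← qn_slash_T_pow_apply (conj N k F q) k N z, conj_slash hF, qn_perm_T_pow]

/-- the effect of `T` on the conjugates -/
theorem qn_conj_perm_T (hF : F ∈ R N k) (q : Q N) (z : ℍ) :
    conj N k F (perm N ModularGroup.T q) z = conj N k F q ((1 : ℝ) +ᵥ z) := by
  rw [← qn_slash_T_apply (conj N k F q) k z, conj_slash hF]

/-- the conjugates are `N`-periodic (in the form needed for `q`-expansions) -/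
theorem qn_periodic (hF : F ∈ R N k) (q : Q N) :
    Function.Periodic (conj N k F q ∘ ofComplex) (N : ℝ) := by
  intro w
  by_cases hw : 0 < w.im
  · have hw' : 0 < (w + ((N : ℝ) : ℂ)).im := by simpa using hw
    rw [Function.comp_apply, Function.comp_apply, ofComplex_apply_of_im_pos hw',
      ofComplex_apply_of_im_pos hw, ← qn_conj_vadd hF q ⟨w, hw⟩]
    congr 1
    ext
    simp [add_comm]
  · have hw' : (w + ((N : ℝ) : ℂ)).im ≤ 0 := by simpa using hw
    rw [Function.comp_apply, Function.comp_apply, ofComplex_apply_of_im_nonpos hw',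
      ofComplex_apply_of_im_nonpos (not_lt.mp hw)]

variable [NeZero N]

/-- the cusp function (in `q_N`) of a conjugate is analytic at `0` -/
theorem qn_analyticAt (hF : F ∈ R N k) (q : Q N) :
    AnalyticAt ℂ (cuspFunction (N : ℝ) (conj N k F q)) 0 :=
  analyticAt_cuspFunction_zero (qn_pos N) (qn_periodic hF q) (mdiff_conj hF q) (bdd_conj hF q)

/-- the cusp function (in `q_N`) of a conjugate is differentiable on the unit disc -/
theorem qn_differentiableAt (hF : F ∈ R N k) (q : Q N) {w : ℂ} (hw : ‖w‖ < 1) :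
    DifferentiableAt ℂ (cuspFunction (N : ℝ) (conj N k F q)) w :=
  differentiableAt_cuspFunction (qn_pos N) (qn_periodic hF q) (mdiff_conj hF q) (bdd_conj hF q) hw

/-- the cusp function evaluated at `q_N(τ)` -/
theorem qn_eq_cuspFunction (hF : F ∈ R N k) (q : Q N) (τ : ℍ) :
    cuspFunction (N : ℝ) (conj N k F q) (Function.Periodic.qParam (N : ℝ) τ) = conj N k F q τ :=
  eq_cuspFunction τ (qn_pos N).ne' (qn_periodic hF q)

/-- the `q_N`-expansion converges to the conjugate -/
theorem qn_hasSum (hF : F ∈ R N k) (q : Q N) (τ : ℍ) :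
    HasSum (fun m : ℕ ↦ (ps N k F q).coeff m • Function.Periodic.qParam (N : ℝ) τ ^ m)
      (conj N k F q τ) := by
  have h := hasSum_qExpansion (qn_pos N) (qn_periodic hF q) (mdiff_conj hF q) (bdd_conj hF q) τ
  unfold ps
  exact h

/-- uniqueness of the coefficients of the `q_N`-expansion -/
theorem qn_coeff_unique (hF : F ∈ R N k) (q : Q N) {c : ℕ → ℂ}
    (hc : ∀ τ : ℍ, HasSum (fun m : ℕ ↦ c m • Function.Periodic.qParam (N : ℝ) τ ^ m)
      (conj N k F q τ)) (m : ℕ) : c m = (ps N k F q).coeff m := by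
  have h := qn_coeff_unique_aux (qn_pos N) (qn_analyticAt hF q) hc m
  unfold ps
  exact h

/-- the constant coefficient is the limit at `i∞` -/
theorem qn_tendsto (hF : F ∈ R N k) (q : Q N) :
    Filter.Tendsto (conj N k F q) atImInfty (nhds ((ps N k F q).coeff 0)) := by
  have h1 : (cuspFunction (N : ℝ) (conj N k F q) ∘
      fun τ : ℍ ↦ Function.Periodic.qParam (N : ℝ) τ : ℍ → ℂ) = conj N k F q := by
    funext τ
    exact qn_eq_cuspFunction hF q τ
  have h2 := (qn_analyticAt hF q).continuousAt.tendsto.comp (qParam_tendsto_atImInfty (qn_pos N))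
  rw [h1] at h2
  have h3 : (ps N k F q).coeff 0 = cuspFunction (N : ℝ) (conj N k F q) 0 := by
    simp [ps, qExpansion_coeff]
  rw [h3]
  exact h2

end aux

variable {N : ℕ} [NeZero N] {k l : ℤ} {F G a : ℍ → ℂ}

theorem ps_mul (hF : F ∈ R N k) (hG : G ∈ R N l) (q : Q N) :
    ps N (k + l) (F * G) q = ps N k F q * ps N l G q := by
  unfold ps
  rw [conj_mul]
  exact qExpansion_mul (qn_analyticAt hF q) (qn_analyticAt hG q)

theorem ps_pow (hF : F ∈ R N k) (m : ℕ) (q : Q N) :
    ps N (m * k) (F ^ m) q = ps N k F q ^ m := by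
  unfold ps
  rw [conj_pow]
  induction m with
  | zero => simp [qExpansion_one]
  | succ m ih =>
    have h1 : AnalyticAt ℂ (cuspFunction (N : ℝ) (conj N k F q ^ m)) 0 := by
      have h2 := qn_analyticAt (R_pow hF m) q
      rwa [conj_pow] at h2
    rw [pow_succ, qExpansion_mul h1 (qn_analyticAt hF q), ih, pow_succ]

theorem ps_add (hF : F ∈ R N k) (hG : G ∈ R N k) (q : Q N) :
    ps N k (F + G) q = ps N k F q + ps N k G q := by
  unfold ps
  rw [conj_add]
  exact qExpansion_add (qn_analyticAt hF q) (qn_analyticAt hG q)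

theorem ps_smul (hF : F ∈ R N k) (c : ℂ) (q : Q N) :
    ps N k (c • F) q = c • ps N k F q := by
  unfold ps
  rw [conj_smul]
  exact qExpansion_smul (qn_analyticAt hF q) c

theorem ps_eq_zero_iff (hF : F ∈ R N k) (q : Q N) : ps N k F q = 0 ↔ F = 0 := by
  unfold ps
  rw [qExpansion_eq_zero_iff (qn_pos N) (qn_periodic hF q) (mdiff_conj hF q) (bdd_conj hF q),
    conj_eq_zero_iff hF]

/-! ### level-one forms in terms of `q_N` -/

/-- `q_N ^ N = q` -/
theorem qn_qParam_pow (N : ℕ) [NeZero N] (z : ℂ) :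
    Function.Periodic.qParam (N : ℝ) z ^ N = Function.Periodic.qParam 1 z := by
  unfold Function.Periodic.qParam
  rw [← Complex.exp_nat_mul]
  congr 1
  have hN : (N : ℂ) ≠ 0 := Nat.cast_ne_zero.mpr (NeZero.ne N)
  push_cast
  field_simp

/-- a level-one form as a series in `q_N` -/
theorem qn_hasSum_of_mem_A (ha : a ∈ A k) (τ : ℍ) :
    HasSum (fun m : ℕ ↦ (if N ∣ m then (qExpansion 1 a).coeff (m / N) else 0) •
      Function.Periodic.qParam (N : ℝ) τ ^ m) (a τ) := by
  obtain ⟨f, rfl⟩ := ha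
  have h1 := hasSum_qExpansion one_pos
    (SlashInvariantFormClass.periodic_comp_ofComplex f one_mem_strictPeriods_SL)
    (ModularFormClass.holo f) (ModularFormClass.bdd_at_infty f) τ
  have hinj : Function.Injective (fun m : ℕ => N * m) :=
    fun _ _ h => Nat.eq_of_mul_eq_mul_left (NeZero.pos N) h
  rw [← hinj.hasSum_iff]
  · convert h1 using 2 with m
    simp [Function.comp, NeZero.ne N, pow_mul, qn_qParam_pow]
  · intro x hx
    have hx' : ¬ N ∣ x := fun ⟨m, hm⟩ => hx ⟨m, hm.symm⟩
    simp [hx']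

/-- the `q_N`-expansion of a level-one form -/
theorem qn_coeff_of_mem_A (ha : a ∈ A k) (n : ℕ) :
    (qExpansion (N : ℝ) a).coeff n = if N ∣ n then (qExpansion 1 a).coeff (n / N) else 0 := by
  have h1 := qn_analyticAt (A_le_R N k ha) ((1 : 𝒮ℒ) : Q N)
  rw [conj_of_mem_A ha] at h1
  exact (qn_coeff_unique_aux (qn_pos N) h1 (fun τ => qn_hasSum_of_mem_A ha τ) n).symm

/-- the `q_N`-expansion of a level-one form is its `q`-expansion in `q = q_N ^ N`. -/
theorem ps_of_mem_A_coeff_mul (ha : a ∈ A k) (q : Q N) (n : ℕ) :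
    (ps N k a q).coeff (N * n) = (qExpansion 1 a).coeff n := by
  unfold ps
  rw [conj_of_mem_A ha q, qn_coeff_of_mem_A ha, if_pos (dvd_mul_right N n),
    Nat.mul_div_cancel_left n (NeZero.pos N)]

theorem ps_of_mem_A_coeff_of_not_dvd (ha : a ∈ A k) (q : Q N) (n : ℕ) (hn : ¬ N ∣ n) :
    (ps N k a q).coeff n = 0 := by
  unfold ps
  rw [conj_of_mem_A ha q, qn_coeff_of_mem_A ha, if_neg hn]

/-! ### the trace -/

theorem qn_cuspFunction_zero (h : ℝ) : cuspFunction h (0 : ℍ → ℂ) = 0 := by
  ext q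
  rcases eq_or_ne q 0 with rfl | hq
  · have h1 : Filter.Tendsto (0 : ℂ → ℂ) (nhdsWithin 0 {0}ᶜ) (nhds 0) := tendsto_const_nhds
    simpa [cuspFunction, Function.Periodic.cuspFunction] using h1.limUnder_eq
  · simp [cuspFunction, Function.Periodic.cuspFunction_eq_of_nonzero h _ hq]

/-- additivity of `q`-expansions for sums over a finset -/
theorem qn_qExpansion_sum {h : ℝ} {ι : Type*} (s : Finset ι) (f : ι → ℍ → ℂ)
    (hf : ∀ i ∈ s, AnalyticAt ℂ (cuspFunction h (f i)) 0) :
    AnalyticAt ℂ (cuspFunction h (∑ i ∈ s, f i)) 0 ∧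
      qExpansion h (∑ i ∈ s, f i) = ∑ i ∈ s, qExpansion h (f i) := by
  classical
  induction s using Finset.induction_on with
  | empty =>
    refine ⟨?_, by simp [qExpansion_zero]⟩
    rw [Finset.sum_empty, qn_cuspFunction_zero]
    exact analyticAt_const
  | insert i s hi ih =>
    have ih' := ih (fun j hj => hf j (Finset.mem_insert_of_mem hj))
    have hi' := hf i (Finset.mem_insert_self i s)
    rw [Finset.sum_insert hi, Finset.sum_insert hi]
    refine ⟨?_, ?_⟩
    · rw [cuspFunction_add hi'.continuousAt ih'.1.continuousAt]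
      exact hi'.add ih'.1
    · rw [qExpansion_add hi' ih'.1, ih'.2]

/-- the `q_N`-expansion of the trace is the sum of the expansions of the conjugates -/
theorem qn_qExpansion_tr (hF : F ∈ R N k) :
    qExpansion (N : ℝ) (tr N k F) = ∑ q : Q N, ps N k F q := by
  unfold tr ps
  exact (qn_qExpansion_sum Finset.univ (fun q => conj N k F q)
    (fun q _ => qn_analyticAt hF q)).2

/-- the expansion of the trace is the sum of the expansions of the conjugates. -/
theorem sum_ps_coeff_mul (hF : F ∈ R N k) (n : ℕ) :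
    ∑ q : Q N, (ps N k F q).coeff (N * n) = (qExpansion 1 (tr N k F)).coeff n := by
  have h2 := qn_coeff_of_mem_A (N := N) (tr_mem_A hF) (N * n)
  rw [qn_qExpansion_tr hF, if_pos (dvd_mul_right N n),
    Nat.mul_div_cancel_left n (NeZero.pos N)] at h2
  rw [← h2, map_sum]

theorem sum_ps_coeff_of_not_dvd (hF : F ∈ R N k) (n : ℕ) (hn : ¬ N ∣ n) :
    ∑ q : Q N, (ps N k F q).coeff n = 0 := by
  have h2 := qn_coeff_of_mem_A (N := N) (tr_mem_A hF) n
  rw [qn_qExpansion_tr hF, if_neg hn] at h2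
  rw [← h2, map_sum]

end Fermat.Agent.S20T
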