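import Mathlib
import Fermat.Agent.S23.QCalc
import Fermat.Agent.S20T.Basic
import Fermat.Agent.S20T.Perm
import Fermat.Agent.S20T.Conj

/-!
# S20T: auxiliary lemmas for `QNDiv.lean`

Periodicity of the conjugates `conj N k F q` under `z ↦ z + N`, analyticity of their cusp
functions, and general facts on `q`-expansions with an arbitrary period `h`
(limit at `i∞`, exponential decay when the first coefficients vanish).
This file does not depend on `QN.lean`.
-/

set_option autoImplicit false

open UpperHalfPlane ModularFormClass CongruenceSubgroup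
open scoped MatrixGroups ModularForm Manifold

namespace Fermat.Agent.S20T

open Fermat.Agent.S23L.Data (Q G0 perm cj toSL fintypeQ)
open Fermat.Agent.S23L.Twist (QExp)

attribute [local instance] fintypeQ

variable {N : ℕ} [NeZero N] {k l : ℤ} {F G a : ℍ → ℂ}

/-! ### auxiliary lemmas: translations -/

/-- `T ^ n` acts by translation by `n`. -/
theorem qd_slash_T_pow (G : ℍ → ℂ) (k : ℤ) (n : ℕ) (z : ℍ) :
    (G ∣[k] (ModularGroup.T ^ n)) z = G ((n : ℝ) +ᵥ z) := by
  rw [ModularForm.SL_slash_apply]
  have h1 : (ModularGroup.T ^ n) • z = ((n : ℝ) +ᵥ z) := by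
    have := UpperHalfPlane.modular_T_zpow_smul z n
    simpa using this
  rw [h1]
  have h3 := ModularGroup.coe_T_zpow (n : ℤ)
  rw [zpow_natCast] at h3
  have e10 : (ModularGroup.T ^ n : SL(2, ℤ)) 1 0 = 0 := by
    have := congrFun (congrFun h3 1) 0
    simpa using this
  have e11 : (ModularGroup.T ^ n : SL(2, ℤ)) 1 1 = 1 := by
    have := congrFun (congrFun h3 1) 1
    simpa using this
  have h2 : denom (Matrix.SpecialLinearGroup.toGL
      ((Matrix.SpecialLinearGroup.map (Int.castRingHom ℝ)) (ModularGroup.T ^ n))) (z : ℂ) = 1 := by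
    have := ModularGroup.denom_apply (ModularGroup.T ^ n) z
    rw [e10, e11] at this
    simpa using this
  rw [h2]
  simp

omit [NeZero N] in
theorem qd_perm_T_pow (n : ℕ) (q : Q N) :
    perm N (ModularGroup.T ^ n) q = ((perm N ModularGroup.T) ^ n) q := by
  induction n with
  | zero => simpa using perm_one q
  | succ n ih =>
    rw [pow_succ, perm_mul, ih, pow_succ', Equiv.Perm.mul_apply]

omit [NeZero N] in
/-- the conjugates are invariant under `z ↦ z + N`. -/
theorem qd_conj_vadd (hF : F ∈ R N k) (q : Q N) (z : ℍ) :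
    conj N k F q ((N : ℝ) +ᵥ z) = conj N k F q z := by
  have h1 := conj_slash hF q (ModularGroup.T ^ N)
  rw [qd_perm_T_pow, perm_T_pow] at h1
  have h2 := congrFun h1 z
  rw [qd_slash_T_pow] at h2
  exact h2

omit [NeZero N] in
/-- the conjugate at `perm N T q` is the translate by `1` of the conjugate at `q`. -/
theorem qd_conj_perm_T (hF : F ∈ R N k) (q : Q N) (z : ℍ) :
    conj N k F (perm N ModularGroup.T q) z = conj N k F q ((1 : ℝ) +ᵥ z) := by
  have h1 := conj_slash hF q ModularGroup.T
  have h2 := congrFun h1 z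
  have h3 := qd_slash_T_pow (conj N k F q) k 1 z
  simp only [pow_one, Nat.cast_one] at h3
  rw [← h2, h3]

omit [NeZero N] in
/-- the conjugates are `N`-periodic. -/
theorem qd_periodic (hF : F ∈ R N k) (q : Q N) :
    Function.Periodic (conj N k F q ∘ ofComplex) (N : ℝ) := by
  intro w
  by_cases hw : 0 < w.im
  · have hw' : 0 < (w + ((N : ℝ) : ℂ)).im := by simpa using hw
    simp only [Function.comp_apply]
    rw [ofComplex_apply_of_im_pos hw', ofComplex_apply_of_im_pos hw]
    rw [← qd_conj_vadd hF q ⟨w, hw⟩]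
    congr 1
    ext
    simp [add_comm]
  · have hw1 : w.im ≤ 0 := not_lt.mp hw
    have hw' : (w + ((N : ℝ) : ℂ)).im ≤ 0 := by simpa using hw1
    simp only [Function.comp_apply]
    rw [ofComplex_apply_of_im_nonpos hw', ofComplex_apply_of_im_nonpos hw1]

/-- the cusp function of a conjugate is analytic at `0`. -/
theorem qd_analyticAt (hF : F ∈ R N k) (q : Q N) :
    AnalyticAt ℂ (cuspFunction (N : ℝ) (conj N k F q)) 0 :=
  UpperHalfPlane.analyticAt_cuspFunction_zero (Nat.cast_pos.mpr (NeZero.pos N))
    (qd_periodic hF q) (mdiff_conj hF q) (bdd_conj hF q)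

/-- the conjugate is the sum of its `q_N`-expansion. -/
theorem qd_hasSum_qExpansion (hF : F ∈ R N k) (q : Q N) (τ : ℍ) :
    HasSum (fun m : ℕ => (qExpansion (N : ℝ) (conj N k F q)).coeff m •
      Function.Periodic.qParam (N : ℝ) τ ^ m) (conj N k F q τ) :=
  hasSum_qExpansion (Nat.cast_pos.mpr (NeZero.pos N))
    (qd_periodic hF q) (mdiff_conj hF q) (bdd_conj hF q) τ

/-! ### auxiliary lemmas: general `q`-expansions -/

/-- the limit at `i∞` is the constant coefficient. -/
theorem qd_tendsto {h : ℝ} (hh : 0 < h) (hper : Function.Periodic (G ∘ ofComplex) h)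
    (hhol : MDiff G) (hbdd : IsBoundedAtImInfty G) :
    Filter.Tendsto G atImInfty (nhds ((qExpansion h G).coeff 0)) := by
  have han := UpperHalfPlane.analyticAt_cuspFunction_zero hh hper hhol hbdd
  have hc : (qExpansion h G).coeff 0 = cuspFunction h G 0 := by
    simp [UpperHalfPlane.qExpansion_coeff]
  have hG : (cuspFunction h G ∘ fun τ : ℍ => Function.Periodic.qParam h τ : ℍ → ℂ) = G := by
    funext τ
    simpa using UpperHalfPlane.eq_cuspFunction τ hh.ne' hper
  have ht := han.continuousAt.tendsto.comp (UpperHalfPlane.qParam_tendsto_atImInfty hh)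
  rw [hG, ← hc] at ht
  exact ht

theorem qd_isZero_iff {h : ℝ} (hh : 0 < h) (hper : Function.Periodic (G ∘ ofComplex) h)
    (hhol : MDiff G) (hbdd : IsBoundedAtImInfty G) :
    IsZeroAtImInfty G ↔ (qExpansion h G).coeff 0 = 0 := by
  have ht := qd_tendsto hh hper hhol hbdd
  constructor
  · intro h0
    exact tendsto_nhds_unique ht h0
  · intro h0
    rw [h0] at ht
    exact ht

/-- vanishing of the first `n` coefficients gives exponential decay. -/
theorem qd_isBigO {h : ℝ} (hh : 0 < h) (hper : Function.Periodic (G ∘ ofComplex) h)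
    (hhol : MDiff G) (hbdd : IsBoundedAtImInfty G) (n : ℕ)
    (hc : ∀ m < n, (qExpansion h G).coeff m = 0) :
    G =O[atImInfty] fun τ : ℍ => Real.exp (-2 * Real.pi * τ.im / h) ^ n := by
  have han := UpperHalfPlane.analyticAt_cuspFunction_zero hh hper hhol hbdd
  have hps := (UpperHalfPlane.hasFPowerSeriesOnBall_cuspFunction hh han
    (fun τ => hasSum_qExpansion hh hper hhol hbdd τ)).hasFPowerSeriesAt
  have h1 := hps.isBigO_sub_partialSum_pow n
  have h2 : ∀ y : ℂ, (FormalMultilinearSeries.ofScalars ℂ
      (fun m => (qExpansion h G).coeff m)).partialSum n y = 0 := by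
    intro y
    rw [FormalMultilinearSeries.partialSum]
    refine Finset.sum_eq_zero fun m hm => ?_
    rw [FormalMultilinearSeries.ofScalars_apply_eq, hc m (Finset.mem_range.mp hm), zero_smul]
  simp only [h2, sub_zero, zero_add] at h1
  have h3 := h1.comp_tendsto (UpperHalfPlane.qParam_tendsto_atImInfty hh)
  refine h3.congr ?_ ?_
  · intro τ
    simpa using UpperHalfPlane.eq_cuspFunction τ hh.ne' hper
  · intro τ
    simp only [Function.comp_apply]
    rw [Function.Periodic.norm_qParam]
    simp

theorem qd_qExpansion_pow (hF : QExp F) (n : ℕ) :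
    qExpansion 1 (F ^ n) = (qExpansion 1 F) ^ n := by
  induction n with
  | zero => simpa using UpperHalfPlane.qExpansion_one 1
  | succ n ih => rw [pow_succ, QExp.qExpansion_mul (hF.pow n) hF, ih, pow_succ]

end Fermat.Agent.S20T
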