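import Mathlib
import Fermat.Agent.S23.QCalc
import Fermat.Agent.S20T.Basic
import Fermat.Agent.S20T.Perm
import Fermat.Agent.S20T.Conj
import Fermat.Agent.S20T.QN
import Fermat.Agent.S20T.QNDivAux

/-!
# S20T: `q_N`-expansions of the conjugates, part 2: cusp conditions, division by `Δ`,
the action of `T`
-/

set_option autoImplicit false

open UpperHalfPlane ModularFormClass CongruenceSubgroup
open scoped MatrixGroups ModularForm Manifold

namespace Fermat.Agent.S20T

open Fermat.Agent.S23L.Data (Q G0 perm cj toSL fintypeQ)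
open Fermat.Agent.S23L.Twist (QExp)

attribute [local instance] fintypeQ

variable {N : ℕ} [NeZero N] {k l : ℤ} {F G a : ℍ → ℂ}

/-- the conjugate is the sum of its `q_N`-expansion. -/
theorem qd_hasSum (hF : F ∈ R N k) (q : Q N) (τ : ℍ) :
    HasSum (fun m : ℕ => (ps N k F q).coeff m • Function.Periodic.qParam (N : ℝ) τ ^ m)
      (conj N k F q τ) :=
  qd_hasSum_qExpansion hF q τ

/-! ### the frozen statements -/

/-- `q`-expansion of a level-one form divisible by `Δ ^ j` -/
theorem qExpansion_Dl_pow_mul_coeff (ha : a ∈ A k) (j n : ℕ) (hn : n < j) :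
    (qExpansion 1 (Dl ^ j * a)).coeff n = 0 := by
  obtain ⟨f, rfl⟩ := ha
  have hD : QExp Dl := QExp.of_cusp_levelOne CuspForm.discriminant
  have hf : QExp (⇑f) := QExp.of_levelOne f
  rw [QExp.qExpansion_mul (hD.pow j) hf, qd_qExpansion_pow hD]
  have hX : PowerSeries.X ∣ qExpansion 1 Dl := by
    rw [PowerSeries.X_dvd_iff, ← PowerSeries.coeff_zero_eq_constantCoeff_apply]
    exact Fermat.Agent.S23L.Twist.qExpansion_coeff_zero_of_cusp_levelOne CuspForm.discriminant
  have hXj : PowerSeries.X ^ j ∣ (qExpansion 1 Dl) ^ j * qExpansion 1 ⇑f :=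
    Dvd.dvd.mul_right (pow_dvd_pow_of_dvd hX j) _
  exact PowerSeries.X_pow_dvd_iff.mp hXj n hn

theorem mem_A0_iff_coeff_zero (ha : a ∈ A k) : a ∈ A0 k ↔ (qExpansion 1 a).coeff 0 = 0 := by
  rw [mem_A0_iff]
  obtain ⟨f, rfl⟩ := ha
  have hf : QExp (⇑f) := QExp.of_levelOne f
  rw [← qd_isZero_iff one_pos hf.per hf.hol hf.bdd]
  exact ⟨fun h => h.2, fun h => ⟨⟨f, rfl⟩, h⟩⟩

theorem mem_S_iff_ps (hF : F ∈ R N k) : F ∈ S N k ↔ ∀ q : Q N, (ps N k F q).coeff 0 = 0 := by
  rw [mem_S_iff_conj hF]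
  refine forall_congr' fun q => ?_
  exact qd_isZero_iff (Nat.cast_pos.mpr (NeZero.pos N)) (qd_periodic hF q) (mdiff_conj hF q)
    (bdd_conj hF q)

/-- division by `Δ`: if all conjugates vanish to order `≥ N` in `q_N`, then `F ∈ Δ · R`. -/
theorem div_Dl_of_ps (hF : F ∈ R N k) (h : ∀ q : Q N, ∀ n : ℕ, n < N → (ps N k F q).coeff n = 0) :
    ∃ F' ∈ R N (k - 12), F = Dl * F' := by
  have hN : (0 : ℝ) < N := Nat.cast_pos.mpr (NeZero.pos N)
  have hD : Dl ∈ A 12 := A0_le_A 12 Dl_mem_A0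
  refine ⟨F / Dl, ?_, ?_⟩
  · refine mem_R_of_invariant ?_ ?_ ?_
    · exact (mdiff_of_mem_R hF).div CuspForm.discriminant.holo' Dl_ne_zero
    · intro γ hγ
      rw [ModularForm.div_slash_SL2, slash_of_mem_R hF γ hγ, slash_of_mem_A hD γ]
    · intro γ
      rw [ModularForm.div_slash_SL2, slash_of_mem_A hD γ]
      obtain ⟨q, hq⟩ := exists_slash_eq_conj hF γ
      rw [hq]
      have h1 := qd_isBigO hN (qd_periodic hF q) (mdiff_conj hF q) (bdd_conj hF q) N (h q)
      have h2 : (fun τ : ℍ => Real.exp (-2 * Real.pi * τ.im / N) ^ N)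
          = fun τ : ℍ => Real.exp (-2 * Real.pi * τ.im) := by
        funext τ
        rw [← Real.exp_nat_mul]
        congr 1
        field_simp
      rw [h2] at h1
      have h3 := h1.trans ModularForm.exp_isBigO_discriminant
      exact (Asymptotics.div_isBoundedUnder_of_isBigO h3).isBigO_one ℝ
  · funext z
    simp [mul_div_cancel₀ _ (Dl_ne_zero z)]

/-- conversely, the expansions of `Δ * F'` vanish to order `≥ N`. -/
theorem ps_Dl_mul_coeff {F' : ℍ → ℂ} (hF' : F' ∈ R N (k - 12)) (q : Q N) (n : ℕ) (hn : n < N) :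
    (ps N k (Dl * F') q).coeff n = 0 := by
  have hD : Dl ∈ A 12 := A0_le_A 12 Dl_mem_A0
  have hDR : Dl ∈ R N 12 := A_le_R N 12 hD
  have h1 : ps N k (Dl * F') q = ps N 12 Dl q * ps N (k - 12) F' q := by
    have := ps_mul hDR hF' q
    rwa [show (12 : ℤ) + (k - 12) = k by ring] at this
  rw [h1]
  have hX : PowerSeries.X ^ N ∣ ps N 12 Dl q := by
    rw [PowerSeries.X_pow_dvd_iff]
    intro m hm
    rcases Nat.eq_zero_or_pos m with rfl | hpos
    · have := ps_of_mem_A_coeff_mul (N := N) hD q 0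
      rw [mul_zero] at this
      rw [this]
      exact Fermat.Agent.S23L.Twist.qExpansion_coeff_zero_of_cusp_levelOne CuspForm.discriminant
    · exact ps_of_mem_A_coeff_of_not_dvd hD q m (Nat.not_dvd_of_pos_of_lt hpos hm)
  exact PowerSeries.X_pow_dvd_iff.mp (Dvd.dvd.mul_right hX _) n hn

/-- the effect of `T : z ↦ z + 1` on the expansions. -/
theorem ps_perm_T_coeff (hF : F ∈ R N k) (q : Q N) (n : ℕ) :
    (ps N k F (perm N ModularGroup.T q)).coeff n
      = Complex.exp (2 * Real.pi * Complex.I * n / N) * (ps N k F q).coeff n := by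
  have hN : (0 : ℝ) < N := Nat.cast_pos.mpr (NeZero.pos N)
  have hN0 : (N : ℂ) ≠ 0 := Nat.cast_ne_zero.mpr (NeZero.ne N)
  have hsum : ∀ τ : ℍ, HasSum (fun m : ℕ =>
      (Complex.exp (2 * Real.pi * Complex.I * m / N) * (ps N k F q).coeff m) •
        Function.Periodic.qParam (N : ℝ) τ ^ m) (conj N k F (perm N ModularGroup.T q) τ) := by
    intro τ
    rw [qd_conj_perm_T hF q τ]
    have h1 := qd_hasSum hF q ((1 : ℝ) +ᵥ τ)
    have h2 : Function.Periodic.qParam (N : ℝ) (((1 : ℝ) +ᵥ τ : ℍ) : ℂ)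
        = Complex.exp (2 * Real.pi * Complex.I / N) * Function.Periodic.qParam (N : ℝ) τ := by
      rw [Function.Periodic.qParam, Function.Periodic.qParam, ← Complex.exp_add]
      congr 1
      rw [UpperHalfPlane.coe_vadd]
      push_cast
      field_simp
    have h3 : (fun m : ℕ =>
        (Complex.exp (2 * Real.pi * Complex.I * m / N) * (ps N k F q).coeff m) •
          Function.Periodic.qParam (N : ℝ) τ ^ m)
        = fun m : ℕ => (ps N k F q).coeff m •
          Function.Periodic.qParam (N : ℝ) (((1 : ℝ) +ᵥ τ : ℍ) : ℂ) ^ m := by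
      funext m
      rw [h2, mul_pow, ← Complex.exp_nat_mul]
      simp only [smul_eq_mul]
      rw [show (m : ℂ) * (2 * Real.pi * Complex.I / N) = 2 * Real.pi * Complex.I * m / N by ring]
      ring
    rw [h3]
    exact h1
  have key := UpperHalfPlane.qExpansion_coeff_unique
    (ContinuousMap.mk (conj N k F (perm N ModularGroup.T q))
      (mdiff_conj hF (perm N ModularGroup.T q)).continuous) hN
    (qd_analyticAt hF (perm N ModularGroup.T q)) hsum n
  exact key.symm

end Fermat.Agent.S20T
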