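import Mathlib
import Fermat.Agent.S20T.Basic
import Fermat.Agent.S20T.Dim
import Fermat.Agent.S20T.Conj
import Fermat.Agent.S20T.Free
import Fermat.Agent.S20T.QN
import Fermat.Agent.S20T.QNDiv
import Fermat.Agent.S20T.Perm
import Fermat.Agent.S20T.PermEigen

/-!
# S20T: `dim R N k - dim S N k` is the number of cusps, for large even `k`

Strategy.  For `F ∈ R N k` consider the principal parts
`cd_P N k F (q, n) = (ps N k F q).coeff n` (`q : Q N`, `n < N`).

* The kernel of `cd_P N k` is contained in `Δ · R N (k - 12)` (`div_Dl_of_ps`), so the rank of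
  `cd_P N k` is at least `dim R N k - dim R N (k - 12)`, which is `|B.ι| = |Q N|` for large
  even `k` (`Basis.finrank_R`, `finrank_A_add_twelve`).
* The range of `cd_P N k` lies in the space `cd_W N (perm N T)` of vectors `v` with
  `v (T q, n) = exp (2πi n / N) * v (q, n)` (`ps_perm_T_coeff`).
* `dim cd_W N σ ≤ |Q N|` for every permutation `σ`: the map `v ↦ (q ↦ ∑ n, v (q, n))` is
  injective on `cd_W N σ` (evaluate at `σ ^ j q`, `j < N`, and use that a Vandermonde matrix
  with distinct nodes is invertible).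
* Hence `cd_P N k` maps onto `cd_W N (perm N T)`; the constant-term map `cd_C N k` has
  kernel `S N k` (`mem_S_iff_ps`) and range the `perm N T`-invariant functions on `Q N`,
  whose dimension is the number of `T`-orbits (`finrank_permEigen_one_eq_card_orbits`).
-/

set_option autoImplicit false

open UpperHalfPlane ModularFormClass CongruenceSubgroup
open scoped MatrixGroups ModularForm Manifold

namespace Fermat.Agent.S20T

open Fermat.Agent.S23L.Data (Q G0 perm cj toSL fintypeQ)

attribute [local instance] fintypeQ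

/-! ### linear algebra: the space of twisted-invariant vectors -/

section LinAlg

variable {X : Type*}

/-- the character `n ↦ exp (2πi n / N)` -/
noncomputable def cd_chi (N n : ℕ) : ℂ := Complex.exp (2 * Real.pi * Complex.I * n / N)

theorem cd_chi_zero (N : ℕ) : cd_chi N 0 = 1 := by simp [cd_chi]

theorem cd_chi_eq_pow (N n : ℕ) :
    cd_chi N n = Complex.exp (2 * Real.pi * Complex.I / N) ^ n := by
  rw [cd_chi, ← Complex.exp_nat_mul]
  congr 1
  ring

theorem cd_chi_injective (N : ℕ) [NeZero N] :
    Function.Injective (fun n : Fin N => cd_chi N n) := by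
  intro a b h
  have hprim := Complex.isPrimitiveRoot_exp N (NeZero.ne N)
  simp only [cd_chi_eq_pow] at h
  exact Fin.ext (hprim.pow_inj a.2 b.2 h)

/-- the space `W` of vectors `v` with `v (σ q, n) = exp (2πi n / N) * v (q, n)` -/
noncomputable def cd_W (N : ℕ) (σ : Equiv.Perm X) : Submodule ℂ (X × Fin N → ℂ) where
  carrier := {v | ∀ q n, v (σ q, n) = cd_chi N n * v (q, n)}
  zero_mem' := fun q n => by simp
  add_mem' := by
    intro v w hv hw q n
    simp only [Pi.add_apply, hv q n, hw q n, mul_add]
  smul_mem' := by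
    intro c v hv q n
    simp only [Pi.smul_apply, smul_eq_mul, hv q n]
    ring

theorem cd_mem_W {N : ℕ} {σ : Equiv.Perm X} {v : X × Fin N → ℂ} :
    v ∈ cd_W N σ ↔ ∀ q n, v (σ q, n) = cd_chi N n * v (q, n) := Iff.rfl

theorem cd_mem_W_pow {N : ℕ} {σ : Equiv.Perm X} {v : X × Fin N → ℂ} (hv : v ∈ cd_W N σ)
    (j : ℕ) (q : X) (n : Fin N) :
    v ((σ ^ j) q, n) = cd_chi N n ^ j * v (q, n) := by
  induction j with
  | zero => simp
  | succ j ih =>
    rw [pow_succ', Equiv.Perm.mul_apply, hv, ih]
    ring

/-- `dim W ≤ |X|`: the map `v ↦ (q ↦ ∑ n, v (q, n))` is injective on `W`. -/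
theorem cd_finrank_W_le [Fintype X] (N : ℕ) [NeZero N] (σ : Equiv.Perm X) :
    Module.finrank ℂ (cd_W N σ) ≤ Fintype.card X := by
  classical
  let Φ : cd_W N σ →ₗ[ℂ] (X → ℂ) :=
    { toFun := fun v q => ∑ n : Fin N, v.1 (q, n)
      map_add' := by
        intro v w
        funext q
        simp [Finset.sum_add_distrib]
      map_smul' := by
        intro c v
        funext q
        simp [Finset.mul_sum] }
  have hinj : Function.Injective Φ := by
    rw [injective_iff_map_eq_zero]
    intro v hv
    have hv' : ∀ q, ∑ n : Fin N, v.1 (q, n) = 0 := fun q => congrFun hv q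
    have hdet : (Matrix.vandermonde (fun n : Fin N => cd_chi N n)).det ≠ 0 :=
      Matrix.det_vandermonde_ne_zero_iff.mpr (cd_chi_injective N)
    have hz : ∀ q, (fun n : Fin N => v.1 (q, n)) = 0 := by
      intro q
      apply Matrix.eq_zero_of_vecMul_eq_zero hdet
      funext j
      have := hv' ((σ ^ (j : ℕ)) q)
      simp only [cd_mem_W_pow v.2] at this
      simp only [Matrix.vecMul, dotProduct, Matrix.vandermonde_apply, Pi.zero_apply]
      rw [← this]
      exact Finset.sum_congr rfl fun n _ => mul_comm _ _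
    ext ⟨q, n⟩
    exact congrFun (hz q) n
  calc Module.finrank ℂ (cd_W N σ) ≤ Module.finrank ℂ (X → ℂ) :=
        LinearMap.finrank_le_finrank_of_injective hinj
    _ = Fintype.card X := Module.finrank_fintype_fun_eq_card ℂ

end LinAlg

variable {N : ℕ} [NeZero N] (B : Basis N)

/-! ### principal parts -/

/-- the principal-part map: the first `N` coefficients of the `q_N`-expansions of all
conjugates. -/
noncomputable def cd_P (N : ℕ) [NeZero N] (k : ℤ) : R N k →ₗ[ℂ] (Q N × Fin N → ℂ) where
  toFun F := fun x => (ps N k F.1 x.1).coeff x.2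
  map_add' F G := by
    funext x
    simp [ps_add F.2 G.2]
  map_smul' c F := by
    funext x
    simp [ps_smul F.2 c]

theorem cd_P_apply (k : ℤ) (F : R N k) (q : Q N) (n : Fin N) :
    cd_P N k F (q, n) = (ps N k F.1 q).coeff n := rfl

/-- multiplication by `Δ`, as a linear map `R N (k - 12) → R N k` -/
noncomputable def cd_M (N : ℕ) [NeZero N] (k : ℤ) : R N (k - 12) →ₗ[ℂ] R N k where
  toFun F := ⟨Dl * F.1, R_cast (by ring) (R_mul (A_le_R N 12 (A0_le_A 12 Dl_mem_A0)) F.2)⟩
  map_add' F G := by
    apply Subtype.ext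
    simp [mul_add]
  map_smul' c F := by
    apply Subtype.ext
    simp

theorem cd_ker_P_le (k : ℤ) : LinearMap.ker (cd_P N k) ≤ LinearMap.range (cd_M N k) := by
  intro F hF
  rw [LinearMap.mem_ker] at hF
  obtain ⟨F', hF', h⟩ := div_Dl_of_ps F.2 (fun q n hn => by
    have := congrFun hF (q, ⟨n, hn⟩)
    simpa [cd_P_apply] using this)
  exact ⟨⟨F', hF'⟩, Subtype.ext h.symm⟩

theorem cd_range_P_le (k : ℤ) :
    LinearMap.range (cd_P N k) ≤ cd_W N (perm N ModularGroup.T) := by
  rintro _ ⟨F, rfl⟩ q n
  rw [cd_P_apply, cd_P_apply, ps_perm_T_coeff F.2, cd_chi]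

/-- `dim R N k - dim R N (k - 12) = |B.ι|` for large even `k`. -/
theorem cd_finrank_R (k : ℤ) (hk : ∀ i, 12 + B.d i ≤ k) (he : Even k) :
    Module.finrank ℂ (R N k) = Module.finrank ℂ (R N (k - 12)) + Fintype.card B.ι := by
  rw [B.finrank_R k, B.finrank_R (k - 12), Fintype.card_eq_sum_ones, ← Finset.sum_add_distrib]
  refine Finset.sum_congr rfl fun i _ => ?_
  have h1 : k - B.d i = (k - 12 - B.d i) + 12 := by ring
  rw [h1, finrank_A_add_twelve (by linarith [hk i])
    ((he.sub (by decide : Even (12 : ℤ))).sub (B.d_even i))]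

/-- for large even `k`, the principal-part map is onto `W`. -/
theorem cd_range_P (hcard : Fintype.card B.ι = Fintype.card (Q N)) (k : ℤ)
    (hk : ∀ i, 12 + B.d i ≤ k) (he : Even k) :
    LinearMap.range (cd_P N k) = cd_W N (perm N ModularGroup.T) := by
  apply Submodule.eq_of_le_of_finrank_le (cd_range_P_le k)
  have h1 := LinearMap.finrank_range_add_finrank_ker (cd_P N k)
  have h2 : Module.finrank ℂ (LinearMap.ker (cd_P N k)) ≤ Module.finrank ℂ (R N (k - 12)) :=
    (Submodule.finrank_mono (cd_ker_P_le k)).trans (LinearMap.finrank_range_le _)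
  have h3 := cd_finrank_R B k hk he
  have h4 := cd_finrank_W_le N (perm N ModularGroup.T)
  omega

/-! ### constant terms -/

/-- the constant-term map -/
noncomputable def cd_C (N : ℕ) [NeZero N] (k : ℤ) : R N k →ₗ[ℂ] (Q N → ℂ) where
  toFun F := fun q => (ps N k F.1 q).coeff 0
  map_add' F G := by
    funext x
    simp [ps_add F.2 G.2]
  map_smul' c F := by
    funext x
    simp [ps_smul F.2 c]

theorem cd_C_apply (k : ℤ) (F : R N k) (q : Q N) :
    cd_C N k F q = (ps N k F.1 q).coeff 0 := rfl

theorem cd_ker_C (k : ℤ) :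
    LinearMap.ker (cd_C N k) = (S N k).comap (R N k).subtype := by
  ext F
  rw [LinearMap.mem_ker, Submodule.mem_comap, Submodule.subtype_apply, mem_S_iff_ps F.2]
  constructor
  · intro h q
    exact congrFun h q
  · intro h
    funext q
    exact h q

/-- for large even `k`, the constant terms are exactly the `T`-invariant functions. -/
theorem cd_range_C (hcard : Fintype.card B.ι = Fintype.card (Q N)) (k : ℤ)
    (hk : ∀ i, 12 + B.d i ≤ k) (he : Even k) :
    LinearMap.range (cd_C N k) = permEigen (perm N ModularGroup.T) 1 := by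
  apply le_antisymm
  · rintro _ ⟨F, rfl⟩ q
    rw [cd_C_apply, cd_C_apply, ps_perm_T_coeff F.2]
    simp
  · intro u hu
    have hv : (fun x : Q N × Fin N => if x.2 = 0 then u x.1 else 0)
        ∈ cd_W N (perm N ModularGroup.T) := by
      intro q n
      by_cases hn : n = 0
      · subst hn
        simp [cd_chi_zero, hu q]
      · simp [hn]
    rw [← cd_range_P B hcard k hk he] at hv
    obtain ⟨F, hF⟩ := hv
    refine ⟨F, ?_⟩
    funext q
    have := congrFun hF (q, 0)
    simpa [cd_P_apply, cd_C_apply] using this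

theorem Basis.exists_finrank_R_eq (hcard : Fintype.card B.ι = Fintype.card (Q N)) :
    ∃ k₀ : ℤ, ∀ k : ℤ, k₀ ≤ k → Even k →
      Module.finrank ℂ (R N k) = Module.finrank ℂ (S N k)
        + Nat.card (MulAction.orbitRel.Quotient (Subgroup.zpowers (perm N ModularGroup.T))
            (Q N)) := by
  refine ⟨12 + ∑ i, |B.d i|, fun k hk he => ?_⟩
  have hk' : ∀ i, 12 + B.d i ≤ k := by
    intro i
    have h1 : |B.d i| ≤ ∑ j, |B.d j| :=
      Finset.single_le_sum (f := fun j => |B.d j|) (fun j _ => abs_nonneg _) (Finset.mem_univ i)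
    have h2 := le_abs_self (B.d i)
    linarith
  have h1 := LinearMap.finrank_range_add_finrank_ker (cd_C N k)
  rw [cd_range_C B hcard k hk' he, cd_ker_C k,
    (Submodule.comapSubtypeEquivOfLe (S_le_R N k)).finrank_eq,
    finrank_permEigen_one_eq_card_orbits] at h1
  omega

end Fermat.Agent.S20T
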