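import Mathlib
import Fermat.Agent.S20T.Basic
import Fermat.Agent.S20T.Conj
import Fermat.Agent.S20T.QN
import Fermat.Agent.S20T.QNDiv

/-!
# S20T: the valuation argument at the cusps
-/

set_option autoImplicit false

open UpperHalfPlane ModularFormClass CongruenceSubgroup
open scoped MatrixGroups ModularForm Manifold

namespace Fermat.Agent.S20T

open Fermat.Agent.S23L.Data (Q G0 perm cj toSL fintypeQ)

attribute [local instance] fintypeQ

/-! ### power series algebra -/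

/-- Coefficients of a power of a power series whose coefficients below `ν` vanish. -/
theorem cs_coeff_pow (P : PowerSeries ℂ) (ν : ℕ)
    (hP : ∀ i, i < ν → PowerSeries.coeff i P = 0) (m : ℕ) :
    (∀ i, i < m * ν → PowerSeries.coeff i (P ^ m) = 0) ∧
      PowerSeries.coeff (m * ν) (P ^ m) = (PowerSeries.coeff ν P) ^ m := by
  obtain ⟨P', rfl⟩ := PowerSeries.X_pow_dvd_iff.mpr hP
  have e : (PowerSeries.X ^ ν * P') ^ m = PowerSeries.X ^ (m * ν) * P' ^ m := by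
    rw [mul_pow, ← pow_mul, mul_comm ν m]
  rw [e]
  refine ⟨fun i hi => ?_, ?_⟩
  · rw [PowerSeries.coeff_X_pow_mul', if_neg (not_le.mpr hi)]
  · rw [PowerSeries.coeff_X_pow_mul', if_pos le_rfl, PowerSeries.coeff_X_pow_mul',
      if_pos le_rfl, Nat.sub_self, Nat.sub_self, PowerSeries.coeff_zero_eq_constantCoeff_apply,
      PowerSeries.coeff_zero_eq_constantCoeff_apply, map_pow]

variable {N : ℕ} [NeZero N] {k : ℤ} {g : ℍ → ℂ}

/-- The `q_N`-expansion of `Δ` (at any coset) has order exactly `N`. -/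
theorem cs_ps_Dl_order (q : Q N) : (ps N 12 Dl q).order = N := by
  have hD : Dl ∈ A 12 := A0_le_A 12 Dl_mem_A0
  have hord := PowerSeries.order_eq_nat.mp ModularForm.discriminant_qExpansion_order
  rw [PowerSeries.order_eq_nat]
  constructor
  · have h1 := ps_of_mem_A_coeff_mul hD q 1
    rw [mul_one] at h1
    rw [h1]
    exact hord.1
  · intro i hi
    rcases Nat.eq_zero_or_pos i with rfl | hi0
    · have h0 := ps_of_mem_A_coeff_mul hD q 0
      rw [mul_zero] at h0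
      rw [h0]
      exact hord.2 0 one_pos
    · exact ps_of_mem_A_coeff_of_not_dvd hD q i (Nat.not_dvd_of_pos_of_lt hi0 hi)

/-- Iterated division by `Δ`: if all conjugates vanish to order `≥ N * j` in `q_N`, then
`F ∈ Δ ^ j · R`. -/
theorem cs_div_Dl_pow (j : ℕ) : ∀ (k : ℤ) (F : ℍ → ℂ), F ∈ R N k →
    (∀ q : Q N, ∀ n : ℕ, n < N * j → (ps N k F q).coeff n = 0) →
    ∃ F' ∈ R N (k - 12 * j), F = Dl ^ j * F' := by
  induction j with
  | zero =>
    intro k F hF _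
    exact ⟨F, R_cast (by rw [Nat.cast_zero, mul_zero, sub_zero]) hF, by rw [pow_zero, one_mul]⟩
  | succ j ih =>
    intro k F hF h
    obtain ⟨F₁, hF₁, rfl⟩ := div_Dl_of_ps hF
      (fun q n hn => h q n (lt_of_lt_of_le hn (Nat.le_mul_of_pos_right N (Nat.succ_pos j))))
    have hD : Dl ∈ R N 12 := A_le_R N 12 (A0_le_A 12 Dl_mem_A0)
    have key : ∀ q : Q N, ∀ n : ℕ, n < N * j → (ps N (k - 12) F₁ q).coeff n = 0 := by
      intro q n hn
      apply PowerSeries.coeff_of_lt_order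
      have e1 : ps N k (Dl * F₁) q = ps N 12 Dl q * ps N (k - 12) F₁ q := by
        rw [← ps_mul hD hF₁ q]
        congr 1
        ring
      have e2 : ((N * (j + 1) : ℕ) : ℕ∞) ≤ (ps N k (Dl * F₁) q).order :=
        PowerSeries.nat_le_order _ _ (h q)
      rw [e1, PowerSeries.order_mul, cs_ps_Dl_order] at e2
      rcases eq_or_ne (ps N (k - 12) F₁ q).order ⊤ with htop | htop
      · rw [htop]
        exact ENat.natCast_lt_top n
      · lift (ps N (k - 12) F₁ q).order to ℕ using htop with o ho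
        norm_cast at e2 ⊢
        rw [Nat.mul_succ] at e2
        omega
    obtain ⟨F', hF', rfl⟩ := ih (k - 12) F₁ hF₁ key
    exact ⟨F', R_cast (by push_cast; ring) hF', by ring⟩

/-- If `Tr(r g)` is a cusp form for every `r ∈ R`, then `g` is a cusp form. -/
theorem cuspidal_of_trace (hg : g ∈ R N k)
    (h : ∀ (l : ℤ) (r : ℍ → ℂ), r ∈ R N l → tr N (l + k) (r * g) ∈ A0 (l + k)) : g ∈ S N k := by
  rw [mem_S_iff_ps hg]
  -- all power sums of the constant coefficients vanish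
  have key : ∀ m : ℕ, 1 ≤ m → ∑ q : Q N, ((ps N k g q).coeff 0) ^ m = 0 := by
    intro m hm
    obtain ⟨m', rfl⟩ : ∃ m', m = m' + 1 := ⟨m - 1, by omega⟩
    have h1 := h (m' * k) (g ^ m') (R_pow hg m')
    have h2 : g ^ m' * g ∈ R N (m' * k + k) := R_mul (R_pow hg m') hg
    have h3 := (mem_A0_iff_coeff_zero (A0_le_A _ h1)).mp h1
    have h4 := sum_ps_coeff_mul h2 0
    rw [h3] at h4
    rw [← h4]
    refine Finset.sum_congr rfl fun q _ => ?_
    rw [mul_zero, ps_mul (R_pow hg m') hg q, ps_pow hg m' q,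
      PowerSeries.coeff_zero_eq_constantCoeff_apply, PowerSeries.coeff_zero_eq_constantCoeff_apply,
      map_mul, map_pow, pow_succ]
  exact eq_zero_of_psum_eq_zero (fun q => (ps N k g q).coeff 0) (fun m hm _ => key m hm)

/-- If `Tr(r g) ∈ Δ² A` for every `r ∈ R`, then `g ∈ Δ R`. -/
theorem div_Dl_of_trace (hg : g ∈ R N k)
    (h : ∀ (l : ℤ) (r : ℍ → ℂ), r ∈ R N l →
      ∃ b ∈ A (l + k - 24), tr N (l + k) (r * g) = Dl ^ 2 * b) :
    ∃ g' ∈ R N (k - 12), g = Dl * g' := by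
  by_cases hg0 : g = 0
  · exact ⟨0, Submodule.zero_mem _, by rw [hg0, mul_zero]⟩
  -- the minimal order `ν` of the expansions of the conjugates
  have hex : ∃ n : ℕ, ∃ q : Q N, (ps N k g q).coeff n ≠ 0 := by
    have hne : ps N k g ((1 : 𝒮ℒ) : Q N) ≠ 0 := fun h0 => hg0 ((ps_eq_zero_iff hg _).mp h0)
    obtain ⟨n, hn⟩ := PowerSeries.exists_coeff_ne_zero_iff_ne_zero.mpr hne
    exact ⟨n, _, hn⟩
  classical
  obtain ⟨ν, ⟨q₀, hq₀⟩, hmin⟩ : ∃ ν : ℕ, (∃ q : Q N, (ps N k g q).coeff ν ≠ 0) ∧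
      ∀ i, i < ν → ¬ ∃ q : Q N, (ps N k g q).coeff i ≠ 0 :=
    ⟨Nat.find hex, Nat.find_spec hex, fun i hi => Nat.find_min hex hi⟩
  have hlow : ∀ q : Q N, ∀ i, i < ν → (ps N k g q).coeff i = 0 := by
    intro q i hi
    by_contra hne
    exact hmin i hi ⟨q, hne⟩
  by_cases hνN : N ≤ ν
  · exact div_Dl_of_ps hg (fun q n hn => hlow q n (lt_of_lt_of_le hn hνN))
  exfalso
  rw [not_le] at hνN
  -- choose `m` with nonvanishing power sum of the leading coefficients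
  obtain ⟨m, hm1, hm⟩ : ∃ m : ℕ, 1 ≤ m ∧ ∑ q : Q N, ((ps N k g q).coeff ν) ^ m ≠ 0 := by
    by_contra hcon
    refine hq₀ (eq_zero_of_psum_eq_zero (fun q => (ps N k g q).coeff ν)
      (fun m hm _ => ?_) q₀)
    by_contra hne
    exact hcon ⟨m, hm, hne⟩
  obtain ⟨m', rfl⟩ : ∃ m', m = m' + 1 := ⟨m - 1, by omega⟩
  -- the coefficient of `X ^ (m ν)` in the expansion of the trace of `g ^ m`
  have hgm : g ^ (m' + 1) ∈ R N (((m' + 1 : ℕ) : ℤ) * k) := R_pow hg (m' + 1)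
  have hsum : ∑ q : Q N,
      (ps N (((m' + 1 : ℕ) : ℤ) * k) (g ^ (m' + 1)) q).coeff ((m' + 1) * ν) ≠ 0 := by
    have e : ∑ q : Q N, (ps N (((m' + 1 : ℕ) : ℤ) * k) (g ^ (m' + 1)) q).coeff ((m' + 1) * ν)
        = ∑ q : Q N, ((ps N k g q).coeff ν) ^ (m' + 1) :=
      Finset.sum_congr rfl fun q _ => by
        rw [ps_pow hg (m' + 1) q, (cs_coeff_pow _ ν (hlow q) (m' + 1)).2]
    rw [e]
    exact hm
  have hdvd : N ∣ (m' + 1) * ν := by
    by_contra hnd
    exact hsum (sum_ps_coeff_of_not_dvd hgm _ hnd)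
  obtain ⟨t, ht⟩ := hdvd
  have hcoeff : (qExpansion 1 (tr N (((m' + 1 : ℕ) : ℤ) * k) (g ^ (m' + 1)))).coeff t ≠ 0 := by
    rw [← sum_ps_coeff_mul hgm t, ← ht]
    exact hsum
  -- divide `g ^ (m - 1)` by a power of `Δ`
  have hlow' : ∀ q : Q N, ∀ n : ℕ, n < N * (m' * ν / N) →
      (ps N ((m' : ℤ) * k) (g ^ m') q).coeff n = 0 := by
    intro q n hn
    rw [ps_pow hg m' q]
    exact (cs_coeff_pow _ ν (hlow q) m').1 n (lt_of_lt_of_le hn (Nat.mul_div_le _ _))
  obtain ⟨r, hr, hgr⟩ := cs_div_Dl_pow (m' * ν / N) _ _ (R_pow hg m') hlow'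
  obtain ⟨b, hb, hrb⟩ := h _ r hr
  have htr : tr N (((m' + 1 : ℕ) : ℤ) * k) (g ^ (m' + 1)) = Dl ^ (m' * ν / N + 2) * b := by
    have hDj : Dl ^ (m' * ν / N) ∈ A (((m' * ν / N : ℕ) : ℤ) * 12) :=
      A_pow (A0_le_A 12 Dl_mem_A0) _
    rw [tr_cast (show ((m' + 1 : ℕ) : ℤ) * k
        = ((m' * ν / N : ℕ) : ℤ) * 12 + ((m' : ℤ) * k - 12 * ((m' * ν / N : ℕ) : ℤ) + k) by
          push_cast; ring),
      pow_succ, hgr, mul_assoc, tr_A_mul hDj, hrb, pow_add, mul_assoc]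
  have htj : m' * ν / N + 2 ≤ t := by
    by_contra hlt
    rw [not_le] at hlt
    exact hcoeff (by rw [htr]; exact qExpansion_Dl_pow_mul_coeff hb _ t hlt)
  -- arithmetic
  have h1 : m' * ν < N * (m' * ν / N + 1) :=
    Nat.lt_mul_div_succ (m' * ν) (Nat.pos_of_ne_zero (NeZero.ne N))
  have h2 : N * (m' * ν / N + 2) ≤ N * t := Nat.mul_le_mul_left N htj
  have h3 : (m' + 1) * ν = m' * ν + ν := by ring
  have h4 : N * (m' * ν / N + 2) = N * (m' * ν / N) + 2 * N := by ring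
  have h5 : N * (m' * ν / N + 1) = N * (m' * ν / N) + N := by ring
  linarith

end Fermat.Agent.S20T
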