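import Mathlib
import Fermat.Agent.S20T.Basic
import Fermat.Agent.S20T.Conj
import Fermat.Agent.S20T.LevelOne
import Fermat.Agent.S20T.Division
import Fermat.Agent.S20T.Free

/-!
# S20T: the Gram matrix of the trace form
-/

set_option autoImplicit false

open UpperHalfPlane ModularFormClass CongruenceSubgroup
open scoped MatrixGroups ModularForm Manifold

namespace Fermat.Agent.S20T

open Fermat.Agent.S23L.Data (Q G0 perm cj toSL fintypeQ)

attribute [local instance] fintypeQ

/-! ### determinants of matrices of level-one forms with "bihomogeneous" weights -/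

/-- A product of level-one forms over a `Finset` is a level-one form; the weights add up. -/
theorem gm_prod_mem {ι : Type*} (s : Finset ι) (F : ι → ℍ → ℂ) (w : ι → ℤ)
    (h : ∀ i ∈ s, F i ∈ A (w i)) : ∏ i ∈ s, F i ∈ A (∑ i ∈ s, w i) := by
  classical
  induction s using Finset.induction_on with
  | empty =>
    rw [Finset.prod_empty, Finset.sum_empty]
    exact one_mem_A
  | insert a s ha ih =>
    rw [Finset.prod_insert ha, Finset.sum_insert ha]
    exact A_mul (h a (Finset.mem_insert_self a s))
      (ih fun i hi => h i (Finset.mem_insert_of_mem hi))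

/-- Multiplying by a sign does not leave `A k`. -/
theorem gm_units_smul_mem {k : ℤ} {F : ℍ → ℂ} (ε : ℤˣ) (hF : F ∈ A k) : ε • F ∈ A k := by
  rcases Int.units_eq_one_or ε with rfl | rfl
  · rw [one_smul]
    exact hF
  · rw [Units.neg_smul, one_smul]
    exact (A k).neg_mem hF

/-- If the entries `M i j` of a square matrix are level-one forms of weight `u i + v j`, then
`det M` is a level-one form of weight `∑ u + ∑ v`. -/
theorem gm_det_mem {ι : Type*} [Fintype ι] [DecidableEq ι] (M : Matrix ι ι (ℍ → ℂ))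
    (u v : ι → ℤ) (h : ∀ i j, M i j ∈ A (u i + v j)) :
    M.det ∈ A (∑ i, u i + ∑ i, v i) := by
  rw [Matrix.det_apply]
  refine Submodule.sum_mem _ fun σ _ => gm_units_smul_mem _ ?_
  have h1 : ∏ i, M (σ i) i ∈ A (∑ i, (u (σ i) + v i)) :=
    gm_prod_mem _ _ _ fun i _ => h (σ i) i
  have h2 : ∑ i, (u (σ i) + v i) = ∑ i, u i + ∑ i, v i := by
    rw [Finset.sum_add_distrib, Equiv.sum_comp σ u]
  exact A_cast h2 h1

/-- If the entries `M i j` of a square matrix are level-one forms of weight `u i + v j`, then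
the entry `(i, j)` of the adjugate is a level-one form of weight `∑ u + ∑ v - u j - v i`. -/
theorem gm_adjugate_mem {ι : Type*} [Fintype ι] [DecidableEq ι] (M : Matrix ι ι (ℍ → ℂ))
    (u v : ι → ℤ) (h : ∀ i j, M i j ∈ A (u i + v j)) (i j : ι) :
    M.adjugate i j ∈ A (∑ l, u l + ∑ l, v l - u j - v i) := by
  rw [Matrix.adjugate_apply]
  have key : (M.updateRow j (Pi.single i 1)).det ∈
      A (∑ l, Function.update u j (-v i) l + ∑ l, v l) := by
    refine gm_det_mem _ _ _ fun a b => ?_
    by_cases ha : a = j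
    · subst ha
      rw [Matrix.updateRow_self, Function.update_self]
      by_cases hb : b = i
      · subst hb
        rw [Pi.single_eq_same]
        exact A_cast (by ring) one_mem_A
      · rw [Pi.single_eq_of_ne hb]
        exact (A _).zero_mem
    · rw [Matrix.updateRow_ne ha, Function.update_of_ne ha]
      exact h a b
  refine A_cast ?_ key
  have h1 : ∑ l, Function.update u j (-v i) l = -v i + ∑ l ∈ Finset.univ \ {j}, u l :=
    Finset.sum_update_of_mem (Finset.mem_univ j) u (-v i)
  have h2 : ∑ l, u l = u j + ∑ l ∈ Finset.univ \ {j}, u l := by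
    rw [Finset.sdiff_singleton_eq_erase, Finset.add_sum_erase _ _ (Finset.mem_univ j)]
  rw [h1, h2]
  ring

variable {N : ℕ} [NeZero N]

namespace Basis

variable (B : Basis N)

/-- The Gram matrix `Tr(r_i r_j)`. -/
noncomputable def gram : Matrix B.ι B.ι (ℍ → ℂ) :=
  fun i j => tr N (B.d i + B.d j) (B.r i * B.r j)

theorem gram_apply (i j : B.ι) : B.gram i j = tr N (B.d i + B.d j) (B.r i * B.r j) := rfl

theorem gram_mem (i j : B.ι) : B.gram i j ∈ A (B.d i + B.d j) :=
  tr_mem_A (R_mul (B.mem i) (B.mem j))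

theorem gram_symm (i j : B.ι) : B.gram i j = B.gram j i := by
  rw [gram_apply, gram_apply, mul_comm (B.r i) (B.r j), tr_cast (add_comm (B.d i) (B.d j))]

/-- pointwise, `G(z) = M(z) M(z)ᵀ` with `M(z)_{i,q} = conj (r_i) q z`. -/
theorem gram_apply_apply (i j : B.ι) (z : ℍ) :
    B.gram i j z = ∑ q : Q N, conj N (B.d i) (B.r i) q z * conj N (B.d j) (B.r j) q z := by
  rw [gram_apply, tr_apply]
  refine Finset.sum_congr rfl fun q _ => ?_
  rw [conj_mul, Pi.mul_apply]

/-- traces in coordinates -/
theorem tr_mul_r {k : ℤ} {a : B.ι → ℍ → ℂ} (ha : ∀ i, a i ∈ A (k - B.d i)) (j : B.ι) :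
    tr N (k + B.d j) ((∑ i, a i * B.r i) * B.r j) = ∑ i, a i * B.gram i j := by
  rw [Finset.sum_mul, tr_sum]
  refine Finset.sum_congr rfl fun i _ => ?_
  rw [mul_assoc, gram_apply, ← tr_A_mul (ha i)]
  exact tr_cast (by ring) _

open Classical in
theorem gram_det_mem : B.gram.det ∈ A (2 * ∑ i, B.d i) :=
  A_cast (two_mul _).symm (gm_det_mem B.gram B.d B.d B.gram_mem)

open Classical in
theorem gram_adjugate_mem (i j : B.ι) :
    B.gram.adjugate i j ∈ A (2 * ∑ l, B.d l - B.d i - B.d j) :=
  A_cast (by ring) (gm_adjugate_mem B.gram B.d B.d B.gram_mem i j)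

end Basis

end Fermat.Agent.S20T
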