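import Mathlib
import Fermat.Agent.S20T.Basic
import Fermat.Agent.S20T.Conj
import Fermat.Agent.S20T.LevelOne
import Fermat.Agent.S20T.Division
import Fermat.Agent.S20T.Free
import Fermat.Agent.S20T.Gram

/-!
# S20T: the Gram determinant vanishes nowhere on `ℍ`
-/

set_option autoImplicit false

open UpperHalfPlane ModularFormClass CongruenceSubgroup
open scoped MatrixGroups ModularForm Manifold

namespace Fermat.Agent.S20T

open Fermat.Agent.S23L.Data (Q G0 perm cj toSL fintypeQ)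

attribute [local instance] fintypeQ

variable {N : ℕ} [NeZero N]

/-- Evaluation lemma: if `Tr(f r)(z₀) = 0` for all `r ∈ R`, then `f` is divisible in `R` by a
level-one form vanishing at `z₀`. -/
theorem lemma_EV {w : ℤ} {f : ℍ → ℂ} (hf : f ∈ R N w) (z₀ : ℍ)
    (h : ∀ (k : ℤ) (r : ℍ → ℂ), r ∈ R N k → tr N (w + k) (f * r) z₀ = 0) :
    ∃ (wc : ℤ) (c : ℍ → ℂ), c ∈ A wc ∧ c z₀ = 0 ∧ ∃ f' ∈ R N (w - wc), f = c * f' := by
  obtain ⟨wc, c, hc, hcz, hp, hdiv⟩ := exists_prime_dvd z₀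
  refine ⟨wc, c, hc, hcz, div_simple hc hp hf ?_⟩
  intro z hz
  -- all traces of powers of `f` are divisible by `c`, hence vanish at the zero `z` of `c`
  have key : ∀ m : ℕ, 1 ≤ m → tr N (m * w) (f ^ m) z = 0 := by
    intro m hm
    obtain ⟨n, rfl⟩ : ∃ n : ℕ, m = n + 1 := ⟨m - 1, by omega⟩
    have h1 : tr N (((n + 1 : ℕ) : ℤ) * w) (f ^ (n + 1)) z₀ = 0 := by
      have h2 := h ((n : ℤ) * w) (f ^ n) (R_pow hf n)
      have h3 : f ^ (n + 1) = f * f ^ n := pow_succ' f n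
      have h4 : ((n + 1 : ℕ) : ℤ) * w = w + (n : ℤ) * w := by push_cast; ring
      rw [h3, tr_cast h4]
      exact h2
    obtain ⟨F', -, hF'⟩ := hdiv _ _ (tr_mem_A (R_pow hf (n + 1))) h1
    rw [hF', Pi.mul_apply, hz, zero_mul]
  have h5 := conj_eq_zero_of_tr_pow hf z key ((1 : 𝒮ℒ) : Q N)
  rwa [conj_one hf] at h5

namespace Basis

variable (B : Basis N)

/-- the trace of `(∑ b_i r_i) * r` in terms of the Gram matrix and the coordinates of `r` -/
theorem gd_tr_coord {w : ℤ} {b : B.ι → ℍ → ℂ} (hb : ∀ i, b i ∈ A (w - B.d i))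
    {k : ℤ} {r : ℍ → ℂ} (hr : r ∈ R N k) :
    ∃ a : B.ι → ℍ → ℂ,
      tr N (w + k) ((∑ i, b i * B.r i) * r) = ∑ j, a j * ∑ i, b i * B.gram i j := by
  obtain ⟨a, ha, rfl⟩ := B.span k r hr
  refine ⟨a, ?_⟩
  have h1 : (∑ i, b i * B.r i) * ∑ j, a j * B.r j
      = ∑ j, a j * ((∑ i, b i * B.r i) * B.r j) := by
    rw [Finset.mul_sum]
    exact Finset.sum_congr rfl fun j _ => mul_left_comm _ _ _
  rw [h1, tr_sum]
  refine Finset.sum_congr rfl fun j _ => ?_
  have h2 : w + k = (k - B.d j) + (w + B.d j) := by ring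
  rw [tr_cast h2, tr_A_mul (ha j), B.tr_mul_r hb j]

omit [NeZero N] in
/-- the combination `∑ b_i r_i` lies in `R N w` -/
theorem gd_sum_mem {w : ℤ} {b : B.ι → ℍ → ℂ} (hb : ∀ i, b i ∈ A (w - B.d i)) :
    ∑ i, b i * B.r i ∈ R N w := by
  refine Submodule.sum_mem _ fun i _ => ?_
  exact R_cast (by ring) (R_mul (A_le_R N _ (hb i)) (B.mem i))

/-- the numerical Gram matrix at any point has trivial left kernel -/
theorem gd_kernel (z₀ : ℍ) (v : B.ι → ℂ) (hv : ∀ j, ∑ i, v i * B.gram i j z₀ = 0) :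
    v = 0 := by
  classical
  by_contra hne
  obtain ⟨i₀, hi₀⟩ : ∃ i₀, v i₀ ≠ 0 := by
    by_contra hcon
    exact hne (funext fun i => by_contra fun hi => hcon ⟨i, hi⟩)
  obtain ⟨g, hg, hvan, n₀, hex⟩ := exists_good_weights z₀
  -- restrict the kernel vector to the class of `i₀` modulo `g`: again a kernel vector
  set v' : B.ι → ℂ := fun i => if (g : ℤ) ∣ B.d i - B.d i₀ then v i else 0 with hv'
  have hv'pos : ∀ i, (g : ℤ) ∣ B.d i - B.d i₀ → v' i = v i := fun i hi => if_pos hi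
  have hv'neg : ∀ i, ¬ (g : ℤ) ∣ B.d i - B.d i₀ → v' i = 0 := fun i hi => if_neg hi
  have hv'0 : ∀ j, ∑ i, v' i * B.gram i j z₀ = 0 := by
    intro j
    by_cases hj : (g : ℤ) ∣ B.d j + B.d i₀
    · rw [← hv j]
      refine Finset.sum_congr rfl fun i _ => ?_
      by_cases hi : (g : ℤ) ∣ B.d i - B.d i₀
      · rw [hv'pos i hi]
      · have h0 : B.gram i j z₀ = 0 := by
          refine hvan _ (fun hd => hi ?_) _ (B.gram_mem i j)
          have h1 := dvd_sub hd hj
          rwa [show B.d i + B.d j - (B.d j + B.d i₀) = B.d i - B.d i₀ by ring] at h1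
        rw [h0, mul_zero, mul_zero]
    · refine Finset.sum_eq_zero fun i _ => ?_
      by_cases hi : (g : ℤ) ∣ B.d i - B.d i₀
      · have h0 : B.gram i j z₀ = 0 := by
          refine hvan _ (fun hd => hj ?_) _ (B.gram_mem i j)
          have h1 := dvd_sub hd hi
          rwa [show B.d i + B.d j - (B.d i - B.d i₀) = B.d j + B.d i₀ by ring] at h1
        rw [h0, mul_zero]
      · rw [hv'neg i hi, zero_mul]
  -- choose a large weight in the class of `i₀`
  set M : ℤ := |n₀| + |B.d i₀| + ∑ i, |B.d i| with hM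
  set w : ℤ := B.d i₀ + g * M with hw
  have hM0 : 0 ≤ M := by positivity
  have hwi : ∀ i, n₀ ≤ w - B.d i := by
    intro i
    have h1 : |B.d i| ≤ ∑ i, |B.d i| :=
      Finset.single_le_sum (f := fun i => |B.d i|) (fun i _ => abs_nonneg _) (Finset.mem_univ i)
    have h2 : M ≤ g * M := by
      have hg1 : (1 : ℤ) ≤ g := by exact_mod_cast hg
      nlinarith
    have h3 := le_abs_self n₀
    have h4 := neg_abs_le (B.d i₀)
    have h5 := le_abs_self (B.d i)
    rw [hw]
    linarith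
  -- coefficients realising the kernel vector at `z₀`
  have hβ : ∀ i, ∃ β ∈ A (w - B.d i), (g : ℤ) ∣ B.d i - B.d i₀ → β z₀ ≠ 0 := by
    intro i
    by_cases hi : (g : ℤ) ∣ B.d i - B.d i₀
    · have hdvd : (g : ℤ) ∣ w - B.d i := by
        have h1 : w - B.d i = g * M - (B.d i - B.d i₀) := by rw [hw]; ring
        rw [h1]
        exact dvd_sub (dvd_mul_right _ _) hi
      obtain ⟨β, hβ, hβz⟩ := hex _ (hwi i) hdvd
      exact ⟨β, hβ, fun _ => hβz⟩
    · exact ⟨0, Submodule.zero_mem _, fun h => absurd h hi⟩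
  choose β hβA hβz using hβ
  set b : B.ι → ℍ → ℂ :=
    fun i => if (g : ℤ) ∣ B.d i - B.d i₀ then (v i / β i z₀) • β i else 0 with hbdef
  have hbpos : ∀ i, (g : ℤ) ∣ B.d i - B.d i₀ → b i = (v i / β i z₀) • β i :=
    fun i hi => if_pos hi
  have hbneg : ∀ i, ¬ (g : ℤ) ∣ B.d i - B.d i₀ → b i = 0 := fun i hi => if_neg hi
  have hb : ∀ i, b i ∈ A (w - B.d i) := by
    intro i
    by_cases hi : (g : ℤ) ∣ B.d i - B.d i₀
    · rw [hbpos i hi]
      exact Submodule.smul_mem _ _ (hβA i)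
    · rw [hbneg i hi]
      exact Submodule.zero_mem _
  have hbz : ∀ i, b i z₀ = v' i := by
    intro i
    by_cases hi : (g : ℤ) ∣ B.d i - B.d i₀
    · rw [hbpos i hi, hv'pos i hi, Pi.smul_apply, smul_eq_mul]
      exact div_mul_cancel₀ _ (hβz i hi)
    · rw [hbneg i hi, hv'neg i hi]
      rfl
  have hf : ∑ i, b i * B.r i ∈ R N w := B.gd_sum_mem hb
  -- the traces against `R` vanish at `z₀`
  have htr : ∀ (k : ℤ) (r : ℍ → ℂ), r ∈ R N k →
      tr N (w + k) ((∑ i, b i * B.r i) * r) z₀ = 0 := by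
    intro k r hr
    obtain ⟨a, ha⟩ := B.gd_tr_coord hb hr
    rw [ha]
    simp only [Finset.sum_apply, Pi.mul_apply, hbz]
    exact Finset.sum_eq_zero fun j _ => by rw [hv'0 j, mul_zero]
  -- hence the combination is divisible by a level-one form vanishing at `z₀`
  obtain ⟨wc, c, hc, hcz, f', hf', hff'⟩ := lemma_EV hf z₀ htr
  obtain ⟨b', hb', rfl⟩ := B.span _ f' hf'
  have hbb' : b = fun i => c * b' i := by
    refine B.coord_unique hb (fun i => A_cast (by ring) (A_mul hc (hb' i))) ?_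
    rw [hff', Finset.mul_sum]
    exact Finset.sum_congr rfl fun i _ => (mul_assoc _ _ _).symm
  have h0 : b i₀ z₀ = 0 := by
    rw [hbb']
    show c z₀ * b' i₀ z₀ = 0
    rw [hcz, zero_mul]
  rw [hbz, hv'pos i₀ (by rw [sub_self]; exact dvd_zero _)] at h0
  exact hi₀ h0

open Classical in
/-- The Gram determinant vanishes nowhere on `ℍ`. -/
theorem gram_det_apply_ne_zero (z₀ : ℍ) : B.gram.det z₀ ≠ 0 := by
  have h2 : B.gram.det z₀ = (B.gram.map fun F => F z₀).det :=
    (Pi.evalRingHom (fun _ : ℍ => ℂ) z₀).map_det B.gram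
  rw [h2]
  intro hdet
  obtain ⟨v, hv0, hv⟩ := Matrix.exists_vecMul_eq_zero_iff.mpr hdet
  exact hv0 (B.gd_kernel z₀ v fun j => congrFun hv j)

open Classical in
/-- The numerical Gram matrix at any point is invertible. -/
theorem gram_map_det_ne_zero (z₀ : ℍ) : (B.gram.map fun F => F z₀).det ≠ 0 := by
  have h2 : B.gram.det z₀ = (B.gram.map fun F => F z₀).det :=
    (Pi.evalRingHom (fun _ : ℍ => ℂ) z₀).map_det B.gram
  rw [← h2]
  exact B.gram_det_apply_ne_zero z₀

open Classical in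
theorem gram_det_eq :
    ∃ (m : ℕ) (κ : ℂ), κ ≠ 0 ∧ 2 * ∑ i, B.d i = 12 * (m : ℤ) ∧ B.gram.det = κ • Dl ^ m := by
  exact eq_const_mul_Dl_pow B.gram_det_mem B.gram_det_apply_ne_zero

theorem card_le : Fintype.card B.ι ≤ Fintype.card (Q N) := by
  classical
  let z₀ : ℍ := UpperHalfPlane.I
  let M : Matrix B.ι (Q N) ℂ := fun i q => conj N (B.d i) (B.r i) q z₀
  have hG : (B.gram.map fun F => F z₀) = M * M.transpose := by
    ext i j
    rw [Matrix.map_apply, Matrix.mul_apply, B.gram_apply_apply]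
    rfl
  have hdet := B.gram_map_det_ne_zero z₀
  have hunit : IsUnit (B.gram.map fun F => F z₀) :=
    (Matrix.isUnit_iff_isUnit_det _).mpr (isUnit_iff_ne_zero.mpr hdet)
  have hrank := Matrix.rank_of_isUnit _ hunit
  rw [hG] at hrank
  calc Fintype.card B.ι = (M * M.transpose).rank := hrank.symm
    _ ≤ M.rank := Matrix.rank_mul_le_left _ _
    _ ≤ Fintype.card (Q N) := Matrix.rank_le_card_width _

end Basis

end Fermat.Agent.S20T
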