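import Mathlib
import Fermat.Agent.S20T.Basic
import Fermat.Agent.S20T.Dim
import Fermat.Agent.S20T.Conj
import Fermat.Agent.S20T.Free
import Fermat.Agent.S20T.Gram
import Fermat.Agent.S20T.GramDet
import Fermat.Agent.S20T.Cusp

/-!
# S20T: trace duality  `S N k ≅ ∏_i A (k - 12 + d_i)`
-/

set_option autoImplicit false

open UpperHalfPlane ModularFormClass CongruenceSubgroup
open scoped MatrixGroups ModularForm Manifold

namespace Fermat.Agent.S20T

open Fermat.Agent.S23L.Data (Q G0 perm cj toSL fintypeQ)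

attribute [local instance] fintypeQ

variable {N : ℕ} [NeZero N] (B : Basis N)

/-- traces in coordinates: for `r ∈ R N l`, the trace `tr (r * g)` is an `A`-linear combination
of the traces `tr (r_i * g)`, with coefficients the coordinates of `r`. -/
theorem du_tr_coord {l : ℤ} {r : ℍ → ℂ} (hr : r ∈ R N l) (w : ℤ) (g : ℍ → ℂ) :
    ∃ a : B.ι → ℍ → ℂ, (∀ i, a i ∈ A (l - B.d i)) ∧
      tr N (l + w) (r * g) = ∑ i, a i * tr N (B.d i + w) (B.r i * g) := by
  obtain ⟨a, ha, rfl⟩ := B.span l r hr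
  refine ⟨a, ha, ?_⟩
  rw [Finset.sum_mul, tr_sum]
  refine Finset.sum_congr rfl fun i _ => ?_
  rw [mul_assoc, tr_cast (show l + w = (l - B.d i) + (B.d i + w) by ring), tr_A_mul (ha i)]

theorem du_Dl_mem_A : Dl ∈ A 12 := A0_le_A _ Dl_mem_A0

/-- the descent: divide by `Δ` exactly `m` times. -/
theorem du_descent (m : ℕ) : ∀ (k : ℤ) (ψ : B.ι → ℍ → ℂ), (∀ i, ψ i ∈ A (k - 12 + B.d i)) →
    ∀ g : ℍ → ℂ, g ∈ R N (k + 12 * (m : ℤ)) →
    (∀ i, tr N (B.d i + (k + 12 * (m : ℤ))) (B.r i * g) = Dl ^ (m + 1) * ψ i) →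
    ∃ s ∈ S N k, ∀ i, tr N (B.d i + k) (B.r i * s) = Dl * ψ i := by
  induction m with
  | zero =>
    intro k ψ hψ g hg h
    have hk0 : k + 12 * ((0 : ℕ) : ℤ) = k := by rw [Nat.cast_zero, mul_zero, add_zero]
    have hg' : g ∈ R N k := R_cast hk0 hg
    have h' : ∀ i, tr N (B.d i + k) (B.r i * g) = Dl * ψ i := by
      intro i
      have := h i
      rw [tr_cast (show B.d i + (k + 12 * ((0 : ℕ) : ℤ)) = B.d i + k by rw [hk0]), zero_add,
        pow_one] at this
      exact this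
    refine ⟨g, cuspidal_of_trace hg' ?_, h'⟩
    intro l r hr
    obtain ⟨a, ha, e⟩ := du_tr_coord B hr k g
    rw [e, mem_A0_iff_exists]
    refine ⟨∑ i, a i * ψ i, ?_, ?_⟩
    · exact Submodule.sum_mem _ fun i _ => A_cast (by ring) (A_mul (ha i) (hψ i))
    · rw [Finset.mul_sum]
      refine Finset.sum_congr rfl fun i _ => ?_
      rw [h' i]; ring
  | succ m ih =>
    intro k ψ hψ g hg h
    have key : ∃ g' ∈ R N (k + 12 * ((m + 1 : ℕ) : ℤ) - 12), g = Dl * g' := by
      apply div_Dl_of_trace hg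
      intro l r hr
      obtain ⟨a, ha, e⟩ := du_tr_coord B hr (k + 12 * ((m + 1 : ℕ) : ℤ)) g
      refine ⟨Dl ^ m * ∑ i, a i * ψ i, ?_, ?_⟩
      · have h1 : Dl ^ m ∈ A (m * 12) := A_pow du_Dl_mem_A m
        have h2 : ∑ i, a i * ψ i ∈ A (l + k - 12) :=
          Submodule.sum_mem _ fun i _ => A_cast (by ring) (A_mul (ha i) (hψ i))
        exact A_cast (by push_cast; ring) (A_mul h1 h2)
      · rw [e, Finset.mul_sum, Finset.mul_sum]
        refine Finset.sum_congr rfl fun i _ => ?_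
        rw [h i]; ring
    obtain ⟨g', hg', rfl⟩ := key
    refine ih k ψ hψ g' (R_cast (by push_cast; ring) hg') ?_
    intro i
    have h1 := h i
    rw [show B.r i * (Dl * g') = Dl * (B.r i * g') by ring,
      tr_cast (show B.d i + (k + 12 * ((m + 1 : ℕ) : ℤ)) = 12 + (B.d i + (k + 12 * (m : ℤ))) by
        push_cast; ring), tr_A_mul du_Dl_mem_A] at h1
    funext z
    have h2 := congrFun h1 z
    simp only [Pi.mul_apply, Pi.pow_apply] at h2 ⊢
    apply mul_left_cancel₀ (Dl_ne_zero z)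
    rw [h2]; ring

/-- surjectivity of the duality map -/
theorem Basis.exists_dual (k : ℤ) (φ : B.ι → ℍ → ℂ) (hφ : ∀ i, φ i ∈ A (k - 12 + B.d i)) :
    ∃ s ∈ S N k, ∀ i, tr N (B.d i + k) (B.r i * s) = Dl * φ i := by
  classical
  obtain ⟨m, κ, hκ, hm, hdet⟩ := B.gram_det_eq
  -- coefficients
  have ha : ∀ i, Dl * ∑ j, φ j * B.gram.adjugate j i ∈ A ((k + 12 * (m : ℤ)) - B.d i) := by
    intro i
    have h1 : ∑ j, φ j * B.gram.adjugate j i ∈ A (k - 12 + 2 * (∑ l, B.d l) - B.d i) :=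
      Submodule.sum_mem _ fun j _ => A_cast (by ring) (A_mul (hφ j) (B.gram_adjugate_mem j i))
    exact A_cast (by rw [← hm]; ring) (A_mul du_Dl_mem_A h1)
  have hg₀ : (∑ i, (Dl * ∑ j, φ j * B.gram.adjugate j i) * B.r i) ∈ R N (k + 12 * (m : ℤ)) :=
    Submodule.sum_mem _ fun i _ => R_cast (by ring) (R_mul (A_le_R N _ (ha i)) (B.mem i))
  have htr : ∀ l, tr N (B.d l + (k + 12 * (m : ℤ)))
      (B.r l * ∑ i, (Dl * ∑ j, φ j * B.gram.adjugate j i) * B.r i) =
        Dl ^ (m + 1) * (κ • φ l) := by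
    intro l
    rw [mul_comm (B.r l), tr_cast (add_comm (B.d l) (k + 12 * (m : ℤ))), B.tr_mul_r ha l]
    have h1 : ∑ i, (Dl * ∑ j, φ j * B.gram.adjugate j i) * B.gram i l =
        Dl * ∑ j, φ j * (B.gram.adjugate * B.gram) j l := by
      simp only [Matrix.mul_apply, Finset.mul_sum, Finset.sum_mul]
      rw [Finset.sum_comm]
      refine Finset.sum_congr rfl fun j _ => Finset.sum_congr rfl fun i _ => ?_
      ring
    rw [h1, Matrix.adjugate_mul, hdet]
    simp only [Matrix.smul_apply, Matrix.one_apply, smul_eq_mul, mul_ite, mul_one, mul_zero,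
      Finset.sum_ite_eq', Finset.mem_univ, if_true]
    rw [pow_succ]
    funext z
    simp only [Pi.mul_apply, Pi.smul_apply, Pi.pow_apply, smul_eq_mul]
    ring
  obtain ⟨s, hs, hs'⟩ := du_descent B m k (fun i => κ • φ i)
    (fun i => Submodule.smul_mem _ _ (hφ i)) _ hg₀ htr
  refine ⟨κ⁻¹ • s, Submodule.smul_mem _ _ hs, fun i => ?_⟩
  rw [mul_smul_comm, tr_smul, hs' i, mul_smul_comm, smul_smul, inv_mul_cancel₀ hκ, one_smul]

/-- the trace pairing map `s ↦ (tr (r_i * s))_i` -/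
noncomputable def du_Phi (k : ℤ) : S N k →ₗ[ℂ] (B.ι → ℍ → ℂ) where
  toFun s := fun i => tr N (B.d i + k) (B.r i * (s : ℍ → ℂ))
  map_add' s t := by
    funext i
    simp only [Submodule.coe_add, mul_add, tr_add, Pi.add_apply]
  map_smul' c s := by
    funext i
    simp only [Submodule.coe_smul, mul_smul_comm, tr_smul, Pi.smul_apply, RingHom.id_apply]

omit [NeZero N] in
/-- multiplication by `Δ` on tuples of level-one forms -/
noncomputable def du_L (k : ℤ) : (∀ i : B.ι, A (k - 12 + B.d i)) →ₗ[ℂ] (B.ι → ℍ → ℂ) where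
  toFun φ := fun i => Dl * (φ i : ℍ → ℂ)
  map_add' φ ψ := by
    funext i
    simp only [Pi.add_apply, Submodule.coe_add, mul_add]
  map_smul' c φ := by
    funext i
    simp only [Pi.smul_apply, Submodule.coe_smul, mul_smul_comm, RingHom.id_apply]

theorem du_Phi_apply (k : ℤ) (s : S N k) (i : B.ι) :
    du_Phi B k s i = tr N (B.d i + k) (B.r i * (s : ℍ → ℂ)) := rfl

omit [NeZero N] in
theorem du_L_apply (k : ℤ) (φ : ∀ i : B.ι, A (k - 12 + B.d i)) (i : B.ι) :
    du_L B k φ i = Dl * (φ i : ℍ → ℂ) := rfl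

/-- injectivity of the duality map: the trace form is nondegenerate -/
theorem du_Phi_injective (k : ℤ) : Function.Injective (du_Phi B k) := by
  rw [← LinearMap.ker_eq_bot, LinearMap.ker_eq_bot']
  intro s hs
  have h0 : ∀ i, tr N (B.d i + k) (B.r i * (s : ℍ → ℂ)) = 0 := fun i => congrFun hs i
  have : (s : ℍ → ℂ) = 0 := by
    apply eq_zero_of_tr_mul (S_le_R N k s.2)
    intro l r hr
    obtain ⟨a, ha, e⟩ := du_tr_coord B hr k s
    rw [e]
    exact Finset.sum_eq_zero fun i _ => by rw [h0 i, mul_zero]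
  exact Subtype.ext this

omit [NeZero N] in
theorem du_L_injective (k : ℤ) : Function.Injective (du_L B k) := by
  intro φ ψ h
  funext i
  apply Subtype.ext
  funext z
  have := congrFun (congrFun h i) z
  simp only [du_L_apply, Pi.mul_apply] at this
  exact mul_left_cancel₀ (Dl_ne_zero z) this

theorem du_range_eq (k : ℤ) : LinearMap.range (du_Phi B k) = LinearMap.range (du_L B k) := by
  apply le_antisymm
  · rintro _ ⟨s, rfl⟩
    have h1 : ∀ i, ∃ F' ∈ A (k - 12 + B.d i),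
        tr N (B.d i + k) (B.r i * (s : ℍ → ℂ)) = Dl * F' := by
      intro i
      have : tr N (B.d i + k) (B.r i * (s : ℍ → ℂ)) ∈ A0 (B.d i + k) :=
        tr_mem_A0 (R_mul_S (B.mem i) s.2)
      obtain ⟨F', hF', e⟩ := mem_A0_iff_exists.mp this
      exact ⟨F', A_cast (by ring) hF', e⟩
    choose F' hF' e using h1
    exact ⟨fun i => ⟨F' i, hF' i⟩, funext fun i => (e i).symm⟩
  · rintro _ ⟨φ, rfl⟩
    obtain ⟨s, hs, e⟩ := B.exists_dual k (fun i => (φ i : ℍ → ℂ)) (fun i => (φ i).2)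
    exact ⟨⟨s, hs⟩, funext fun i => e i⟩

theorem Basis.finrank_S (k : ℤ) :
    Module.finrank ℂ (S N k) = ∑ i, Module.finrank ℂ (A (k - 12 + B.d i)) := by
  rw [← LinearMap.finrank_range_of_inj (du_Phi_injective B k), du_range_eq,
    LinearMap.finrank_range_of_inj (du_L_injective B k), Module.finrank_pi_fintype]

theorem Basis.d_le (i : B.ι) : B.d i ≤ 10 := by
  by_contra hlt
  rw [not_le] at hlt
  have h12 : 12 ≤ B.d i := by
    obtain ⟨c, hc⟩ := B.d_even i
    omega
  have h0 : Module.finrank ℂ (S N (12 - B.d i)) = 0 := by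
    rw [S_eq_bot_of_nonpos (by omega)]
    exact finrank_bot ℂ _
  rw [B.finrank_S] at h0
  have h1 := Finset.sum_eq_zero_iff.mp h0 i (Finset.mem_univ i)
  rw [show (12 - B.d i - 12 + B.d i) = 0 by ring, finrank_A_zero] at h1
  exact one_ne_zero h1

theorem Basis.finrank_S_two :
    Module.finrank ℂ (S N 2) = Nat.card {i : B.ι // B.d i = 10} := by
  classical
  rw [B.finrank_S, Nat.card_eq_fintype_card, Fintype.card_subtype, Finset.card_filter]
  refine Finset.sum_congr rfl fun i _ => ?_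
  split_ifs with h
  · rw [h, show (2 : ℤ) - 12 + 10 = 0 by norm_num, finrank_A_zero]
  · apply finrank_A_of_neg
    have := B.d_le i
    omega

end Fermat.Agent.S20T
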