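import Mathlib
import Fermat.Agent.S20T.Basic
import Fermat.Agent.S20T.Conj
import Fermat.Agent.S20T.Free
import Fermat.Agent.S20T.Gram
import Fermat.Agent.S20T.GramDet
import Fermat.Agent.S20T.Perm
import Fermat.Agent.S20T.PermEigen

/-!
# S20T: the generator degrees modulo 4 and modulo 6 (local analysis at `i` and `ρ`)
-/

set_option autoImplicit false

open UpperHalfPlane ModularFormClass CongruenceSubgroup
open scoped MatrixGroups ModularForm Manifold

namespace Fermat.Agent.S20T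

open Fermat.Agent.S23L.Data (Q G0 perm cj toSL fintypeQ)

attribute [local instance] fintypeQ

/-! ### linear algebra -/

/-- If `G = M Mᵀ` is invertible then the rows of `M` are linearly independent. -/
theorem lc_linearIndependent_rows {ι X : Type*} [Fintype ι] [DecidableEq ι] [Fintype X]
    (M : ι → X → ℂ) (G : Matrix ι ι ℂ) (hG : ∀ i j, G i j = ∑ q, M i q * M j q)
    (hdet : G.det ≠ 0) : LinearIndependent ℂ M := by
  rw [Fintype.linearIndependent_iff]
  intro x hx i
  have h1 : Matrix.vecMul x G = 0 := by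
    ext j
    have h2 : ∀ q, ∑ i, x i * M i q = 0 := by
      intro q
      have := congrFun hx q
      simpa using this
    calc Matrix.vecMul x G j = ∑ i, x i * ∑ q, M i q * M j q := by
          simp only [Matrix.vecMul, dotProduct, hG]
      _ = ∑ q, (∑ i, x i * M i q) * M j q := by
          simp only [Finset.mul_sum, Finset.sum_mul]
          rw [Finset.sum_comm]
          refine Finset.sum_congr rfl fun q _ => Finset.sum_congr rfl fun i _ => ?_
          ring
      _ = 0 := by simp [h2]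
  exact congrFun (Matrix.eq_zero_of_vecMul_eq_zero hdet h1) i

/-- Linearly independent vectors inside a subspace: a bound for their number. -/
theorem lc_card_le_finrank {ι X : Type*} [Fintype ι] [Finite X] (M : ι → X → ℂ)
    (hM : LinearIndependent ℂ M) (P : ι → Prop) (W : Submodule ℂ (X → ℂ))
    (hW : ∀ i, P i → M i ∈ W) : Nat.card {i : ι // P i} ≤ Module.finrank ℂ W := by
  classical
  have := Fintype.ofFinite X
  have h1 : LinearIndependent ℂ (fun i : {i : ι // P i} => (⟨M i, hW i i.2⟩ : W)) := by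
    have h2 : LinearIndependent ℂ (fun i : {i : ι // P i} => M i) :=
      hM.comp _ Subtype.val_injective
    exact LinearIndependent.of_comp W.subtype h2
  rw [Nat.card_eq_fintype_card]
  exact h1.fintype_card_le_finrank

/-! ### the rows of conjugates at a fixed point -/

/-- The rows of conjugates at a fixed point of `γ` are eigenvectors of `perm N γ`. -/
theorem lc_row_mem {N : ℕ} (B : Basis N) (γ : SL(2, ℤ)) (z₀ : ℍ) (hγ : γ • z₀ = z₀) (i : B.ι) :
    (fun q : Q N => conj N (B.d i) (B.r i) q z₀)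
      ∈ permEigen (perm N γ) (denom γ z₀ ^ (-(B.d i))) := by
  rw [mem_permEigen]
  intro q
  show conj N (B.d i) (B.r i) (perm N γ q) z₀ = _
  rw [← conj_slash (B.mem i) q γ, ModularForm.SL_slash_apply, hγ, mul_comm]

/-- The rows of conjugates at any point are linearly independent. -/
theorem lc_rows_indep {N : ℕ} [NeZero N] (B : Basis N) (z₀ : ℍ) :
    LinearIndependent ℂ (fun (i : B.ι) (q : Q N) => conj N (B.d i) (B.r i) q z₀) := by
  classical
  refine lc_linearIndependent_rows _ (B.gram.map fun F => F z₀) ?_ (B.gram_map_det_ne_zero z₀)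
  intro i j
  rw [Matrix.map_apply, B.gram_apply_apply]

theorem lc_S_smul_I : ModularGroup.S • (I : ℍ) = I :=
  ModularGroup.stabilizer_I.mpr (by simp)

theorem lc_denom_S_I : denom ModularGroup.S (I : ℍ) = Complex.I := by
  rw [ModularGroup.denom_S, UpperHalfPlane.coe_I]

theorem lc_ST_smul_rho : (ModularGroup.S * ModularGroup.T) • ρ = ρ :=
  ModularGroup.stabilizer_ρ.mpr (by simp)

theorem lc_denom_ST_rho :
    denom ((ModularGroup.S * ModularGroup.T : SL(2, ℤ)) : GL (Fin 2) ℝ) ρ = (ρ : ℂ) + 1 := by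
  rw [ModularGroup.denom_apply]
  simp [ModularGroup.S, ModularGroup.T]

/-! ### roots of unity -/

theorem lc_I_zpow_of_dvd {d : ℤ} (h : (4 : ℤ) ∣ d) : Complex.I ^ (-d) = 1 := by
  obtain ⟨m, rfl⟩ := h
  have h4 : Complex.I ^ (4 : ℤ) = 1 := by
    norm_cast
    exact Complex.I_pow_four
  rw [← mul_neg, zpow_mul, h4, one_zpow]

theorem lc_I_zpow_of_not_dvd {d : ℤ} (he : Even d) (h : ¬ (4 : ℤ) ∣ d) :
    Complex.I ^ (-d) = -1 := by
  obtain ⟨m, rfl⟩ : ∃ m : ℤ, d = 4 * m + 2 := by
    have := Int.even_iff.mp he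
    exact ⟨(d - 2) / 4, by omega⟩
  have h4 : Complex.I ^ (4 : ℤ) = 1 := by
    norm_cast
    exact Complex.I_pow_four
  have h2 : Complex.I ^ (-2 : ℤ) = -1 := by
    rw [zpow_neg]
    norm_cast
    rw [Complex.I_sq]
    norm_num
  rw [neg_add, ← mul_neg, zpow_add₀ Complex.I_ne_zero, zpow_mul, h4, one_zpow, one_mul, h2]

theorem lc_pow_six {r : ℂ} (h : r ^ 2 = -r - 1) : (r + 1) ^ 6 = 1 := by
  linear_combination (r ^ 4 + 5 * r ^ 3 + 9 * r ^ 2 + 6 * r) * h

theorem lc_zpow_neg {r : ℂ} (h : r ^ 2 = -r - 1) (d : ℤ) :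
    (r + 1) ^ (-d) = ((r + 1) ^ (d % 6).toNat)⁻¹ := by
  have h6 : (r + 1) ^ (6 : ℤ) = 1 := by
    norm_cast
    exact lc_pow_six h
  have h0 : r + 1 ≠ 0 := by
    intro h0
    have := lc_pow_six h
    rw [h0] at this
    norm_num at this
  have hd : d = 6 * (d / 6) + d % 6 := (Int.mul_ediv_add_emod d 6).symm
  have hnn : 0 ≤ d % 6 := Int.emod_nonneg d (by norm_num)
  have h1 : (r + 1) ^ (d % 6).toNat = (r + 1) ^ (d % 6) := by
    rw [← zpow_natCast, Int.toNat_of_nonneg hnn]
  rw [h1, zpow_neg]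
  congr 1
  conv_lhs => rw [hd]
  rw [zpow_add₀ h0, zpow_mul, h6, one_zpow, one_mul]

theorem lc_zpow_mod_zero {r : ℂ} (h : r ^ 2 = -r - 1) {d : ℤ} (hd : d % 6 = 0) :
    (r + 1) ^ (-d) = 1 := by
  rw [lc_zpow_neg h, hd]
  simp

theorem lc_zpow_mod_two {r : ℂ} (h : r ^ 2 = -r - 1) {d : ℤ} (hd : d % 6 = 2) :
    ((r + 1) ^ (-d)) ^ 3 = 1 ∧ (r + 1) ^ (-d) ≠ 1 := by
  rw [lc_zpow_neg h, hd]
  have h2 : (r + 1) ^ (2 : ℤ).toNat = r := by
    show (r + 1) ^ 2 = r
    linear_combination h
  have h3 : r ^ 3 = 1 := by linear_combination (r - 1) * h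
  rw [h2]
  refine ⟨by rw [inv_pow, h3, inv_one], ?_⟩
  intro h1
  rw [inv_eq_one] at h1
  rw [h1] at h
  norm_num at h

theorem lc_zpow_mod_four {r : ℂ} (h : r ^ 2 = -r - 1) {d : ℤ} (hd : d % 6 = 4) :
    ((r + 1) ^ (-d)) ^ 3 = 1 ∧ (r + 1) ^ (-d) ≠ 1 := by
  rw [lc_zpow_neg h, hd]
  have h2 : (r + 1) ^ (4 : ℤ).toNat = r ^ 2 := by
    show (r + 1) ^ 4 = r ^ 2
    linear_combination (r ^ 2 + 3 * r + 1) * h
  have h3 : r ^ 3 = 1 := by linear_combination (r - 1) * h
  rw [h2]
  refine ⟨by rw [inv_pow, ← pow_mul, show 2 * 3 = 3 * 2 from rfl, pow_mul, h3, one_pow, inv_one],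
    ?_⟩
  intro h1
  rw [inv_eq_one] at h1
  have h4 : r = 1 := by
    calc r = r ^ 3 * r := by rw [h3, one_mul]
      _ = (r ^ 2) ^ 2 := by ring
      _ = 1 := by rw [h1, one_pow]
  rw [h4] at h
  norm_num at h

/-! ### the main results -/

variable {N : ℕ} [NeZero N] (B : Basis N)

theorem Basis.card_mod_four :
    2 * Nat.card {i : B.ι // (4 : ℤ) ∣ B.d i}
        ≤ Nat.card (Q N) + Nat.card {q : Q N // perm N ModularGroup.S q = q} ∧
      2 * Nat.card {i : B.ι // ¬ (4 : ℤ) ∣ B.d i}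
        + Nat.card {q : Q N // perm N ModularGroup.S q = q} ≤ Nat.card (Q N) := by
  have hind := lc_rows_indep B I
  have hrow : ∀ i, (fun q : Q N => conj N (B.d i) (B.r i) q I)
      ∈ permEigen (perm N ModularGroup.S) (Complex.I ^ (-(B.d i))) := by
    intro i
    have := lc_row_mem B ModularGroup.S I lc_S_smul_I i
    rwa [lc_denom_S_I] at this
  have h1 : Nat.card {i : B.ι // (4 : ℤ) ∣ B.d i}
      ≤ Module.finrank ℂ (permEigen (perm N ModularGroup.S) 1) := by
    refine lc_card_le_finrank _ hind _ _ ?_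
    intro i hi
    have := hrow i
    rwa [lc_I_zpow_of_dvd hi] at this
  have h2 : Nat.card {i : B.ι // ¬ (4 : ℤ) ∣ B.d i}
      ≤ Module.finrank ℂ (permEigen (perm N ModularGroup.S) (-1)) := by
    refine lc_card_le_finrank _ hind _ _ ?_
    intro i hi
    have := hrow i
    rwa [lc_I_zpow_of_not_dvd (B.d_even i) hi] at this
  have h3 := finrank_permEigen_two_one (perm N ModularGroup.S) perm_S_perm_S
  have h4 := finrank_permEigen_two_neg (perm N ModularGroup.S) perm_S_perm_S
  constructor <;> omega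

theorem Basis.card_mod_six :
    3 * Nat.card {i : B.ι // B.d i % 6 = 0}
        ≤ Nat.card (Q N)
          + 2 * Nat.card {q : Q N // perm N (ModularGroup.S * ModularGroup.T) q = q} ∧
      3 * Nat.card {i : B.ι // B.d i % 6 = 2}
        + Nat.card {q : Q N // perm N (ModularGroup.S * ModularGroup.T) q = q}
          ≤ Nat.card (Q N) ∧
      3 * Nat.card {i : B.ι // B.d i % 6 = 4}
        + Nat.card {q : Q N // perm N (ModularGroup.S * ModularGroup.T) q = q}
          ≤ Nat.card (Q N) := by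
  have hind := lc_rows_indep B ρ
  have hρ : ((ρ : ℍ) : ℂ) ^ 2 = -(ρ : ℂ) - 1 := UpperHalfPlane.ρ_sq
  have hrow : ∀ i, (fun q : Q N => conj N (B.d i) (B.r i) q ρ)
      ∈ permEigen (perm N (ModularGroup.S * ModularGroup.T)) (((ρ : ℂ) + 1) ^ (-(B.d i))) := by
    intro i
    have := lc_row_mem B (ModularGroup.S * ModularGroup.T) ρ lc_ST_smul_rho i
    rwa [lc_denom_ST_rho] at this
  have h0 : Nat.card {i : B.ι // B.d i % 6 = 0}
      ≤ Module.finrank ℂ (permEigen (perm N (ModularGroup.S * ModularGroup.T)) 1) := by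
    refine lc_card_le_finrank _ hind _ _ ?_
    intro i hi
    have := hrow i
    rwa [lc_zpow_mod_zero hρ hi] at this
  have h0' := finrank_permEigen_three_one (perm N (ModularGroup.S * ModularGroup.T)) perm_ST_cube
  -- the classes `2` and `4` modulo `6`
  have key : ∀ c : ℤ, (∀ d : ℤ, d % 6 = c →
        (((ρ : ℂ) + 1) ^ (-d)) ^ 3 = 1 ∧ ((ρ : ℂ) + 1) ^ (-d) ≠ 1) →
      3 * Nat.card {i : B.ι // B.d i % 6 = c}
        + Nat.card {q : Q N // perm N (ModularGroup.S * ModularGroup.T) q = q}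
          ≤ Nat.card (Q N) := by
    intro c hc
    by_cases hne : ∃ i₀ : B.ι, B.d i₀ % 6 = c
    · obtain ⟨i₀, hi₀⟩ := hne
      have hω := hc _ hi₀
      have h2 : Nat.card {i : B.ι // B.d i % 6 = c}
          ≤ Module.finrank ℂ (permEigen (perm N (ModularGroup.S * ModularGroup.T))
              (((ρ : ℂ) + 1) ^ (-(B.d i₀)))) := by
        refine lc_card_le_finrank _ hind _ _ ?_
        intro i hi
        have := hrow i
        have he : ((ρ : ℂ) + 1) ^ (-(B.d i)) = ((ρ : ℂ) + 1) ^ (-(B.d i₀)) := by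
          rw [lc_zpow_neg hρ, lc_zpow_neg hρ (B.d i₀), hi, hi₀]
        rwa [he] at this
      have h3 := finrank_permEigen_three_prim (perm N (ModularGroup.S * ModularGroup.T))
        perm_ST_cube _ hω.1 hω.2
      omega
    · have hemp : IsEmpty {i : B.ι // B.d i % 6 = c} := ⟨fun i => hne ⟨i.1, i.2⟩⟩
      have h2 : Nat.card {i : B.ι // B.d i % 6 = c} = 0 := Nat.card_of_isEmpty
      have h3 := finrank_permEigen_three_prim (perm N (ModularGroup.S * ModularGroup.T))
        perm_ST_cube _ (lc_zpow_mod_two hρ (d := 2) rfl).1 (lc_zpow_mod_two hρ (d := 2) rfl).2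
      omega
  exact ⟨by omega, key 2 fun d hd => lc_zpow_mod_two hρ hd,
    key 4 fun d hd => lc_zpow_mod_four hρ hd⟩

end Fermat.Agent.S20T
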