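import Mathlib
import Fermat.Agent.S20T.Basic
import Fermat.Agent.S20T.Conj
import Fermat.Agent.S20T.Free
import Fermat.Agent.S23.Theta
import Fermat.Agent.S23.DataRigid

/-!
# S20T: the rank of `R N` over `A` is at least the index (via the form `θ` of S23)
-/

set_option autoImplicit false

open UpperHalfPlane ModularFormClass CongruenceSubgroup
open scoped MatrixGroups ModularForm Manifold

namespace Fermat.Agent.S20T

open Fermat.Agent.S23L.Data (Q G0 perm cj toSL fintypeQ)

attribute [local instance] fintypeQ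

/-- Pure linear algebra: if the Vandermonde rows `(x q ^ a)_q` of pairwise distinct numbers
`x q` (`q : κ`) all factor through `ι` (that is `x q ^ a = ∑ i, C a i * M i q`), then
`|κ| ≤ |ι|`. -/
theorem th_card_le_of_pow_eq {κ ι : Type*} [Fintype κ] [Fintype ι] (x : κ → ℂ)
    (hx : Function.Injective x) (C : ℕ → ι → ℂ) (M : ι → κ → ℂ)
    (h : ∀ (a : ℕ) (q : κ), x q ^ a = ∑ i, C a i * M i q) :
    Fintype.card κ ≤ Fintype.card ι := by
  classical
  -- the linear map `v ↦ (∑ q, M i q * v q)_i` is injective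
  let L : (κ → ℂ) →ₗ[ℂ] (ι → ℂ) := Matrix.mulVecLin (Matrix.of M)
  have hL : Function.Injective L := by
    rw [← LinearMap.ker_eq_bot, LinearMap.ker_eq_bot']
    intro v hv
    have hv' : ∀ i, ∑ q, M i q * v q = 0 := fun i => by
      have := congrFun hv i
      simpa [L, Matrix.mulVec, dotProduct] using this
    have key : ∀ a : ℕ, ∑ q, v q * x q ^ a = 0 := by
      intro a
      calc ∑ q, v q * x q ^ a = ∑ q, v q * ∑ i, C a i * M i q := by simp_rw [h]
        _ = ∑ i, C a i * ∑ q, M i q * v q := by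
          simp_rw [Finset.mul_sum]
          rw [Finset.sum_comm]
          refine Finset.sum_congr rfl fun i _ => Finset.sum_congr rfl fun q _ => by ring
        _ = 0 := by simp [hv']
    -- transport to `Fin n` and use the Vandermonde determinant
    let e := Fintype.equivFin κ
    have h0 : (v ∘ e.symm) = 0 := by
      refine Matrix.eq_zero_of_forall_pow_sum_mul_pow_eq_zero (f := x ∘ e.symm)
        (hx.comp e.symm.injective) fun i => ?_
      have := key i
      rw [← e.symm.sum_comp] at this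
      simpa using this
    funext q
    have := congrFun h0 (e q)
    simpa using this
  have := LinearMap.finrank_le_finrank_of_injective hL
  simpa using this

variable {N : ℕ} [NeZero N]

/-- There is a point of `ℍ` at which the conjugates of `θ` take pairwise distinct values. -/
theorem th_exists_point (N : ℕ) [NeZero N] :
    ∃ z₀ : ℍ, Function.Injective
      (fun q : Q N => conj N 4 (⇑(Fermat.Agent.S23L.Theta.thetaForm N)) q z₀) := by
  classical
  set θ := Fermat.Agent.S23L.Theta.thetaForm N with hθdef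
  have hθ := Fermat.Agent.S23L.Theta.mem_Gamma0_of_slash_eq N
  set D : ℍ → ℂ := ∏ p ∈ (Finset.univ : Finset (Q N × Q N)).filter (fun p => p.1 ≠ p.2),
      (cj θ p.1 - cj θ p.2) with hD
  have hD0 : D ≠ 0 := by
    intro h
    rw [hD, UpperHalfPlane.prod_eq_zero_iff
      (fun p _ => (Fermat.Agent.S23L.Data.mdiff_cj θ p.1).sub
        (Fermat.Agent.S23L.Data.mdiff_cj θ p.2))] at h
    obtain ⟨p, hp, hp0⟩ := h
    exact (Finset.mem_filter.mp hp).2
      (Fermat.Agent.S23L.Data.cj_injective θ hθ (sub_eq_zero.mp hp0))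
  obtain ⟨z₀, hz₀⟩ : ∃ z₀, D z₀ ≠ 0 := by
    by_contra hcon
    exact hD0 (funext fun z => Classical.byContradiction fun hz => hcon ⟨z, hz⟩)
  refine ⟨z₀, ?_⟩
  intro q q' hqq
  by_contra hne
  apply hz₀
  rw [hD, Finset.prod_apply]
  refine Finset.prod_eq_zero (i := (q, q')) (Finset.mem_filter.mpr ⟨Finset.mem_univ _, hne⟩) ?_
  simp only [conj_eq_cj] at hqq
  simpa [sub_eq_zero] using hqq

omit [NeZero N] in
/-- Conjugating a basis expansion `F = ∑ i, a i * r i`: the coordinates `a i` are of level one,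
hence fixed. -/
theorem th_conj_expand (B : Basis N) {k : ℤ} {F : ℍ → ℂ} (a : B.ι → ℍ → ℂ)
    (ha : ∀ i, a i ∈ A (k - B.d i)) (hFa : F = ∑ i, a i * B.r i) (q : Q N) :
    conj N k F q = ∑ i, a i * conj N (B.d i) (B.r i) q := by
  rw [hFa, conj_sum]
  refine Finset.sum_congr rfl fun i _ => ?_
  have hk : conj N k (a i * B.r i) q = conj N ((k - B.d i) + B.d i) (a i * B.r i) q := by
    rw [sub_add_cancel]
  rw [hk, conj_mul, conj_of_mem_A (ha i)]

theorem Basis.card_ge (B : Basis N) : Fintype.card (Q N) ≤ Fintype.card B.ι := by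
  classical
  have hΘ : (⇑(Fermat.Agent.S23L.Theta.thetaForm N) : ℍ → ℂ) ∈ R N 4 := ⟨_, rfl⟩
  obtain ⟨z₀, hz₀⟩ := th_exists_point N
  -- coordinates of the powers of `Θ`
  have hpow : ∀ a : ℕ, (⇑(Fermat.Agent.S23L.Theta.thetaForm N) : ℍ → ℂ) ^ a ∈ R N (a * 4) :=
    fun a => R_pow hΘ a
  choose c hc hcs using fun a : ℕ =>
    B.span (a * 4) ((⇑(Fermat.Agent.S23L.Theta.thetaForm N) : ℍ → ℂ) ^ a) (hpow a)
  refine th_card_le_of_pow_eq
    (fun q : Q N => conj N 4 (⇑(Fermat.Agent.S23L.Theta.thetaForm N)) q z₀) hz₀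
    (fun a i => c a i z₀) (fun i q => conj N (B.d i) (B.r i) q z₀) ?_
  intro a q
  have h1 := th_conj_expand B (c a) (hc a) (hcs a) q
  rw [conj_pow] at h1
  have h2 := congrFun h1 z₀
  simpa [Finset.sum_apply] using h2

end Fermat.Agent.S20T
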