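import Mathlib
import Fermat.Prelude.Def_ModularCurve_GenusNumerics
import Fermat.Agent.S20T.Basic
import Fermat.Agent.S20T.Dim
import Fermat.Agent.S20T.Free
import Fermat.Agent.S20T.GramDet
import Fermat.Agent.S20T.ThetaRank
import Fermat.Agent.S20T.Duality
import Fermat.Agent.S20T.Local
import Fermat.Agent.S20T.CuspDim
import Fermat.Agent.S20T.CountBridge

/-!
# S20T: the final count  `dim S₂(Γ₀(N)) = genusFormula N`
-/

set_option autoImplicit false

open UpperHalfPlane ModularFormClass CongruenceSubgroup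
open scoped MatrixGroups ModularForm Manifold

namespace Fermat.Agent.S20T

open Fermat.Agent.S23L.Data (Q G0 perm cj toSL fintypeQ)

attribute [local instance] fintypeQ

/-! ### generic counting lemmas -/

theorem fin_natCard_subtype {ι : Type} [Fintype ι] (P : ι → Prop) [DecidablePred P] :
    Nat.card {i // P i} = (Finset.univ.filter P).card := by
  rw [Nat.card_eq_fintype_card, Fintype.card_subtype]

theorem fin_card_filter_comp {ι : Type} [Fintype ι] (d : ι → ℤ) (D : Finset ℤ)
    (hd : ∀ i, d i ∈ D) (P : ℤ → Prop) [DecidablePred P] :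
    (Finset.univ.filter (fun i => P (d i))).card
      = ∑ e ∈ D.filter P, (Finset.univ.filter (fun i => d i = e)).card := by
  rw [Finset.card_eq_sum_card_fiberwise (f := d) (t := D.filter P)]
  · refine Finset.sum_congr rfl fun e he => ?_
    congr 1
    ext i
    simp only [Finset.mem_filter, Finset.mem_univ, true_and]
    constructor
    · exact fun h => h.2
    · intro h
      exact ⟨by rw [h]; exact (Finset.mem_filter.mp he).2, h⟩
  · intro i hi
    simp only [Finset.coe_filter, Finset.mem_univ, true_and, Set.mem_ofPred_eq] at hi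
    exact Finset.mem_coe.mpr (Finset.mem_filter.mpr ⟨hd i, hi⟩)

theorem fin_sum_comp {ι : Type} [Fintype ι] (d : ι → ℤ) (D : Finset ℤ)
    (hd : ∀ i, d i ∈ D) (f : ℤ → ℕ) :
    ∑ i, f (d i) = ∑ e ∈ D, (Finset.univ.filter (fun i => d i = e)).card * f e := by
  rw [← Finset.sum_fiberwise_of_maps_to (s := Finset.univ) (t := D) (g := d) (fun i _ => hd i)]
  refine Finset.sum_congr rfl fun e _ => ?_
  rw [Finset.sum_congr rfl (fun i hi => by rw [(Finset.mem_filter.mp hi).2] :
    ∀ i ∈ Finset.univ.filter (fun i => d i = e), f (d i) = f e)]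
  rw [Finset.sum_const, smul_eq_mul]

/-! ### the level-one dimensions in closed form -/

theorem finrank_A_nat (q : ℕ) (r k : ℤ) (hk : k = 12 * q + r)
    (hr : r = 0 ∨ r = 4 ∨ r = 6 ∨ r = 8 ∨ r = 10) : Module.finrank ℂ (A k) = q + 1 := by
  have h1 : ¬ (k < 0 ∨ Odd k) := by
    rw [Int.odd_iff]
    omega
  have h2 : ¬ (k % 12 = 2) := by omega
  have h3 : k / 12 = q := by omega
  rw [finrank_A, if_neg h1, if_neg h2, h3, Int.toNat_natCast]

theorem finrank_A_nat_two (q : ℕ) (k : ℤ) (hk : k = 12 * q + 2) :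
    Module.finrank ℂ (A k) = q := by
  have h1 : ¬ (k < 0 ∨ Odd k) := by
    rw [Int.odd_iff]
    omega
  have h2 : k % 12 = 2 := by omega
  have h3 : k / 12 = q := by omega
  rw [finrank_A, if_neg h1, if_pos h2, h3, Int.toNat_natCast]

/-! ### the final count -/

variable {N : ℕ} [NeZero N]

/-- the finite set of possible generator degrees -/
def degSet : Finset ℤ := {0, 2, 4, 6, 8, 10}

theorem Basis.d_mem_degSet (B : Basis N) (i : B.ι) : B.d i ∈ degSet := by
  have h0 := B.d_nonneg i
  have h1 := B.d_le i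
  obtain ⟨m, hm⟩ := B.d_even i
  simp only [degSet, Finset.mem_insert, Finset.mem_singleton]
  omega

open Classical in
theorem Basis.finrank_S_two_eq (B : Basis N) :
    (Module.finrank ℂ (S N 2) : ℚ) = ModularCurve.genusFormula N := by
  classical
  -- the number of generators of each degree
  set n : ℤ → ℕ := fun e => (Finset.univ.filter (fun i : B.ι => B.d i = e)).card with hn
  have hD := B.d_mem_degSet
  have count : ∀ (P : ℤ → Prop) [DecidablePred P],
      Nat.card {i : B.ι // P (B.d i)} = ∑ e ∈ degSet.filter P, n e := by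
    intro P _
    rw [fin_natCard_subtype, fin_card_filter_comp B.d degSet hD P]
  -- (1) one generator in degree zero
  have h0 : n 0 = 1 := by
    have := B.card_d_zero
    rw [fin_natCard_subtype] at this
    exact this
  -- (2) the rank is the index
  have hcard : Fintype.card B.ι = Fintype.card (Q N) := le_antisymm B.card_le B.card_ge
  have hψ : Fintype.card (Q N) = ModularCurve.dedekindPsi N := by
    rw [← Nat.card_eq_fintype_card]; exact card_Q N
  have htot : n 0 + n 2 + n 4 + n 6 + n 8 + n 10 = ModularCurve.dedekindPsi N := by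
    rw [← hψ, ← hcard]
    have := count (fun _ => True)
    rw [Nat.card_eq_fintype_card, Fintype.card_subtype] at this
    simp only [Finset.filter_true] at this
    have h2 : Fintype.card B.ι = (Finset.univ : Finset B.ι).card := rfl
    rw [h2, this]
    rw [degSet, Finset.sum_insert (by decide), Finset.sum_insert (by decide),
      Finset.sum_insert (by decide), Finset.sum_insert (by decide),
      Finset.sum_insert (by decide), Finset.sum_singleton]
    ring
  -- (3) degrees modulo 4
  have h4 := B.card_mod_four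
  rw [count (fun e => (4 : ℤ) ∣ e), count (fun e => ¬ (4 : ℤ) ∣ e), card_fix_S N,
    Nat.card_eq_fintype_card, hψ] at h4
  have e4 : degSet.filter (fun e => (4 : ℤ) ∣ e) = {0, 4, 8} := by decide
  have e4' : degSet.filter (fun e => ¬ (4 : ℤ) ∣ e) = {2, 6, 10} := by decide
  rw [e4, e4'] at h4
  rw [Finset.sum_insert (by decide), Finset.sum_insert (by decide), Finset.sum_singleton,
    Finset.sum_insert (by decide), Finset.sum_insert (by decide), Finset.sum_singleton] at h4
  -- (4) degrees modulo 6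
  have h6 := B.card_mod_six
  rw [count (fun e => e % 6 = 0), count (fun e => e % 6 = 2), count (fun e => e % 6 = 4),
    card_fix_ST N, Nat.card_eq_fintype_card, hψ] at h6
  have e60 : degSet.filter (fun e => e % 6 = 0) = {0, 6} := by decide
  have e62 : degSet.filter (fun e => e % 6 = 2) = {2, 8} := by decide
  have e64 : degSet.filter (fun e => e % 6 = 4) = {4, 10} := by decide
  rw [e60, e62, e64] at h6
  rw [Finset.sum_insert (by decide), Finset.sum_singleton,
    Finset.sum_insert (by decide), Finset.sum_singleton,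
    Finset.sum_insert (by decide), Finset.sum_singleton] at h6
  -- (5) the number of cusps
  obtain ⟨k₀, hk₀⟩ := B.exists_finrank_R_eq hcard
  set T : ℕ := (max k₀ 0).toNat with hT
  have hTk : k₀ ≤ 12 * ((T + 1 : ℕ) : ℤ) + 4 := by
    have : (max k₀ 0) ≤ T := by rw [hT]; exact Int.self_le_toNat _
    have h' : k₀ ≤ max k₀ 0 := le_max_left _ _
    push_cast
    omega
  have hc := hk₀ (12 * ((T + 1 : ℕ) : ℤ) + 4) hTk ⟨6 * ((T + 1 : ℕ) : ℤ) + 2, by ring⟩
  rw [card_orbits_T N, B.finrank_R, B.finrank_S,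
    fin_sum_comp B.d degSet hD (fun e => Module.finrank ℂ (A (12 * ((T + 1 : ℕ) : ℤ) + 4 - e))),
    fin_sum_comp B.d degSet hD
      (fun e => Module.finrank ℂ (A (12 * ((T + 1 : ℕ) : ℤ) + 4 - 12 + e)))] at hc
  have sumD : ∀ f : ℤ → ℕ, ∑ e ∈ degSet, f e = f 0 + (f 2 + (f 4 + (f 6 + (f 8 + f 10)))) := by
    intro f
    rw [degSet, Finset.sum_insert (by decide), Finset.sum_insert (by decide),
      Finset.sum_insert (by decide), Finset.sum_insert (by decide),
      Finset.sum_insert (by decide), Finset.sum_singleton]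
  rw [sumD, sumD] at hc
  rw [finrank_A_nat (T + 1) 4 (12 * ((T + 1 : ℕ) : ℤ) + 4 - 0) (by push_cast; ring) (by norm_num),
    finrank_A_nat_two (T + 1) (12 * ((T + 1 : ℕ) : ℤ) + 4 - 2) (by push_cast; ring),
    finrank_A_nat (T + 1) 0 (12 * ((T + 1 : ℕ) : ℤ) + 4 - 4) (by push_cast; ring) (by norm_num),
    finrank_A_nat T 10 (12 * ((T + 1 : ℕ) : ℤ) + 4 - 6) (by push_cast; ring) (by norm_num),
    finrank_A_nat T 8 (12 * ((T + 1 : ℕ) : ℤ) + 4 - 8) (by push_cast; ring) (by norm_num),
    finrank_A_nat T 6 (12 * ((T + 1 : ℕ) : ℤ) + 4 - 10) (by push_cast; ring) (by norm_num),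
    finrank_A_nat T 4 (12 * ((T + 1 : ℕ) : ℤ) + 4 - 12 + 0) (by push_cast; ring) (by norm_num),
    finrank_A_nat T 6 (12 * ((T + 1 : ℕ) : ℤ) + 4 - 12 + 2) (by push_cast; ring) (by norm_num),
    finrank_A_nat T 8 (12 * ((T + 1 : ℕ) : ℤ) + 4 - 12 + 4) (by push_cast; ring) (by norm_num),
    finrank_A_nat T 10 (12 * ((T + 1 : ℕ) : ℤ) + 4 - 12 + 6) (by push_cast; ring) (by norm_num),
    finrank_A_nat (T + 1) 0 (12 * ((T + 1 : ℕ) : ℤ) + 4 - 12 + 8) (by push_cast; ring)
      (by norm_num),
    finrank_A_nat_two (T + 1) (12 * ((T + 1 : ℕ) : ℤ) + 4 - 12 + 10) (by push_cast; ring)] at hc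
  -- (6) conclusion
  rw [B.finrank_S_two, fin_natCard_subtype]
  change ((n 10 : ℕ) : ℚ) = _
  unfold ModularCurve.genusFormula
  obtain ⟨h4a, h4b⟩ := h4
  obtain ⟨h6a, h6b, h6c⟩ := h6
  have hc' : (n 0 : ℚ) + n 4 = n 8 + ModularCurve.cuspCount N := by
    have : (n 0 * (T + 1 + 1) + (n 2 * (T + 1) + (n 4 * (T + 1 + 1) + (n 6 * (T + 1)
        + (n 8 * (T + 1) + n 10 * (T + 1))))) : ℚ)
        = n 0 * (T + 1) + (n 2 * (T + 1) + (n 4 * (T + 1) + (n 6 * (T + 1)
        + (n 8 * (T + 1 + 1) + n 10 * (T + 1))))) + ModularCurve.cuspCount N := by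
      exact_mod_cast hc
    linarith
  have e1 : (n 0 : ℚ) = 1 := by exact_mod_cast h0
  have e2 : (n 0 : ℚ) + n 2 + n 4 + n 6 + n 8 + n 10 = ModularCurve.dedekindPsi N := by
    exact_mod_cast htot
  have e3 : 2 * ((n 0 : ℚ) + (n 4 + n 8)) ≤ ModularCurve.dedekindPsi N + ModularCurve.nuTwo N := by
    exact_mod_cast h4a
  have e4 : 2 * ((n 2 : ℚ) + (n 6 + n 10)) + ModularCurve.nuTwo N ≤ ModularCurve.dedekindPsi N := by
    exact_mod_cast h4b
  have e5 : 3 * ((n 0 : ℚ) + n 6)
      ≤ ModularCurve.dedekindPsi N + 2 * ModularCurve.nuThree N := by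
    exact_mod_cast h6a
  have e6 : 3 * ((n 2 : ℚ) + n 8) + ModularCurve.nuThree N ≤ ModularCurve.dedekindPsi N := by
    exact_mod_cast h6b
  have e7 : 3 * ((n 4 : ℚ) + n 10) + ModularCurve.nuThree N ≤ ModularCurve.dedekindPsi N := by
    exact_mod_cast h6c
  linarith

theorem finrank_S_two_eq_genusFormula (N : ℕ) [NeZero N] :
    (Module.finrank ℂ (S N 2) : ℚ) = ModularCurve.genusFormula N := by
  obtain ⟨B⟩ := exists_basis N
  exact B.finrank_S_two_eq

end Fermat.Agent.S20T
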